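import Mathlib
import Fermat.Agent.S17.H.Move
import Fermat.Agent.S17.Pts.Galois

set_option autoImplicit false
set_option linter.unusedSectionVars false
set_option linter.style.haveILetI false

/-!
# S17, package H, seat GB-DATA: the Riemann–Roch part (generic function field)

`h : IsRRField K F`, `K` infinite, `g = genusFF K F`, `W` a canonical divisor in the sense
`ℓ(D) = deg D + 1 - g + ℓ(W - D)` for all `D`.

* `DataRR.exists_section_avoiding` : for `deg B ≥ 2g` an effective divisor `B + div f` avoiding a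
  given finite set of places.
* `DataRR.exists_disjoint_finset`  : `m` effective divisors in the class of `B`, with pairwise
  disjoint supports.
* `DataRR.exists_mem_ell_add_single_eq` : if `ℓ(D) > deg D + 1 - g`, every finite set `T` with
  more than `2g - 2 - deg D` places contains `Q` with `ℓ(D + Q) = ℓ(D)`.
* `DataRR.exists_complement` : for `A ≥ 0`, `ℓ(A) = 1`, `deg A + k ≤ g`, `|T| ≥ 3g`: an effective
  `E` of degree `k`, supported on `T \ supp A`, with `ℓ(A + E) = 1`.
* `DataRR.ell_canon_sub`, `DataRR.not_le_sub_single`, `DataRR.eq_zero_of_le` : the dimension of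
  `L(W' - E)` (`W' ∼ W`), absence of base points on `A`, injectivity on `A`.
-/

noncomputable section

open AlgebraicCurve Fermat.Agent.RR

namespace Fermat.Agent.S17.Pos.DataRR

variable {K F : Type*} [Field K] [Field F] [Algebra K F]

/-- `W` is a canonical divisor: Riemann–Roch holds with `W`. -/
def IsCan (W : Divisor K F) : Prop :=
  ∀ D : Divisor K F,
    (ell D : ℤ) = Divisor.degree D + 1 - (genusFF K F : ℤ) + (ell (W - D) : ℤ)

theorem exists_isCan (h : IsRRField K F) : ∃ W : Divisor K F, IsCan W :=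
  riemann_roch h

theorem IsCan.degree_eq (h : IsRRField K F) {W : Divisor K F} (hW : IsCan W) :
    Divisor.degree W = 2 * (genusFF K F : ℤ) - 2 :=
  (canonical_degree h hW).1

/-- the support of an effective divisor has at most `deg` elements. -/
theorem card_support_le (h : IsRRField K F) {D : Divisor K F} (hD : 0 ≤ D) :
    (D.support.card : ℤ) ≤ Divisor.degree D := by
  rw [degree_eq_sum h]
  have h1 : ∀ v ∈ D.support, (1 : ℤ) ≤ D v := by
    intro v hv
    have h0 : 0 ≤ D v := Finsupp.le_def.mp hD v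
    have hne : D v ≠ 0 := Finsupp.mem_support_iff.mp hv
    omega
  calc (D.support.card : ℤ) = ∑ _v ∈ D.support, (1 : ℤ) := by simp
    _ ≤ ∑ v ∈ D.support, D v := Finset.sum_le_sum h1

/-- a coefficient of an effective divisor is at most the degree. -/
theorem apply_le_degree (h : IsRRField K F) {D : Divisor K F} (hD : 0 ≤ D) (P : Place K F) :
    D P ≤ Divisor.degree D := by
  classical
  rw [degree_eq_sum h]
  by_cases hP : P ∈ D.support
  · exact Finset.single_le_sum (f := fun v => D v) (fun v _ => Finsupp.le_def.mp hD v) hP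
  · rw [Finsupp.notMem_support_iff.mp hP]
    exact Finset.sum_nonneg fun v _ => Finsupp.le_def.mp hD v

/-! ### sections avoiding finitely many places -/

/-- over an infinite field the trivial group has generic (fixed) vectors. -/
theorem genericFixed_bot [Infinite K] :
    Move.GenericFixed (⊥ : Subgroup (SemilinearAut K F)) := by
  classical
  intro V _ _ s hs
  have hne : ∀ i : s, Submodule.comap V.subtype (i : Submodule K F) ≠ ⊤ := by
    rintro ⟨W, hW⟩ htop
    apply hs W hW
    intro f hf
    have : (⟨f, hf⟩ : V) ∈ Submodule.comap V.subtype W := by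
      rw [htop]
      exact Submodule.mem_top
    exact this
  obtain ⟨x, hx⟩ := Submodule.exists_forall_notMem_of_forall_ne_top
    (fun i : s => Submodule.comap V.subtype (i : Submodule K F)) hne
  refine ⟨x, x.2, ?_, ?_⟩
  · intro g hg
    rw [Subgroup.mem_bot.mp hg, one_smul]
  · intro W hW hmem
    exact hx ⟨W, hW⟩ hmem

/-- for `deg B ≥ 2g` there is an effective divisor `B + div f` avoiding a finite set. -/
theorem exists_section_avoiding (h : IsRRField K F) [Infinite K] (B : Divisor K F)
    (hdeg : 2 * (genusFF K F : ℤ) ≤ Divisor.degree B) (S : Finset (Place K F)) :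
    ∃ f : F, f ≠ 0 ∧ 0 ≤ B + divOf h f ∧ ∀ P ∈ S, (B + divOf h f) P = 0 := by
  obtain ⟨f, hf0, -, hnn, -, hS⟩ := Move.exists_fixed_section h ⊥ genericFixed_bot B
    (fun g hg => by rw [Subgroup.mem_bot.mp hg, one_smul]) hdeg S
  exact ⟨f, hf0, hnn, hS⟩

/-- `m` effective divisors linearly equivalent to `B`, with pairwise disjoint supports. -/
theorem exists_disjoint_finset (h : IsRRField K F) [Infinite K] (B : Divisor K F)
    (hdeg : 2 * (genusFF K F : ℤ) ≤ Divisor.degree B) (hpos : 0 < Divisor.degree B) (m : ℕ) :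
    ∃ 𝓑 : Finset (Divisor K F), 𝓑.card = m ∧
      (∀ C ∈ 𝓑, 0 ≤ C ∧ ∃ f : F, f ≠ 0 ∧ C = B + divOf h f) ∧
      ∀ C ∈ 𝓑, ∀ C' ∈ 𝓑, C ≠ C' → ∀ P, C P = 0 ∨ C' P = 0 := by
  classical
  induction m with
  | zero => exact ⟨∅, rfl, by simp, by simp⟩
  | succ m ih =>
    obtain ⟨𝓑, hcard, hgood, hdisj⟩ := ih
    obtain ⟨f, hf0, hnn, hS⟩ := exists_section_avoiding h B hdeg (𝓑.biUnion fun C => C.support)
    set C₀ : Divisor K F := B + divOf h f with hC₀
    have havoid : ∀ C ∈ 𝓑, ∀ P, C P = 0 ∨ C₀ P = 0 := by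
      intro C hC P
      by_cases hP : C P = 0
      · exact Or.inl hP
      · right
        apply hS
        rw [Finset.mem_biUnion]
        exact ⟨C, hC, Finsupp.mem_support_iff.mpr hP⟩
    have hdegC₀ : Divisor.degree C₀ = Divisor.degree B := by
      rw [hC₀, map_add, degree_divOf, add_zero]
    have hnot : C₀ ∉ 𝓑 := by
      intro hmem
      have hzero : C₀ = 0 := by
        ext P
        rcases havoid C₀ hmem P with h1 | h1 <;> simpa using h1
      rw [hzero, map_zero] at hdegC₀
      omega
    refine ⟨insert C₀ 𝓑, ?_, ?_, ?_⟩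
    · rw [Finset.card_insert_of_notMem hnot, hcard]
    · intro C hC
      rcases Finset.mem_insert.mp hC with rfl | hC
      · exact ⟨hnn, f, hf0, rfl⟩
      · exact hgood C hC
    · intro C hC C' hC' hne P
      rcases Finset.mem_insert.mp hC with rfl | hC
      · rcases Finset.mem_insert.mp hC' with rfl | hC'
        · exact absurd rfl hne
        · exact (havoid C' hC' P).symm
      · rcases Finset.mem_insert.mp hC' with rfl | hC'
        · exact havoid C hC P
        · exact hdisj C hC C' hC' hne P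

/-- pigeonhole: among more than `|T|` divisors with pairwise disjoint supports one avoids `T`. -/
theorem exists_avoiding_of_card_lt (𝓑 : Finset (Divisor K F)) (T : Finset (Place K F))
    (hcard : T.card < 𝓑.card)
    (hdisj : ∀ C ∈ 𝓑, ∀ C' ∈ 𝓑, C ≠ C' → ∀ P, C P = 0 ∨ C' P = 0) :
    ∃ C ∈ 𝓑, ∀ P ∈ T, C P = 0 := by
  classical
  by_contra hcon
  push Not at hcon
  have hne𝓑 : 𝓑.Nonempty := Finset.card_pos.mp (by omega)
  obtain ⟨C₁, hC₁⟩ := hne𝓑
  haveI : Nonempty (Place K F) := ⟨(hcon C₁ hC₁).choose⟩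
  choose! p hpT hp using hcon
  have hinj : Set.InjOn p (𝓑 : Set (Divisor K F)) := by
    intro C hC C' hC' heq
    by_contra hne
    rcases hdisj C hC C' hC' hne (p C) with h1 | h1
    · exact hp C hC h1
    · rw [heq] at h1
      exact hp C' hC' h1
  have := Finset.card_le_card_of_injOn p (fun C hC => hpT C hC) hinj
  omega

/-! ### the step lemma inside a fixed finite set -/

/-- if `s ∈ L(W - D)` has exact order at `Q`, then `ℓ(D + Q) = ℓ(D)`. -/
theorem ell_add_single_eq_of_section (h : IsRRField K F) {W : Divisor K F} (hW : IsCan W)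
    (D : Divisor K F) {s : F} (hs : s ∈ riemannRochSpace (W - D)) (hs0 : s ≠ 0)
    (Q : Place K F) (hQ : ((W - D) + divOf h s) Q = 0) :
    ell (D + Finsupp.single Q 1) = ell D := by
  have e1 : W - (D + Finsupp.single Q 1) + Finsupp.single Q 1 = W - D := by abel
  have hnot : s ∉ riemannRochSpace (W - (D + Finsupp.single Q 1)) := by
    intro hmem
    have := ((mem_riemannRochSpace_iff.mp hmem) Q).resolve_left hs0
    rw [Finsupp.add_apply, divOf_apply] at hQ
    simp only [Finsupp.sub_apply, Finsupp.add_apply, Finsupp.single_eq_same] at this hQ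
    omega
  have h2 : ell (W - (D + Finsupp.single Q 1) + Finsupp.single Q 1)
      = ell (W - (D + Finsupp.single Q 1)) + 1 :=
    (ell_add_single_eq_iff h _ Q).mpr ⟨s, by rw [e1]; exact hs, hnot⟩
  rw [e1] at h2
  have h3 := hW D
  have h4 := hW (D + Finsupp.single Q 1)
  rw [degree_add_single h] at h4
  have : ((ell (D + Finsupp.single Q 1) : ℕ) : ℤ) = (ell D : ℤ) := by
    rw [h3, h4, h2]
    push_cast
    ring
  exact_mod_cast this

/-- **step lemma in a finite set**: if `ℓ(D) > deg D + 1 - g`, every finite set `T` with more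
than `2g - 2 - deg D` places contains `Q` with `ℓ(D + Q) = ℓ(D)`. -/
theorem exists_mem_ell_add_single_eq (h : IsRRField K F) {W : Divisor K F} (hW : IsCan W)
    (D : Divisor K F) (hD : Divisor.degree D + 1 - (genusFF K F : ℤ) < (ell D : ℤ))
    (T : Finset (Place K F))
    (hT : 2 * (genusFF K F : ℤ) - 2 - Divisor.degree D < (T.card : ℤ)) :
    ∃ Q ∈ T, ell (D + Finsupp.single Q 1) = ell D := by
  classical
  have h1 := hW D
  have hpos : 1 ≤ ell (W - D) := by
    have : (0 : ℤ) < (ell (W - D) : ℤ) := by linarith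
    exact_mod_cast this
  have hne := Move.ne_bot_of_ell_pos hpos
  obtain ⟨s, hs, hs0⟩ := (Submodule.ne_bot_iff _).mp hne
  set Z : Divisor K F := (W - D) + divOf h s with hZ
  have hZnn : 0 ≤ Z := (Move.nonneg_add_divOf_iff h (W - D) hs0).mpr hs
  have hZdeg : Divisor.degree Z = 2 * (genusFF K F : ℤ) - 2 - Divisor.degree D := by
    rw [hZ, map_add, degree_divOf, add_zero, map_sub, hW.degree_eq h]
  have hcard := card_support_le h hZnn
  have hlt : Z.support.card < T.card := by
    have : (Z.support.card : ℤ) < (T.card : ℤ) := by linarith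
    exact_mod_cast this
  obtain ⟨Q, hQT, hQZ⟩ : ∃ Q ∈ T, Q ∉ Z.support := by
    by_contra hcon
    push Not at hcon
    have := Finset.card_le_card (fun Q hQ => hcon Q hQ : T ⊆ Z.support)
    omega
  exact ⟨Q, hQT, ell_add_single_eq_of_section h hW D hs hs0 Q
    (Finsupp.notMem_support_iff.mp hQZ)⟩

/-- **the complement `E`**: for `A ≥ 0` with `ℓ(A) = 1` and `deg A + k ≤ g`, and a set `T` of at
least `3g` places: an effective divisor `E` of degree `k`, supported on `T \ supp A`, with
`ℓ(A + E) = 1`. -/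
theorem exists_complement (h : IsRRField K F) {W : Divisor K F} (hW : IsCan W)
    (A : Divisor K F) (hA : 0 ≤ A) (hell : ell A = 1) (T : Finset (Place K F))
    (hT : 3 * genusFF K F ≤ T.card) (k : ℕ)
    (hk : Divisor.degree A + k ≤ (genusFF K F : ℤ)) :
    ∃ E : Divisor K F, 0 ≤ E ∧ Divisor.degree E = k ∧
      (∀ P, E P ≠ 0 → P ∈ T ∧ A P = 0) ∧ ell (A + E) = 1 := by
  classical
  induction k with
  | zero => exact ⟨0, le_rfl, by simp, fun P hP => absurd rfl hP, by rw [add_zero, hell]⟩
  | succ k ih =>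
    obtain ⟨E, hE, hdegE, hsupp, hellE⟩ := ih (by push_cast at hk ⊢; linarith)
    have hdegA : 0 ≤ Divisor.degree A := degree_nonneg_of_nonneg h hA
    set T' : Finset (Place K F) := T.filter fun Q => A Q = 0 with hT'
    have hT'card : (T.card : ℤ) ≤ T'.card + Divisor.degree A := by
      have h1 : T.card ≤ T'.card + A.support.card := by
        have hsub : T ⊆ T' ∪ A.support := by
          intro Q hQ
          by_cases hAQ : A Q = 0
          · exact Finset.mem_union_left _ (Finset.mem_filter.mpr ⟨hQ, hAQ⟩)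
          · exact Finset.mem_union_right _ (Finsupp.mem_support_iff.mpr hAQ)
        exact (Finset.card_le_card hsub).trans (Finset.card_union_le _ _)
      have h2 := card_support_le h hA
      have h3 : (T.card : ℤ) ≤ (T'.card : ℤ) + (A.support.card : ℤ) := by exact_mod_cast h1
      linarith
    have hdegAE : Divisor.degree (A + E) = Divisor.degree A + k := by
      rw [map_add, hdegE]
    have hT3 : (3 * genusFF K F : ℤ) ≤ (T.card : ℤ) := by exact_mod_cast hT
    obtain ⟨Q, hQ, hQell⟩ := exists_mem_ell_add_single_eq h hW (A + E)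
      (by rw [hdegAE, hellE]; push_cast at hk ⊢; linarith) T'
      (by rw [hdegAE]; push_cast at hk ⊢; linarith)
    obtain ⟨hQT, hQA⟩ := Finset.mem_filter.mp hQ
    refine ⟨E + Finsupp.single Q 1, ?_, ?_, ?_, ?_⟩
    · exact add_nonneg hE (Finsupp.single_nonneg.mpr zero_le_one)
    · rw [degree_add_single h, hdegE]
      push_cast
      ring
    · intro P hP
      by_cases hPQ : P = Q
      · subst hPQ
        exact ⟨hQT, hQA⟩
      · apply hsupp
        intro hEP
        apply hP
        rw [Finsupp.add_apply, hEP, Finsupp.single_apply, if_neg (Ne.symm hPQ), add_zero]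
    · rw [← add_assoc, hQell, hellE]

/-! ### the spaces `L(V₀ - B₀ - E)` with `V₀ - B₀ ∼ W` -/

/-- `ℓ(V₀ - B₀ - E) = ℓ(E) - deg E - 1 + g` when `B₀ = V₀ - W + div f`. -/
theorem ell_sub_eq (h : IsRRField K F) {W : Divisor K F} (hW : IsCan W)
    {V₀ B₀ : Divisor K F} {f : F} (hf : f ≠ 0) (hB₀ : B₀ = (V₀ - W) + divOf h f)
    (E : Divisor K F) :
    (ell (V₀ - B₀ - E) : ℤ) = (ell E : ℤ) - Divisor.degree E - 1 + (genusFF K F : ℤ) := by
  have e1 : V₀ - B₀ - E = (W - E) + divOf h f⁻¹ := by
    rw [hB₀, divOf_inv]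
    abel
  rw [e1, ell_add_divOf h _ (inv_ne_zero hf)]
  have := hW E
  linarith

/-- membership in `L(D - P)` from membership in `L(D)` and a better order at `P`. -/
theorem mem_sub_single_of_ord (D : Divisor K F) (P : Place K F) {s : F}
    (hs : s ∈ riemannRochSpace D) (hord : s = 0 ∨ -D P + 1 ≤ P.ord s) :
    s ∈ riemannRochSpace (D - Finsupp.single P 1) := by
  classical
  rw [mem_riemannRochSpace_iff] at hs ⊢
  intro v
  rcases hs v with h0 | h1
  · exact Or.inl h0
  · by_cases hv : v = P
    · subst hv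
      rcases hord with h0 | h2
      · exact Or.inl h0
      · right
        rw [Finsupp.sub_apply, Finsupp.single_eq_same]
        omega
    · right
      rw [Finsupp.sub_apply, Finsupp.single_apply, if_neg (Ne.symm hv), sub_zero]
      exact h1

/-- **no base point**: a spanning family of `L(V₀ - B₀ - E)` does not vanish identically at a
place `P` outside `V₀`, `B₀`, `E` with `ℓ(E + P) = ℓ(E)`. -/
theorem exists_ev_ne_zero (h : IsRRField K F) {W : Divisor K F} (hW : IsCan W)
    {V₀ B₀ : Divisor K F} {f : F} (hf : f ≠ 0) (hB₀ : B₀ = (V₀ - W) + divOf h f)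
    (E : Divisor K F) {n : ℕ} (ξ : Fin (n + 1) → F)
    (hspan : Submodule.span K (Set.range ξ) = riemannRochSpace (V₀ - B₀ - E))
    (P : Place K F) (hP : (V₀ - B₀ - E) P = 0)
    (hEP : ell (E + Finsupp.single P 1) = ell E) :
    ∃ i, Pts.ev P (ξ i) ≠ 0 := by
  by_contra hcon
  push Not at hcon
  have hmem : ∀ i, ξ i ∈ riemannRochSpace (V₀ - B₀ - E) := fun i => by
    rw [← hspan]
    exact Submodule.subset_span ⟨i, rfl⟩
  have hle : riemannRochSpace (V₀ - B₀ - E)
      ≤ riemannRochSpace (V₀ - B₀ - E - Finsupp.single P 1) := by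
    rw [← hspan, Submodule.span_le]
    rintro _ ⟨i, rfl⟩
    apply mem_sub_single_of_ord _ P (hmem i)
    by_cases h0 : ξ i = 0
    · exact Or.inl h0
    · right
      have h1 := ((mem_riemannRochSpace_iff.mp (hmem i)) P).resolve_left h0
      rw [hP] at h1 ⊢
      have h2 : 0 ≤ P.ord (ξ i) := by simpa using h1
      have h3 := (Pts.ev_eq_zero_iff h P h0 h2).mp (hcon i)
      omega
  have hfin := finite_riemannRochSpace h (V₀ - B₀ - E - Finsupp.single P 1)
  have h1 : ell (V₀ - B₀ - E) ≤ ell (V₀ - B₀ - E - Finsupp.single P 1) :=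
    Submodule.finrank_mono hle
  have h2 := ell_sub_eq h hW hf hB₀ E
  have h3 := ell_sub_eq h hW hf hB₀ (E + Finsupp.single P 1)
  have e1 : V₀ - B₀ - (E + Finsupp.single P 1) = V₀ - B₀ - E - Finsupp.single P 1 := by abel
  rw [e1, degree_add_single h, hEP] at h3
  have h4 : (ell (V₀ - B₀ - E) : ℤ) ≤ (ell (V₀ - B₀ - E - Finsupp.single P 1) : ℤ) := by
    exact_mod_cast h1
  linarith

/-- **injectivity**: an element of `L(V₀ - B₀ - E)` whose zero divisor `div s + V₀` is `≥ A` is
zero, when `A ≥ 0` is disjoint from `B₀ + E`, `ℓ(A + E) = 1` and `deg (A + E) = g`. -/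
theorem eq_zero_of_le (h : IsRRField K F) {W : Divisor K F} (hW : IsCan W)
    {V₀ B₀ : Divisor K F} {f : F} (hf : f ≠ 0) (hB₀ : B₀ = (V₀ - W) + divOf h f)
    (E A : Divisor K F) (hdisj : ∀ P, A P ≠ 0 → B₀ P = 0 ∧ E P = 0)
    (hell : ell (A + E) = 1) (hdeg : Divisor.degree (A + E) = (genusFF K F : ℤ))
    {s : F} (hs : s ∈ riemannRochSpace (V₀ - B₀ - E)) (hle : A ≤ divOf h s + V₀) :
    s = 0 := by
  by_contra hs0
  have hmem : s ∈ riemannRochSpace (V₀ - B₀ - (E + A)) := by
    rw [mem_riemannRochSpace_iff] at hs ⊢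
    intro v
    right
    have h1 := (hs v).resolve_left hs0
    have h2 := Finsupp.le_def.mp hle v
    rw [Finsupp.add_apply, divOf_apply] at h2
    simp only [Finsupp.sub_apply, Finsupp.add_apply] at h1 ⊢
    by_cases hAv : A v = 0
    · rw [hAv]
      linarith
    · obtain ⟨hb, he⟩ := hdisj v hAv
      rw [hb, he]
      linarith
  have h3 := ell_sub_eq h hW hf hB₀ (E + A)
  rw [add_comm E A, hell, hdeg] at h3
  have h4 : ell (V₀ - B₀ - (A + E)) = 0 := by
    have : (ell (V₀ - B₀ - (A + E)) : ℤ) = 0 := by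
      rw [h3]
      push_cast
      ring
    exact_mod_cast this
  have hfin := finite_riemannRochSpace h (V₀ - B₀ - (A + E))
  have hbot : riemannRochSpace (V₀ - B₀ - (A + E)) = ⊥ := Submodule.finrank_eq_zero.mp h4
  rw [add_comm E A, hbot, Submodule.mem_bot] at hmem
  exact hs0 hmem

/-! ### semilinear automorphisms -/

theorem smul_smul_const (g : SemilinearAut K F) (c : K) (x : F) :
    g • (c • x) = (SemilinearAut.baseAut g c) • (g • x) := by
  rw [Algebra.smul_def, Algebra.smul_def, smul_mul', SemilinearAut.smul_algebraMap]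

/-- a semilinear automorphism maps a span into the span of the images. -/
theorem smul_mem_span (g : SemilinearAut K F) {ι : Type*} (ξ : ι → F) {s : F}
    (hs : s ∈ Submodule.span K (Set.range ξ)) :
    g • s ∈ Submodule.span K (Set.range fun i => g • ξ i) := by
  induction hs using Submodule.span_induction with
  | mem x hx =>
    obtain ⟨i, rfl⟩ := hx
    exact Submodule.subset_span ⟨i, rfl⟩
  | zero => rw [smul_zero]; exact Submodule.zero_mem _
  | add x y _ _ hx hy => rw [smul_add]; exact Submodule.add_mem _ hx hy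
  | smul c x _ hx => rw [smul_smul_const]; exact Submodule.smul_mem _ _ hx

/-- a semilinear automorphism preserves linear independence. -/
theorem linearIndependent_smul (g : SemilinearAut K F) {n : ℕ} {ξ : Fin n → F}
    (hξ : LinearIndependent K ξ) : LinearIndependent K (fun i => g • ξ i) := by
  rw [Fintype.linearIndependent_iff] at hξ ⊢
  intro c hc i
  have h1 : g⁻¹ • (∑ j, c j • (g • ξ j)) = 0 := by rw [hc, smul_zero]
  rw [Finset.smul_sum] at h1
  have h2 : ∀ j, g⁻¹ • (c j • (g • ξ j)) = (SemilinearAut.baseAut g⁻¹ (c j)) • ξ j := by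
    intro j
    rw [smul_smul_const, inv_smul_smul]
  simp only [h2] at h1
  have h3 := hξ (fun j => SemilinearAut.baseAut g⁻¹ (c j)) h1 i
  exact (map_eq_zero_iff _ (SemilinearAut.baseAut g⁻¹).injective).mp h3

theorem smul_le_smul (g : SemilinearAut K F) {D D' : Divisor K F} (hle : D ≤ D') :
    g • D ≤ g • D' := by
  rw [Finsupp.le_def]
  intro w
  rw [SemilinearAut.divisor_smul_apply, SemilinearAut.divisor_smul_apply]
  exact Finsupp.le_def.mp hle _

/-- equivariance of the zero divisor `div s + V₀` for a fixed `V₀`. -/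
theorem smul_divOf_add (h : IsRRField K F) (g : SemilinearAut K F) (s : F) {V₀ : Divisor K F}
    (hV₀ : g • V₀ = V₀) : g • (divOf h s + V₀) = divOf h (g • s) + V₀ := by
  rw [smul_add, Move.smul_divOf, hV₀]

/-- transfer of "no base point on `A`" along a semilinear automorphism fixing `A`. -/
theorem noBase_smul (h : IsRRField K F) (g : SemilinearAut K F) {n : ℕ} {ξ : Fin n → F}
    {A : Divisor K F} (hA : g • A = A)
    (hnb : ∀ P ∈ A.support, ∃ i, Pts.ev P (ξ i) ≠ 0) :
    ∀ P ∈ A.support, ∃ i, Pts.ev P (g • ξ i) ≠ 0 := by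
  intro P hP
  have hQ : g⁻¹ • P ∈ A.support := by
    rw [Finsupp.mem_support_iff] at hP ⊢
    have h1 := SemilinearAut.divisor_smul_apply g A P
    rw [hA] at h1
    rwa [← h1]
  obtain ⟨i, hi⟩ := hnb _ hQ
  refine ⟨i, ?_⟩
  have h3 := Pts.ev_smul h g (g⁻¹ • P) (ξ i)
  rw [smul_inv_smul] at h3
  rw [h3]
  exact (map_ne_zero_iff _ (SemilinearAut.baseAut g).injective).mpr hi

/-- transfer of "injective on `A`" along a semilinear automorphism fixing `A` and `V₀`. -/
theorem inj_smul (h : IsRRField K F) (g : SemilinearAut K F) {n : ℕ} {ξ : Fin n → F}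
    {A V₀ : Divisor K F} (hA : g • A = A) (hV₀ : g • V₀ = V₀)
    (hinj : ∀ s ∈ Submodule.span K (Set.range ξ), A ≤ divOf h s + V₀ → s = 0) :
    ∀ s ∈ Submodule.span K (Set.range fun i => g • ξ i), A ≤ divOf h s + V₀ → s = 0 := by
  intro s hs hle
  have h1 : g⁻¹ • s ∈ Submodule.span K (Set.range ξ) := by
    have h0 := smul_mem_span g⁻¹ (fun i => g • ξ i) hs
    have e : (fun i => g⁻¹ • (g • ξ i)) = ξ := by
      funext i
      rw [inv_smul_smul]
    rwa [e] at h0
  have hV₀' : g⁻¹ • V₀ = V₀ := by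
    rw [inv_smul_eq_iff]
    exact hV₀.symm
  have hA' : g⁻¹ • A = A := by
    rw [inv_smul_eq_iff]
    exact hA.symm
  have h2 : A ≤ divOf h (g⁻¹ • s) + V₀ := by
    have h3 := smul_le_smul g⁻¹ hle
    rwa [smul_divOf_add h g⁻¹ s hV₀', hA'] at h3
  have h5 := hinj _ h1 h2
  exact (smul_eq_zero_iff_eq _).mp h5

/-- a basis of `L(D)` as a tuple of functions. -/
theorem exists_basis_tuple (h : IsRRField K F) (D : Divisor K F) (n : ℕ) (hn : ell D = n) :
    ∃ ξ : Fin n → F, LinearIndependent K ξ ∧
      Submodule.span K (Set.range ξ) = riemannRochSpace D := by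
  haveI := finite_riemannRochSpace h D
  let b := Module.finBasisOfFinrankEq K (riemannRochSpace D)
    (show Module.finrank K (riemannRochSpace D) = n from hn)
  refine ⟨fun i => (b i : F), ?_, ?_⟩
  · exact b.linearIndependent.map' (riemannRochSpace D).subtype (Submodule.ker_subtype _)
  · have h2 : Set.range (fun i => (b i : F)) = (riemannRochSpace D).subtype '' Set.range b := by
      rw [← Set.range_comp]
      rfl
    rw [h2, ← Submodule.map_span, b.span_eq, Submodule.map_top, Submodule.range_subtype]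

/-- `ℓ(E) ≥ 1` for `E ≥ 0`. -/
theorem one_le_ell_of_nonneg (h : IsRRField K F) {E : Divisor K F} (hE : 0 ≤ E) : 1 ≤ ell E := by
  have := ell_mono h hE
  rwa [ell_zero h] at this

/-! ### the finite index set -/

/-- **the generic DATA theorem.**  For `e ≥ 4g` and `V₀ = e P₀` there is a finite set `I` of pairs
`(C, E)` of effective divisors, with `deg (C + E) + g + ℓ(V₀ - C - E) - 2 ≥ e`, such that every
effective `A` with `ℓ(A) = 1`, `P₀ ∉ A`, `deg A = n + 1` has a pair in `I` with
`ℓ(V₀ - C - E) = n + 1`, for which every spanning tuple of `L(V₀ - C - E)` has no base point on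
`A` and is injective on `A`. -/
theorem exists_index (h : IsRRField K F) [Infinite K] (P₀ : Place K F) (e : ℕ)
    (he : 4 * genusFF K F ≤ e) :
    ∃ I : Finset (Divisor K F × Divisor K F),
      (∀ p ∈ I, 0 ≤ p.1 ∧ 0 ≤ p.2 ∧
        (e : ℤ) ≤ Divisor.degree (p.1 + p.2) + (genusFF K F : ℤ)
          + (ell (Finsupp.single P₀ (e : ℤ) - p.1 - p.2) : ℤ) - 2) ∧
      ∀ (A : Divisor K F) (n : ℕ), 0 ≤ A → A P₀ = 0 → ell A = 1 →
        Divisor.degree A = ((n + 1 : ℕ) : ℤ) →
        ∃ p ∈ I, ell (Finsupp.single P₀ (e : ℤ) - p.1 - p.2) = n + 1 ∧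
          ∀ ξ : Fin (n + 1) → F,
            Submodule.span K (Set.range ξ)
              = riemannRochSpace (Finsupp.single P₀ (e : ℤ) - p.1 - p.2) →
            (∀ P ∈ A.support, ∃ i, Pts.ev P (ξ i) ≠ 0) ∧
            ∀ s ∈ Submodule.span K (Set.range ξ),
              A ≤ divOf h s + Finsupp.single P₀ (e : ℤ) → s = 0 := by
  classical
  obtain ⟨W, hW⟩ := exists_isCan h
  haveI : Infinite (Place K F) := infinite_place h
  set g := genusFF K F with hg
  set V₀ : Divisor K F := Finsupp.single P₀ (e : ℤ) with hV₀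
  have hdegV₀ : Divisor.degree V₀ = e := by
    rw [hV₀, Divisor.degree_single, h.deg_one]
    simp
  have hdegB : Divisor.degree (V₀ - W) = (e : ℤ) - 2 * g + 2 := by
    rw [map_sub, hdegV₀, hW.degree_eq h]
    ring
  have he' : (4 * g : ℤ) ≤ (e : ℤ) := by exact_mod_cast he
  obtain ⟨𝓑, h𝓑card, h𝓑good, h𝓑disj⟩ := exists_disjoint_finset h (V₀ - W)
    (by rw [hdegB]; linarith) (by rw [hdegB]; linarith) (g + 1)
  obtain ⟨T₀, hT₀⟩ := Infinite.exists_subset_card_eq (Place K F) (3 * g)
  set 𝓔 : Finset (Divisor K F) := T₀.finsupp (fun _ => Finset.Icc (0 : ℤ) (g : ℤ)) with h𝓔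
  have h𝓔nn : ∀ E ∈ 𝓔, 0 ≤ E := by
    intro E hE
    obtain ⟨hsupp, hval⟩ := Finset.mem_finsupp_iff.mp hE
    rw [Finsupp.le_def]
    intro P
    by_cases hP : P ∈ T₀
    · exact (Finset.mem_Icc.mp (hval P hP)).1
    · have : E P = 0 := by
        by_contra hne
        exact hP (hsupp (Finsupp.mem_support_iff.mpr hne))
      rw [this]
      rfl
  refine ⟨𝓑 ×ˢ 𝓔, ?_, ?_⟩
  · rintro ⟨C, E⟩ hp
    obtain ⟨hC, hE⟩ := Finset.mem_product.mp hp
    obtain ⟨hCnn, f, hf0, hCeq⟩ := h𝓑good C hC
    have hEnn := h𝓔nn E hE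
    refine ⟨hCnn, hEnn, ?_⟩
    have h1 := ell_sub_eq h hW hf0 hCeq E
    have h2 : (1 : ℤ) ≤ (ell E : ℤ) := by exact_mod_cast one_le_ell_of_nonneg h hEnn
    have h3 : Divisor.degree C = (e : ℤ) - 2 * g + 2 := by
      rw [hCeq, map_add, degree_divOf, add_zero, hdegB]
    show (e : ℤ) ≤ Divisor.degree (C + E) + (g : ℤ) + (ell (V₀ - C - E) : ℤ) - 2
    rw [map_add, h1, h3]
    linarith
  · intro A n hA hAP₀ hellA hdegA
    -- `deg A ≤ g`
    have hRI := riemann_inequality h A
    rw [hellA, hdegA] at hRI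
    have hng : n + 1 ≤ g := by
      have : ((n + 1 : ℕ) : ℤ) ≤ (g : ℤ) := by push_cast at hRI ⊢; linarith
      exact_mod_cast this
    -- `C` avoiding `A`
    have hcardA : A.support.card < 𝓑.card := by
      have h1 := card_support_le h hA
      rw [hdegA] at h1
      have h2 : A.support.card ≤ n + 1 := by exact_mod_cast h1
      omega
    obtain ⟨C, hC, hCA⟩ := exists_avoiding_of_card_lt 𝓑 A.support hcardA h𝓑disj
    obtain ⟨hCnn, f, hf0, hCeq⟩ := h𝓑good C hC
    -- `E`
    obtain ⟨E, hEnn, hdegE, hEsupp, hellAE⟩ := exists_complement h hW A hA hellA T₀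
      (by rw [hT₀]) (g - (n + 1)) (by rw [hdegA]; push_cast; omega)
    have hE𝓔 : E ∈ 𝓔 := by
      rw [h𝓔, Finset.mem_finsupp_iff]
      refine ⟨fun P hP => (hEsupp P (Finsupp.mem_support_iff.mp hP)).1, fun P _ => ?_⟩
      rw [Finset.mem_Icc]
      refine ⟨Finsupp.le_def.mp hEnn P, ?_⟩
      have := apply_le_degree h hEnn P
      rw [hdegE] at this
      have h2 : ((g - (n + 1) : ℕ) : ℤ) ≤ (g : ℤ) := by exact_mod_cast Nat.sub_le _ _
      linarith
    have hellE : ell E = 1 := by
      have h1 := one_le_ell_of_nonneg h hEnn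
      have h2 : ell E ≤ ell (A + E) := ell_mono h (le_add_of_nonneg_left hA)
      omega
    have hdim : ell (V₀ - C - E) = n + 1 := by
      have h1 := ell_sub_eq h hW hf0 hCeq E
      rw [hellE, hdegE] at h1
      have : ((ell (V₀ - C - E) : ℕ) : ℤ) = ((n + 1 : ℕ) : ℤ) := by
        rw [h1]
        push_cast
        omega
      exact_mod_cast this
    refine ⟨(C, E), Finset.mem_product.mpr ⟨hC, hE𝓔⟩, hdim, fun ξ hspan => ⟨?_, ?_⟩⟩
    · intro P hP
      have hAP : A P ≠ 0 := Finsupp.mem_support_iff.mp hP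
      have hPP₀ : P ≠ P₀ := fun heq => hAP (heq ▸ hAP₀)
      have hEP : E P = 0 := by
        by_contra hne
        exact hAP (hEsupp P hne).2
      have hzero : (V₀ - C - E) P = 0 := by
        simp only [Finsupp.sub_apply, hV₀, Finsupp.single_apply, if_neg (Ne.symm hPP₀),
          hCA P hP, hEP]
        rfl
      have hEP1 : ell (E + Finsupp.single P 1) = ell E := by
        have h1 : ell E ≤ ell (E + Finsupp.single P 1) := ell_mono h (le_add_single E P)
        have hle : E + Finsupp.single P 1 ≤ A + E := by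
          rw [add_comm A E]
          apply add_le_add_right
          rw [Finsupp.le_def]
          intro v
          have hAv := Finsupp.le_def.mp hA v
          by_cases hv : v = P
          · subst hv
            rw [Finsupp.single_eq_same]
            have : 0 ≤ A v := hAv
            omega
          · rw [Finsupp.single_apply, if_neg (Ne.symm hv)]
            exact hAv
        have h2 : ell (E + Finsupp.single P 1) ≤ ell (A + E) := ell_mono h hle
        omega
      exact exists_ev_ne_zero h hW hf0 hCeq E ξ hspan P hzero hEP1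
    · intro s hs hle
      rw [hspan] at hs
      refine eq_zero_of_le h hW hf0 hCeq E A (fun P hP => ⟨?_, ?_⟩) hellAE ?_ hs hle
      · exact hCA P (Finsupp.mem_support_iff.mpr hP)
      · by_contra hne
        exact hP (hEsupp P hne).2
      · rw [map_add, hdegA, hdegE]
        push_cast
        omega

end Fermat.Agent.S17.Pos.DataRR
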