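import Mathlib
import Fermat.Agent.S17.H.Pos.Props
import Fermat.Agent.S17.H.Pos.DataRR
import Fermat.Agent.S17.H.MoveGlobal
import Fermat.Agent.S17.Pts.Orbit

set_option autoImplicit false
set_option linter.unusedSectionVars false
set_option linter.style.haveILetI false

/-!
# S17, package H, seat GB-DATA: the finite list of determinant data

`detData S hg : DetData S`.

Construction (blueprint `NOTES/blueprint-S17-GB.md`, DATA): `W` canonical, `V₀ = e P₀`,
`𝓑` = `g + 1` effective divisors `C ∼ V₀ - W` with pairwise disjoint supports, `T₀` a set of `3 g`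
places, `𝓔` = the effective divisors supported on `T₀` with coefficients `≤ g`.  For `(C, E)` with
`L(V₀ - C - E) ≠ 0` the datum is the Galois orbit of a basis `ξ` of `L(V₀ - C - E)`.
For a canonical divisor `A` of degree `d = n + 1`: `C` avoiding `A` (pigeonhole) and `E` of degree
`g - d` on `T₀ \ supp A` with `ℓ(A + E) = 1` (`DataRR.exists_complement`).
-/

noncomputable section

open AlgebraicCurve ModularCurve Fermat.Agent.RR

namespace Fermat.Agent.S17.Pos

variable {N : ℕ} [NeZero N]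

/-- `V₀ = e P₀`, the divisor of the embedding. -/
def dataV (S : HSetup N) : DivN N := Finsupp.single S.P₀ (((1 * S.e : ℕ)) : ℤ)

theorem data_secSpace_eq (S : HSetup N) :
    secSpace S.P₀ S.e 1 = riemannRochSpace (dataV S) := rfl

theorem data_zdiv_eq (S : HSetup N) (s : FN N) :
    zdiv (Pairing.hRR N) S.P₀ S.e 1 s = divOf (Pairing.hRR N) s + dataV S := rfl

theorem data_smul_dataV (S : HSetup N) (σ : GQ) :
    arithmeticGalois (modularFunctionFieldFull N) σ • dataV S = dataV S := by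
  unfold dataV
  rw [SemilinearAut.smul_single]
  congr 1
  exact S.P₀_fixed σ

/-! ### Galois orbits of tuples -/

omit [NeZero N] in
/-- the Galois orbit of a tuple of functions is finite. -/
theorem data_finite_orbit {n : ℕ} (ξ : Fin (n + 1) → FN N) :
    (Set.range fun σ : GQ => fun i => Pts.galFun N σ (ξ i)).Finite := by
  classical
  have hex : ∀ i, ∃ L : IntermediateField ℚ Qbar, FiniteDimensional ℚ L ∧
      ∀ σ : GQ, (∀ a ∈ L, σ a = a) → Pts.galFun N σ (ξ i) = ξ i :=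
    fun i => Pts.galFun_open_stab N (ξ i)
  choose L hL hfix using hex
  have hfd : FiniteDimensional ℚ (⨆ i, L i : IntermediateField ℚ Qbar) :=
    IntermediateField.finiteDimensional_iSup_of_finite
  refine Pts.finite_range_of_factors (γ := (⨆ i, L i : IntermediateField ℚ Qbar) →ₐ[ℚ] Qbar) _
    (fun σ : GQ => (σ : Qbar →ₐ[ℚ] Qbar).comp (⨆ i, L i : IntermediateField ℚ Qbar).val)
    fun σ τ hστ => ?_
  have h1 : ∀ a ∈ (⨆ i, L i : IntermediateField ℚ Qbar), (τ⁻¹ * σ) a = a := by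
    intro a ha
    have h2 := DFunLike.congr_fun hστ ⟨a, ha⟩
    have h3 : σ a = τ a := h2
    show τ⁻¹ (σ a) = a
    rw [h3]
    exact τ.symm_apply_apply a
  funext i
  have h4 := hfix i (τ⁻¹ * σ) fun a ha => h1 a (le_iSup L i ha)
  rw [Pts.galFun_mul] at h4
  have h5 := congrArg (Pts.galFun N τ) h4
  rw [← Pts.galFun_mul, mul_inv_cancel, Pts.galFun_one] at h5
  exact h5

/-- the Galois orbit of a tuple, as a finset -/
def dataOrbit {n : ℕ} (ξ : Fin (n + 1) → FN N) : Finset (Fin (n + 1) → FN N) :=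
  (data_finite_orbit ξ).toFinset

omit [NeZero N] in
theorem mem_dataOrbit {n : ℕ} {ξ ξ' : Fin (n + 1) → FN N} :
    ξ' ∈ dataOrbit ξ ↔ ∃ σ : GQ, (fun i => Pts.galFun N σ (ξ i)) = ξ' := by
  unfold dataOrbit
  rw [Set.Finite.mem_toFinset]
  exact Iff.rfl

omit [NeZero N] in
theorem self_mem_dataOrbit {n : ℕ} (ξ : Fin (n + 1) → FN N) : ξ ∈ dataOrbit ξ :=
  mem_dataOrbit.mpr ⟨1, funext fun i => Pts.galFun_one N (ξ i)⟩

/-- the orbit of a tuple of nonzero sections with a common zero divisor of large degree is a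
determinant datum. -/
theorem isDetDatum_dataOrbit (S : HSetup N) {n : ℕ} (ξ : Fin (n + 1) → FN N)
    (hmem : ∀ i, ξ i ∈ secSpace S.P₀ S.e 1) (hne : ∀ i, ξ i ≠ 0)
    (B : DivN N) (hB : 0 ≤ B)
    (hdeg : (S.e : ℤ) ≤ Divisor.degree B + (genusFF Qbar (FN N) : ℤ) + n - 1)
    (hle : ∀ i, B ≤ zdiv (Pairing.hRR N) S.P₀ S.e 1 (ξ i)) :
    IsDetDatum S n (dataOrbit ξ) where
  nonempty := ⟨ξ, self_mem_dataOrbit ξ⟩
  galStable := by
    intro τ ξ' hξ'
    obtain ⟨σ, rfl⟩ := mem_dataOrbit.mp hξ'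
    refine mem_dataOrbit.mpr ⟨τ * σ, ?_⟩
    funext i
    exact Pts.galFun_mul N τ σ (ξ i)
  mem := by
    intro ξ' hξ' i
    obtain ⟨σ, rfl⟩ := mem_dataOrbit.mp hξ'
    have h1 := Move.smul_mem_riemannRochSpace
      (arithmeticGalois (modularFunctionFieldFull N) σ)
      (show ξ i ∈ riemannRochSpace (dataV S) from hmem i)
    rw [data_smul_dataV] at h1
    exact h1
  ne_zero := by
    intro ξ' hξ' i
    obtain ⟨σ, rfl⟩ := mem_dataOrbit.mp hξ'
    intro h0
    apply hne i
    have h1 : arithmeticGalois (modularFunctionFieldFull N) σ • ξ i = 0 := h0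
    exact (smul_eq_zero_iff_eq _).mp h1
  base := by
    intro ξ' hξ'
    obtain ⟨σ, rfl⟩ := mem_dataOrbit.mp hξ'
    refine ⟨arithmeticGalois (modularFunctionFieldFull N) σ • B,
      Move.smul_nonneg_divisor _ hB, ?_, fun i => ?_⟩
    · rw [SemilinearAut.degree_smul]
      exact hdeg
    · have h0 : B ≤ divOf (Pairing.hRR N) (ξ i) + dataV S := hle i
      have h1 := DataRR.smul_le_smul (arithmeticGalois (modularFunctionFieldFull N) σ) h0
      rw [DataRR.smul_divOf_add (Pairing.hRR N) _ _ (data_smul_dataV S σ)] at h1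
      exact h1

/-- transfer of `NoBase` along the Galois orbit, for a Galois-stable divisor. -/
theorem noBase_of_mem_dataOrbit {n : ℕ} {ξ ξ' : Fin (n + 1) → FN N} (hξ' : ξ' ∈ dataOrbit ξ)
    {A : DivN N} (hA : GalStable N A) (hnb : NoBase ξ A) : NoBase ξ' A := by
  obtain ⟨σ, rfl⟩ := mem_dataOrbit.mp hξ'
  exact DataRR.noBase_smul (Pairing.hRR N) (arithmeticGalois (modularFunctionFieldFull N) σ)
    (hA σ) hnb

/-- transfer of `Inj` along the Galois orbit, for a Galois-stable divisor. -/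
theorem inj_of_mem_dataOrbit (S : HSetup N) {n : ℕ} {ξ ξ' : Fin (n + 1) → FN N}
    (hξ' : ξ' ∈ dataOrbit ξ) {A : DivN N} (hA : GalStable N A) (hinj : Inj S ξ A) :
    Inj S ξ' A := by
  obtain ⟨σ, rfl⟩ := mem_dataOrbit.mp hξ'
  exact DataRR.inj_smul (Pairing.hRR N) (arithmeticGalois (modularFunctionFieldFull N) σ)
    (hA σ) (data_smul_dataV S σ) hinj

omit [NeZero N] in
theorem linearIndependent_of_mem_dataOrbit {n : ℕ} {ξ ξ' : Fin (n + 1) → FN N}
    (hξ' : ξ' ∈ dataOrbit ξ) (hli : LinearIndependent Qbar ξ) : LinearIndependent Qbar ξ' := by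
  obtain ⟨σ, rfl⟩ := mem_dataOrbit.mp hξ'
  exact DataRR.linearIndependent_smul (arithmeticGalois (modularFunctionFieldFull N) σ) hli

/-! ### the theorem -/

/-- the orbit of a basis of `L(V₀ - C - E)` is a determinant datum. -/
theorem isDetDatum_of_span (S : HSetup N) {C E : DivN N} (hC : 0 ≤ C) (hE : 0 ≤ E) {n : ℕ}
    (hn : ell (dataV S - C - E) = n + 1)
    (hdeg : (((1 * S.e : ℕ)) : ℤ) ≤ Divisor.degree (C + E) + (genusFF Qbar (FN N) : ℤ)
      + (ell (dataV S - C - E) : ℤ) - 2)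
    (ξ : Fin (n + 1) → FN N) (hli : LinearIndependent Qbar ξ)
    (hspan : Submodule.span Qbar (Set.range ξ) = riemannRochSpace (dataV S - C - E)) :
    IsDetDatum S n (dataOrbit ξ) := by
  have hmemD : ∀ i, ξ i ∈ riemannRochSpace (dataV S - C - E) := fun i => by
    rw [← hspan]
    exact Submodule.subset_span ⟨i, rfl⟩
  have hne : ∀ i, ξ i ≠ 0 := fun i => hli.ne_zero i
  have hleD : dataV S - C - E ≤ dataV S := by
    rw [Finsupp.le_def]
    intro v
    have h1 := Finsupp.le_def.mp hC v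
    have h2 := Finsupp.le_def.mp hE v
    simp only [Finsupp.coe_zero, Pi.zero_apply] at h1 h2
    simp only [Finsupp.sub_apply]
    omega
  refine isDetDatum_dataOrbit S ξ (fun i => riemannRochSpace_mono hleD (hmemD i)) hne (C + E)
    (add_nonneg hC hE) ?_ fun i => ?_
  · rw [hn] at hdeg
    push_cast at hdeg ⊢
    linarith
  · have h1 := (mem_riemannRochSpace_iff_le (Pairing.hRR N) (hne i)).mp (hmemD i)
    show C + E ≤ divOf (Pairing.hRR N) (ξ i) + dataV S
    rw [Finsupp.le_def] at h1 ⊢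
    intro v
    have := h1 v
    simp only [Finsupp.neg_apply, Finsupp.sub_apply, Finsupp.add_apply] at this ⊢
    omega

/-- **Seat GB-DATA.** -/
theorem detData (S : HSetup N) (_hg : 1 ≤ genusFF Qbar (FN N)) : DetData S := by
  classical
  have he : 4 * genusFF Qbar (FN N) ≤ 1 * S.e := by
    have := S.e_large
    omega
  obtain ⟨I, hI1, hI2⟩ := DataRR.exists_index (Pairing.hRR N) S.P₀ (1 * S.e) he
  -- the datum of a pair
  have hbasis : ∀ p : DivN N × DivN N, ∃ Y : Σ n : ℕ, Finset (Fin (n + 1) → FN N),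
      ∀ n : ℕ, ell (dataV S - p.1 - p.2) = n + 1 → ∃ ξ : Fin (n + 1) → FN N,
        Y = ⟨n, dataOrbit ξ⟩ ∧ LinearIndependent Qbar ξ ∧
          Submodule.span Qbar (Set.range ξ) = riemannRochSpace (dataV S - p.1 - p.2) := by
    intro p
    by_cases hr : 1 ≤ ell (dataV S - p.1 - p.2)
    · obtain ⟨ξ₀, hli, hspan⟩ := DataRR.exists_basis_tuple (Pairing.hRR N)
        (dataV S - p.1 - p.2) ((ell (dataV S - p.1 - p.2) - 1) + 1) (by omega)
      refine ⟨⟨ell (dataV S - p.1 - p.2) - 1, dataOrbit ξ₀⟩, fun n hn => ?_⟩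
      obtain rfl : n = ell (dataV S - p.1 - p.2) - 1 := by omega
      exact ⟨ξ₀, rfl, hli, hspan⟩
    · exact ⟨⟨0, ∅⟩, fun n hn => absurd (by omega) hr⟩
  choose Y hY using hbasis
  refine ⟨(I.filter fun p => 1 ≤ ell (dataV S - p.1 - p.2)).image Y, ?_, ?_⟩
  · intro Z hZ
    obtain ⟨p, hp, rfl⟩ := Finset.mem_image.mp hZ
    obtain ⟨hpI, hr⟩ := Finset.mem_filter.mp hp
    obtain ⟨hC, hE, hdeg⟩ := hI1 p hpI
    obtain ⟨n, hn⟩ : ∃ n, ell (dataV S - p.1 - p.2) = n + 1 :=
      ⟨ell (dataV S - p.1 - p.2) - 1, by omega⟩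
    obtain ⟨ξ, hYp, hli, hspan⟩ := hY p n hn
    rw [hYp]
    exact ⟨isDetDatum_of_span S hC hE hn hdeg ξ hli hspan,
      fun ξ' hξ' => linearIndependent_of_mem_dataOrbit hξ' hli⟩
  · intro x A n hA
    obtain ⟨p, hpI, hdim0, hprop⟩ := hI2 A n hA.nonneg hA.base hA.ell_eq hA.degree_eq
    have hdim : ell (dataV S - p.1 - p.2) = n + 1 := hdim0
    obtain ⟨ξ, hYp, hli, hspan⟩ := hY p n hdim
    have hstab : GalStable N A := (Move.IsCanon.galStable S hA).1
    obtain ⟨hnb, hinj⟩ := hprop ξ hspan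
    refine ⟨dataOrbit ξ, ?_, fun ξ' hξ' => ⟨?_, ?_⟩⟩
    · rw [← hYp]
      exact Finset.mem_image.mpr ⟨p, Finset.mem_filter.mpr ⟨hpI, by omega⟩, rfl⟩
    · exact noBase_of_mem_dataOrbit hξ' hstab hnb
    · exact inj_of_mem_dataOrbit S hξ' hstab hinj

end Fermat.Agent.S17.Pos
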