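import Mathlib

set_option autoImplicit false

/-!
# S17, package H, seat GB-DET: a `v`-adapted triangularisation (pure linear algebra)

For every square matrix `M` over a field `K` with an absolute value there is a matrix `c` with
entries of absolute value `≤ 1` and determinant `±1` such that `c * M` is upper triangular.
(Rows of `c` = a basis adapted to the flag cut out by the columns of `M`.)
-/

namespace Fermat.Agent.S17.Pos

open Matrix

variable {K : Type*} [Field K]

/-- A nonzero vector orthogonal to `d` given vectors of `K^(d+1)`. -/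
theorem exists_ne_zero_dotProduct_eq_zero (d : ℕ) (w : Fin d → Fin (d + 1) → K) :
    ∃ s : Fin (d + 1) → K, s ≠ 0 ∧ ∀ l, s ⬝ᵥ w l = 0 := by
  let f : (Fin (d + 1) → K) →ₗ[K] (Fin d → K) :=
    { toFun := fun s l => s ⬝ᵥ w l
      map_add' := fun s t => by ext l; simp [add_dotProduct]
      map_smul' := fun a s => by ext l; simp [smul_dotProduct] }
  have hlt : Module.finrank K (Fin d → K) < Module.finrank K (Fin (d + 1) → K) := by
    simp
  have hker : LinearMap.ker f ≠ ⊥ := LinearMap.ker_ne_bot_of_finrank_lt hlt
  obtain ⟨s, hs, hs0⟩ := (Submodule.ne_bot_iff _).mp hker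
  exact ⟨s, hs0, fun l => congrFun (LinearMap.mem_ker.mp hs) l⟩

/-- Normalisation: a nonzero vector can be scaled to have sup-norm `1`, attained with value `1`. -/
theorem exists_supnorm_normalised (abv : AbsoluteValue K ℝ) (d : ℕ) (s : Fin (d + 1) → K) (hs : s ≠ 0) :
    ∃ (a : K) (i₀ : Fin (d + 1)), a ≠ 0 ∧ a * s i₀ = 1 ∧ ∀ i, abv (a * s i) ≤ 1 := by
  obtain ⟨i₀, -, hi₀⟩ := Finset.exists_max_image Finset.univ (fun i => abv (s i))
    Finset.univ_nonempty
  have hne : s i₀ ≠ 0 := by
    intro h0
    apply hs
    funext i
    have := hi₀ i (Finset.mem_univ i)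
    rw [h0, map_zero] at this
    exact (abv.eq_zero).mp (le_antisymm this (abv.nonneg _))
  refine ⟨(s i₀)⁻¹, i₀, inv_ne_zero hne, inv_mul_cancel₀ hne, fun i => ?_⟩
  rw [map_mul, map_inv₀, inv_mul_le_iff₀ (abv.pos hne), mul_one]
  exact hi₀ i (Finset.mem_univ i)


/-- **`v`-adapted triangularisation.**  For every square matrix `M` there is a matrix `c` with
entries of absolute value `≤ 1` and determinant `±1` such that `c * M` is upper triangular. -/
theorem exists_adapted_matrix (abv : AbsoluteValue K ℝ) :
    ∀ (d : ℕ) (M : Matrix (Fin d) (Fin d) K), ∃ c : Matrix (Fin d) (Fin d) K,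
      (∀ k i, abv (c k i) ≤ 1) ∧ (c.det = 1 ∨ c.det = -1) ∧
        ∀ k l, l < k → (c * M) k l = 0 := by
  intro d
  induction d with
  | zero =>
    intro M
    exact ⟨1, fun k => k.elim0, Or.inl (by simp), fun k => k.elim0⟩
  | succ d ih =>
    intro M
    obtain ⟨s, hs0, hs⟩ := exists_ne_zero_dotProduct_eq_zero d
      (fun l i => M i (Fin.castSucc l))
    obtain ⟨a, i₀, -, hai₀, hale⟩ := exists_supnorm_normalised abv d s hs0
    obtain ⟨c', hc'le, hc'det, hc'tri⟩ := ih (M.submatrix (Fin.succAbove i₀) Fin.castSucc)
    -- the new matrix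
    let c : Matrix (Fin (d + 1)) (Fin (d + 1)) K := fun k =>
      Fin.lastCases (motive := fun _ => Fin (d + 1) → K) (fun i => a * s i)
        (fun k' => Fin.insertNth i₀ (0 : K) (c' k')) k
    have hc_last : ∀ i, c (Fin.last d) i = a * s i := fun i => by
      simp only [c, Fin.lastCases_last]
    have hc_cast_same : ∀ k', c (Fin.castSucc k') i₀ = 0 := fun k' => by
      simp only [c, Fin.lastCases_castSucc, Fin.insertNth_apply_same]
    have hc_cast_above : ∀ k' j, c (Fin.castSucc k') (i₀.succAbove j) = c' k' j := fun k' j => by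
      simp only [c, Fin.lastCases_castSucc, Fin.insertNth_apply_succAbove]
    refine ⟨c, ?_, ?_, ?_⟩
    · intro k i
      induction k using Fin.lastCases with
      | last => rw [hc_last]; exact hale i
      | cast k' =>
        induction i using Fin.succAboveCases i₀ with
        | x => rw [hc_cast_same, map_zero]; exact zero_le_one
        | p j => rw [hc_cast_above]; exact hc'le k' j
    · have hdet : c.det = (-1) ^ ((Fin.last d : ℕ) + (i₀ : ℕ)) * c'.det := by
        rw [Matrix.det_succ_column c i₀, Fin.sum_univ_castSucc]
        have h1 : ∀ k' : Fin d, (-1 : K) ^ ((Fin.castSucc k' : ℕ) + (i₀ : ℕ)) *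
            c (Fin.castSucc k') i₀ *
            (c.submatrix (Fin.castSucc k').succAbove i₀.succAbove).det = 0 := fun k' => by
          rw [hc_cast_same, mul_zero, zero_mul]
        rw [Finset.sum_eq_zero (fun k' _ => h1 k'), zero_add, hc_last, hai₀, mul_one]
        congr 1
        congr 1
        ext k' j
        simp only [Matrix.submatrix_apply, Fin.succAbove_last]
        exact hc_cast_above k' j
      rcases neg_one_pow_eq_or K ((Fin.last d : ℕ) + (i₀ : ℕ)) with h | h <;>
        rcases hc'det with h' | h' <;> rw [hdet, h, h'] <;> simp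
    · intro k l hlk
      induction k using Fin.lastCases with
      | last =>
        have hl : l ≠ Fin.last d := ne_of_lt hlk
        obtain ⟨l', rfl⟩ : ∃ l', l = Fin.castSucc l' :=
          ⟨l.castPred hl, (Fin.castSucc_castPred l hl).symm⟩
        rw [Matrix.mul_apply]
        have := hs l'
        simp only [dotProduct] at this
        calc ∑ i, c (Fin.last d) i * M i (Fin.castSucc l')
            = ∑ i, a * (s i * M i (Fin.castSucc l')) := by
              refine Finset.sum_congr rfl fun i _ => ?_
              rw [hc_last, mul_assoc]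
          _ = a * ∑ i, s i * M i (Fin.castSucc l') := by rw [Finset.mul_sum]
          _ = 0 := by rw [this, mul_zero]
      | cast k' =>
        have hl : l ≠ Fin.last d := fun h => by
          rw [h] at hlk
          exact absurd hlk (not_lt.mpr (Fin.le_last _))
        obtain ⟨l', rfl⟩ : ∃ l', l = Fin.castSucc l' :=
          ⟨l.castPred hl, (Fin.castSucc_castPred l hl).symm⟩
        have hlk' : l' < k' := by simpa using hlk
        rw [Matrix.mul_apply, Fin.sum_univ_succAbove _ i₀, hc_cast_same, zero_mul, zero_add]
        have := hc'tri k' l' hlk'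
        rw [Matrix.mul_apply] at this
        rw [← this]
        refine Finset.sum_congr rfl fun j _ => ?_
        rw [hc_cast_above, Matrix.submatrix_apply]

end Fermat.Agent.S17.Pos
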