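import Mathlib
import Fermat.Agent.S17.Pts.Galois

set_option autoImplicit false

/-!
# S17, package H, seat GB-DETLOC (helper96): Taylor coefficients at a place (generic part)

`tay P π l f` is the `l`-th Taylor coefficient of `f` at `P` with respect to the uniformizer `π`:
`tay 0 = ev P`, `tay (l+1) f = tay l ((f - f(P)) / π)`.

* `tay_add`, `tay_smul`, `tay_sum_smul` : linearity on functions regular at `P`;
* `tay_eq_zero_of_le_ord`, `tay_eq_ev_div_pow` : if `l ≤ ord_P f` then `tay k f = 0` for `k < l`
  and `tay l f = ev P (f / π ^ l)`;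
* `le_ord_of_tay_eq_zero` : conversely, if `tay k f = 0` for all `k < l` then `f = 0 ∨ l ≤ ord_P f`;
* `tay_smul_aut` : `tay (g • P) (g • π) l (g • f) = baseAut g (tay P π l f)`.
-/

noncomputable section

open AlgebraicCurve

namespace Fermat.Agent.S17.Pos

open Fermat.Agent.RR Fermat.Agent.S17.Pts

variable {K F : Type*} [Field K] [Field F] [Algebra K F]

/-- the remainder `(f - f(P)) / π` -/
def tayRem (P : Place K F) (π : F) (f : F) : F := (f - algebraMap K F (ev P f)) / π

/-- the `l`-th Taylor coefficient of `f` at `P` with respect to `π` -/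
def tay (P : Place K F) (π : F) : ℕ → F → K
  | 0, f => ev P f
  | l + 1, f => tay P π l (tayRem P π f)

@[simp] theorem tay_zero (P : Place K F) (π : F) (f : F) : tay P π 0 f = ev P f := rfl

theorem tay_succ (P : Place K F) (π : F) (l : ℕ) (f : F) :
    tay P π (l + 1) f = tay P π l (tayRem P π f) := rfl

theorem ne_zero_of_ord_eq_one {P : Place K F} {π : F} (hπ : P.ord π = 1) : π ≠ 0 := by
  rintro rfl
  rw [Place.ord_zero] at hπ
  exact zero_ne_one hπ

theorem ord_div_eq (P : Place K F) {f g : F} (hf : f ≠ 0) (hg : g ≠ 0) :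
    P.ord (f / g) = P.ord f - P.ord g := by
  rw [div_eq_mul_inv, Place.ord_mul P hf (inv_ne_zero hg), Place.ord_inv]
  ring

theorem ord_smul_nonneg (P : Place K F) (c : K) {f : F} (hf : 0 ≤ P.ord f) :
    0 ≤ P.ord (c • f) := by
  rcases eq_or_ne c 0 with rfl | hc
  · rw [zero_smul, Place.ord_zero]
  rcases eq_or_ne f 0 with rfl | hf0
  · rw [smul_zero, Place.ord_zero]
  rw [Algebra.smul_def, Place.ord_mul P (by simpa using hc) hf0,
    Fermat.Agent.S24Res.ord_algebraMap, zero_add]
  exact hf

theorem ord_add_nonneg (P : Place K F) {f g : F} (hf : 0 ≤ P.ord f) (hg : 0 ≤ P.ord g) :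
    0 ≤ P.ord (f + g) :=
  Fermat.Agent.S24Res.ord_nonneg_of_mem P
    (add_mem (Fermat.Agent.S24Res.mem_of_ord_nonneg P hf)
      (Fermat.Agent.S24Res.mem_of_ord_nonneg P hg))

theorem tay_zero_fun (P : Place K F) (π : F) (l : ℕ) : tay P π l 0 = 0 := by
  induction l with
  | zero => exact ev_zero P
  | succ l ih =>
    rw [tay_succ]
    have : tayRem P π 0 = 0 := by
      unfold tayRem
      rw [ev_zero, map_zero, sub_zero, zero_div]
    rw [this]
    exact ih

theorem ord_sum_smul_nonneg (P : Place K F) {ι : Type*} (s : Finset ι) (c : ι → K)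
    (ξ : ι → F) (hξ : ∀ i ∈ s, 0 ≤ P.ord (ξ i)) : 0 ≤ P.ord (∑ i ∈ s, c i • ξ i) := by
  classical
  induction s using Finset.induction_on with
  | empty => simp
  | insert a s ha ih =>
    rw [Finset.sum_insert ha]
    exact ord_add_nonneg P (ord_smul_nonneg P _ (hξ a (Finset.mem_insert_self a s)))
      (ih fun i hi => hξ i (Finset.mem_insert_of_mem hi))

section RR

variable (h : IsRRField K F)
include h

/-- the remainder of a regular function is regular -/
theorem ord_tayRem_nonneg (P : Place K F) {π : F} (hπ : P.ord π = 1) {f : F}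
    (hf : 0 ≤ P.ord f) : 0 ≤ P.ord (tayRem P π f) := by
  unfold tayRem
  rcases congAt_ev h P hf with h0 | h0
  · rw [← h0, sub_self, zero_div, Place.ord_zero]
  · have hne : f - algebraMap K F (ev P f) ≠ 0 := by
      intro h1
      rw [h1, Place.ord_zero] at h0
      exact lt_irrefl _ h0
    rw [ord_div_eq P hne (ne_zero_of_ord_eq_one hπ), hπ]
    omega

theorem tayRem_add (P : Place K F) (π : F) {f g : F} (hf : 0 ≤ P.ord f) (hg : 0 ≤ P.ord g) :
    tayRem P π (f + g) = tayRem P π f + tayRem P π g := by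
  unfold tayRem
  rw [ev_add h P hf hg, map_add, ← add_div]
  congr 1
  ring

theorem tayRem_smul (P : Place K F) (π : F) (c : K) {f : F} (hf : 0 ≤ P.ord f) :
    tayRem P π (c • f) = c • tayRem P π f := by
  unfold tayRem
  rw [ev_smul_const h P c hf, map_mul, Algebra.smul_def, Algebra.smul_def, ← mul_sub,
    mul_div_assoc]

/-- additivity of the Taylor coefficients on regular functions -/
theorem tay_add (P : Place K F) {π : F} (hπ : P.ord π = 1) (l : ℕ) :
    ∀ {f g : F}, 0 ≤ P.ord f → 0 ≤ P.ord g →
      tay P π l (f + g) = tay P π l f + tay P π l g := by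
  induction l with
  | zero => intro f g hf hg; exact ev_add h P hf hg
  | succ l ih =>
    intro f g hf hg
    rw [tay_succ, tay_succ, tay_succ, tayRem_add h P π hf hg]
    exact ih (ord_tayRem_nonneg h P hπ hf) (ord_tayRem_nonneg h P hπ hg)

/-- homogeneity of the Taylor coefficients on regular functions -/
theorem tay_smul (P : Place K F) {π : F} (hπ : P.ord π = 1) (l : ℕ) :
    ∀ (c : K) {f : F}, 0 ≤ P.ord f → tay P π l (c • f) = c * tay P π l f := by
  induction l with
  | zero => intro c f hf; exact ev_smul_const h P c hf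
  | succ l ih =>
    intro c f hf
    rw [tay_succ, tay_succ, tayRem_smul h P π c hf]
    exact ih c (ord_tayRem_nonneg h P hπ hf)

/-- linearity of the Taylor coefficients on regular functions -/
theorem tay_sum_smul (P : Place K F) {π : F} (hπ : P.ord π = 1) (l : ℕ) {ι : Type*}
    (s : Finset ι) (c : ι → K) (ξ : ι → F) (hξ : ∀ i ∈ s, 0 ≤ P.ord (ξ i)) :
    tay P π l (∑ i ∈ s, c i • ξ i) = ∑ i ∈ s, c i * tay P π l (ξ i) := by
  classical
  induction s using Finset.induction_on with
  | empty => simp [tay_zero_fun]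
  | insert a s ha ih =>
    have h1 : ∀ i ∈ s, 0 ≤ P.ord (ξ i) := fun i hi => hξ i (Finset.mem_insert_of_mem hi)
    have h2 : 0 ≤ P.ord (ξ a) := hξ a (Finset.mem_insert_self a s)
    rw [Finset.sum_insert ha, Finset.sum_insert ha,
      tay_add h P hπ l (ord_smul_nonneg P _ h2) (ord_sum_smul_nonneg P s c ξ h1),
      tay_smul h P hπ l _ h2, ih h1]

/-- the remainder of a function vanishing at `P` is `f / π` -/
theorem tayRem_of_ord_pos (P : Place K F) (π : F) {f : F} (hf : 0 < P.ord f) :
    tayRem P π f = f / π := by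
  unfold tayRem
  have hf0 : f ≠ 0 := by
    rintro rfl
    rw [Place.ord_zero] at hf
    exact lt_irrefl _ hf
  rw [(ev_eq_zero_iff h P hf0 hf.le).mpr hf, map_zero, sub_zero]

/-- if `l ≤ ord_P f` then the Taylor coefficients of index `< l` vanish -/
theorem tay_eq_zero_of_le_ord (P : Place K F) {π : F} (hπ : P.ord π = 1) :
    ∀ (l : ℕ) {f : F}, f ≠ 0 → (l : ℤ) ≤ P.ord f → ∀ k, k < l → tay P π k f = 0 := by
  intro l
  induction l with
  | zero => intro f _ _ k hk; exact absurd hk (Nat.not_lt_zero k)
  | succ l ih =>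
    intro f hf0 hf k hk
    have hpos : 0 < P.ord f := by push_cast at hf; omega
    cases k with
    | zero => exact (ev_eq_zero_iff h P hf0 hpos.le).mpr hpos
    | succ k =>
      rw [tay_succ, tayRem_of_ord_pos h P π hpos]
      have hπ0 := ne_zero_of_ord_eq_one hπ
      refine ih (div_ne_zero hf0 hπ0) ?_ k (Nat.lt_of_succ_lt_succ hk)
      rw [ord_div_eq P hf0 hπ0, hπ]
      push_cast at hf
      omega

/-- if `l ≤ ord_P f` then the `l`-th Taylor coefficient is the value of `f / π ^ l` -/
theorem tay_eq_ev_div_pow (P : Place K F) {π : F} (hπ : P.ord π = 1) :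
    ∀ (l : ℕ) {f : F}, f ≠ 0 → (l : ℤ) ≤ P.ord f → tay P π l f = ev P (f / π ^ l) := by
  intro l
  induction l with
  | zero => intro f _ _; simp
  | succ l ih =>
    intro f hf0 hf
    have hpos : 0 < P.ord f := by push_cast at hf; omega
    have hπ0 := ne_zero_of_ord_eq_one hπ
    rw [tay_succ, tayRem_of_ord_pos h P π hpos, ih (div_ne_zero hf0 hπ0) (by
      rw [ord_div_eq P hf0 hπ0, hπ]
      push_cast at hf
      omega)]
    congr 1
    rw [pow_succ, div_div, mul_comm]

/-- if the Taylor coefficients of index `< l` of a regular function vanish then `l ≤ ord_P f` -/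
theorem le_ord_of_tay_eq_zero (P : Place K F) {π : F} (hπ : P.ord π = 1) :
    ∀ (l : ℕ) {f : F}, f ≠ 0 → 0 ≤ P.ord f → (∀ k, k < l → tay P π k f = 0) →
      (l : ℤ) ≤ P.ord f := by
  intro l
  induction l with
  | zero => intro f _ hf _; simpa using hf
  | succ l ih =>
    intro f hf0 hf hk
    have h0 : ev P f = 0 := hk 0 (Nat.succ_pos l)
    have hpos : 0 < P.ord f := (ev_eq_zero_iff h P hf0 hf).mp h0
    have hπ0 := ne_zero_of_ord_eq_one hπ
    have hrem := tayRem_of_ord_pos h P π hpos
    have hord : P.ord (f / π) = P.ord f - 1 := by rw [ord_div_eq P hf0 hπ0, hπ]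
    have := ih (div_ne_zero hf0 hπ0) (by rw [hord]; omega) (fun k hkl => by
      have := hk (k + 1) (Nat.succ_lt_succ hkl)
      rwa [tay_succ, hrem] at this)
    rw [hord] at this
    push_cast
    omega

/-- Galois equivariance of the Taylor coefficients -/
theorem tay_smul_aut (g : SemilinearAut K F) (P : Place K F) (π : F) (l : ℕ) :
    ∀ f : F, tay (g • P) (g • π) l (g • f) = SemilinearAut.baseAut g (tay P π l f) := by
  induction l with
  | zero => intro f; exact ev_smul h g P f
  | succ l ih =>
    intro f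
    rw [tay_succ, tay_succ, ← ih]
    congr 1
    unfold tayRem
    rw [ev_smul h g P f, smul_div₀', smul_sub, SemilinearAut.smul_algebraMap]

end RR

end Fermat.Agent.S17.Pos
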