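import Mathlib
import Fermat.Agent.S17.H.Pos.Props
import Fermat.Agent.S17.H.Pos.Tay

set_option autoImplicit false

/-!
# S17, package H, seat GB-DETLOC (helper96): the confluent (jet) determinant

* `colSet A`, `Col A` : the columns `(P, l)`, `l < A(P)`, of an effective divisor `A`;
* `jetMat U ξ A c`    : the matrix `[tay P π_P l (ξ_i)]_{i, (P,l)}` for an enumeration `c` of the
                        columns;
* `jetSq U n ξ A`     : the square of its determinant (independent of the enumeration; `0` if the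
                        number of columns is not `n + 1`);
* `jetSq_galois`, `jetSq_ne_zero` : Galois equivariance and nonvanishing.
-/

noncomputable section

open AlgebraicCurve ModularCurve Fermat.Agent.RR

namespace Fermat.Agent.S17.Pos

variable {N : ℕ}

/-- the columns `(P, l)`, `l < A(P)` -/
def colSet (A : DivN N) : Finset (Σ _ : PtN N, ℕ) :=
  open Classical in A.support.sigma fun P => Finset.range (A P).toNat

theorem mem_colSet {A : DivN N} {x : Σ _ : PtN N, ℕ} :
    x ∈ colSet A ↔ ((x.2 : ℕ) : ℤ) < A x.1 := by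
  classical
  unfold colSet
  rw [Finset.mem_sigma, Finset.mem_range, Finsupp.mem_support_iff]
  constructor
  · rintro ⟨-, h2⟩
    omega
  · intro h
    refine ⟨fun h0 => ?_, by omega⟩
    rw [h0] at h
    omega

/-- the type of columns -/
abbrev Col (A : DivN N) : Type := ↥(colSet A)

variable [NeZero N]

theorem card_col {A : DivN N} (hA : 0 ≤ A) {n : ℕ}
    (hdeg : Divisor.degree A = ((n + 1 : ℕ) : ℤ)) : Fintype.card (Col A) = n + 1 := by
  classical
  rw [Fintype.card_coe]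
  unfold colSet
  rw [Finset.card_sigma]
  simp only [Finset.card_range]
  rw [degree_eq_sum (Pairing.hRR N)] at hdeg
  have h1 : ((∑ P ∈ A.support, (A P).toNat : ℕ) : ℤ) = ∑ P ∈ A.support, A P := by
    push_cast
    refine Finset.sum_congr rfl fun P _ => ?_
    exact Int.toNat_of_nonneg (Finsupp.le_def.mp hA P)
  have h2 : ((∑ P ∈ A.support, (A P).toNat : ℕ) : ℤ) = ((n + 1 : ℕ) : ℤ) := by
    rw [h1, hdeg]
  exact_mod_cast h2

/-- the jet matrix with respect to an enumeration of the columns -/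
def jetMat {S : HSetup N} (U : Unif S) {n : ℕ} (ξ : Fin (n + 1) → FN N) (A : DivN N)
    (c : Fin (n + 1) ≃ Col A) : Matrix (Fin (n + 1)) (Fin (n + 1)) Qbar :=
  fun i t => tay (c t).1.1 (U.π (c t).1.1) (c t).1.2 (ξ i)

/-- `Δ(ξ, A)²` -/
def jetSq {S : HSetup N} (U : Unif S) (n : ℕ) (ξ : Fin (n + 1) → FN N) (A : DivN N) : Qbar :=
  open Classical in
  if h : Nonempty (Fin (n + 1) ≃ Col A) then (jetMat U ξ A h.some).det ^ 2 else 0

theorem jetMat_eq_submatrix {S : HSetup N} (U : Unif S) {n : ℕ} (ξ : Fin (n + 1) → FN N)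
    (A : DivN N) (c c' : Fin (n + 1) ≃ Col A) :
    jetMat U ξ A c' = (jetMat U ξ A c).submatrix id (c'.trans c.symm) := by
  ext i t
  simp [jetMat]

/-- `jetSq` does not depend on the enumeration of the columns -/
theorem jetSq_eq {S : HSetup N} (U : Unif S) {n : ℕ} (ξ : Fin (n + 1) → FN N) (A : DivN N)
    (c : Fin (n + 1) ≃ Col A) : jetSq U n ξ A = (jetMat U ξ A c).det ^ 2 := by
  classical
  unfold jetSq
  rw [dif_pos ⟨c⟩, jetMat_eq_submatrix U ξ A c (Nonempty.some ⟨c⟩), Matrix.det_permute', mul_pow]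
  have : ((Equiv.Perm.sign ((Nonempty.some ⟨c⟩ : Fin (n + 1) ≃ Col A).trans c.symm) : ℤ) :
      Qbar) ^ 2 = 1 := by
    rcases Int.units_eq_one_or (Equiv.Perm.sign
      ((Nonempty.some ⟨c⟩ : Fin (n + 1) ≃ Col A).trans c.symm)) with h | h <;> rw [h] <;> simp
  rw [this, one_mul]

/-! ### Galois equivariance -/

theorem galDiv_galPlace (σ : GQ) (A : DivN N) (P : PtN N) :
    galDiv N σ A (Pts.galPlace N σ P) = A P :=
  SemilinearAut.divisor_smul_apply_smul _ A P

theorem galPlace_inv_galPlace (σ : GQ) (P : PtN N) :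
    Pts.galPlace N σ⁻¹ (Pts.galPlace N σ P) = P := by
  rw [← Pts.galPlace_mul, inv_mul_cancel, Pts.galPlace_one]

theorem galPlace_galPlace_inv (σ : GQ) (P : PtN N) :
    Pts.galPlace N σ (Pts.galPlace N σ⁻¹ P) = P := by
  rw [← Pts.galPlace_mul, mul_inv_cancel, Pts.galPlace_one]

/-- the action of Galois on the columns -/
def colMap (σ : GQ) (A : DivN N) : Col A ≃ Col (galDiv N σ A) where
  toFun x := ⟨⟨Pts.galPlace N σ x.1.1, x.1.2⟩, by
    have := mem_colSet.mp x.2
    rw [mem_colSet]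
    show ((x.1.2 : ℕ) : ℤ) < galDiv N σ A (Pts.galPlace N σ x.1.1)
    rwa [galDiv_galPlace]⟩
  invFun y := ⟨⟨Pts.galPlace N σ⁻¹ y.1.1, y.1.2⟩, by
    have := mem_colSet.mp y.2
    rw [mem_colSet]
    show ((y.1.2 : ℕ) : ℤ) < A (Pts.galPlace N σ⁻¹ y.1.1)
    rwa [← galDiv_galPlace σ A (Pts.galPlace N σ⁻¹ y.1.1), galPlace_galPlace_inv]⟩
  left_inv x := by
    apply Subtype.ext
    show (⟨Pts.galPlace N σ⁻¹ (Pts.galPlace N σ x.1.1), x.1.2⟩ : Σ _ : PtN N, ℕ) = x.1
    rw [galPlace_inv_galPlace]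
  right_inv y := by
    apply Subtype.ext
    show (⟨Pts.galPlace N σ (Pts.galPlace N σ⁻¹ y.1.1), y.1.2⟩ : Σ _ : PtN N, ℕ) = y.1
    rw [galPlace_galPlace_inv]

/-- Galois equivariance of the Taylor coefficients on `X₀(N)` -/
theorem tay_galois (σ : GQ) (P : PtN N) (π f : FN N) (l : ℕ) :
    tay (Pts.galPlace N σ P) (Pts.galFun N σ π) l (Pts.galFun N σ f) = σ (tay P π l f) :=
  tay_smul_aut (Pairing.hRR N) _ P π l f

/-- **Galois equivariance of `jetSq`.** -/
theorem jetSq_galois {S : HSetup N} (U : Unif S) (σ : GQ) (n : ℕ) (ξ : Fin (n + 1) → FN N)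
    (A : DivN N) :
    σ (jetSq U n ξ A) = jetSq U n (fun i => Pts.galFun N σ (ξ i)) (galDiv N σ A) := by
  classical
  by_cases hc : Nonempty (Fin (n + 1) ≃ Col A)
  · obtain ⟨c⟩ := hc
    rw [jetSq_eq U ξ A c, jetSq_eq U _ _ (c.trans (colMap σ A)), map_pow]
    congr 1
    have hmat : jetMat U (fun i => Pts.galFun N σ (ξ i)) (galDiv N σ A) (c.trans (colMap σ A))
        = (jetMat U ξ A c).map (σ : Qbar →+* Qbar) := by
      ext i t
      simp only [jetMat, Matrix.map_apply, Equiv.trans_apply]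
      show tay (Pts.galPlace N σ (c t).1.1) (U.π (Pts.galPlace N σ (c t).1.1)) (c t).1.2
        (Pts.galFun N σ (ξ i)) = σ _
      rw [← U.equivariant σ, tay_galois]
    rw [hmat]
    exact RingHom.map_det (σ : Qbar →+* Qbar) (jetMat U ξ A c)
  · have hc' : ¬ Nonempty (Fin (n + 1) ≃ Col (galDiv N σ A)) := by
      rintro ⟨c'⟩
      exact hc ⟨c'.trans (colMap σ A).symm⟩
    unfold jetSq
    rw [dif_neg hc, dif_neg hc', map_zero]

/-! ### nonvanishing -/

/-- sections of `V₁` are regular away from `P₀` -/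
theorem ord_nonneg_of_mem_secSpace {S : HSetup N} {f : FN N} (hf : f ∈ secSpace S.P₀ S.e 1)
    {P : PtN N} (hP : P ≠ S.P₀) : 0 ≤ P.ord f := by
  classical
  rcases (mem_riemannRochSpace_iff.mp hf) P with h0 | h0
  · rw [h0, Place.ord_zero]
  · rw [Finsupp.single_apply, if_neg (Ne.symm hP)] at h0
    simpa using h0

theorem ne_base_of_mem_colSet {S : HSetup N} {A : DivN N} (hbase : A S.P₀ = 0)
    (x : Col A) : x.1.1 ≠ S.P₀ := by
  intro h
  have := mem_colSet.mp x.2
  rw [h, hbase] at this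
  omega

/-- the jet of a linear combination -/
theorem jetMat_vecMul {S : HSetup N} (U : Unif S) {n : ℕ} (ξ : Fin (n + 1) → FN N)
    (hξ : ∀ i, ξ i ∈ secSpace S.P₀ S.e 1) (A : DivN N) (hbase : A S.P₀ = 0)
    (c : Fin (n + 1) ≃ Col A) (w : Fin (n + 1) → Qbar) (t : Fin (n + 1)) :
    (Matrix.vecMul w (jetMat U ξ A c)) t
      = tay (c t).1.1 (U.π (c t).1.1) (c t).1.2 (∑ i, w i • ξ i) := by
  rw [tay_sum_smul (Pairing.hRR N) _ (U.ord_eq _) _ Finset.univ w ξ
    (fun i _ => ord_nonneg_of_mem_secSpace (hξ i) (ne_base_of_mem_colSet hbase (c t)))]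
  simp only [Matrix.vecMul, dotProduct, jetMat]

/-- a section of `V₁` all of whose Taylor coefficients on the columns of `A` vanish, vanishes
on `A` -/
theorem le_zdiv_of_tay_eq_zero {S : HSetup N} (U : Unif S) {A : DivN N} (hA : 0 ≤ A)
    (hbase : A S.P₀ = 0) {s : FN N} (hs : s ∈ secSpace S.P₀ S.e 1) (hs0 : s ≠ 0)
    (htay : ∀ x : Col A, tay x.1.1 (U.π x.1.1) x.1.2 s = 0) :
    A ≤ zdiv (Pairing.hRR N) S.P₀ S.e 1 s := by
  classical
  rw [Finsupp.le_def]
  intro P
  by_cases hP : A P = 0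
  · rw [hP]
    exact zdiv_nonneg (Pairing.hRR N) S.P₀ S.e 1 hs hs0 P
  · have hPpos : 0 < A P := lt_of_le_of_ne (Finsupp.le_def.mp hA P) (Ne.symm hP)
    have hP0 : P ≠ S.P₀ := by
      rintro rfl
      exact hP hbase
    rw [zdiv_apply, Finsupp.single_apply, if_neg (Ne.symm hP0), add_zero]
    have h1 := le_ord_of_tay_eq_zero (Pairing.hRR N) P (U.ord_eq P) (A P).toNat hs0
      (ord_nonneg_of_mem_secSpace hs hP0) (fun k hk => by
        have hmem : (⟨P, k⟩ : Σ _ : PtN N, ℕ) ∈ colSet A := by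
          rw [mem_colSet]
          show (k : ℤ) < A P
          omega
        exact htay ⟨⟨P, k⟩, hmem⟩)
    rw [Int.toNat_of_nonneg hPpos.le] at h1
    exact h1

/-- **nonvanishing of `jetSq`.** -/
theorem jetSq_ne_zero {S : HSetup N} (U : Unif S) (n : ℕ) (ξ : Fin (n + 1) → FN N) (A : DivN N)
    (hξ : ∀ i, ξ i ∈ secSpace S.P₀ S.e 1) (hli : LinearIndependent Qbar ξ) (hA : 0 ≤ A)
    (hdeg : Divisor.degree A = ((n + 1 : ℕ) : ℤ)) (hbase : A S.P₀ = 0) (hinj : Inj S ξ A) :
    jetSq U n ξ A ≠ 0 := by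
  classical
  have hcard := card_col hA hdeg
  let c : Fin (n + 1) ≃ Col A := (Fintype.equivFinOfCardEq hcard).symm
  rw [jetSq_eq U ξ A c]
  refine pow_ne_zero 2 fun hdet => ?_
  obtain ⟨w, hw0, hw⟩ := Matrix.exists_vecMul_eq_zero_iff.mpr hdet
  set s : FN N := ∑ i, w i • ξ i with hs
  have hsmem : s ∈ Submodule.span Qbar (Set.range ξ) :=
    Submodule.sum_mem _ fun i _ => Submodule.smul_mem _ _ (Submodule.subset_span ⟨i, rfl⟩)
  have hsV : s ∈ secSpace S.P₀ S.e 1 :=
    Submodule.sum_mem _ fun i _ => Submodule.smul_mem _ _ (hξ i)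
  have hs0 : s = 0 := by
    by_contra hne
    refine hne (hinj s hsmem (le_zdiv_of_tay_eq_zero U hA hbase hsV hne fun x => ?_))
    have h1 := jetMat_vecMul U ξ hξ A hbase c w (c.symm x)
    rw [hw, Equiv.apply_symm_apply] at h1
    exact h1.symm
  apply hw0
  funext i
  exact (Fintype.linearIndependent_iff.mp hli) w hs0 i

end Fermat.Agent.S17.Pos
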