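import Mathlib
import Fermat.Agent.S17.H.Pos.Jet
import Fermat.Agent.S17.H.Pos.OneProp
import Fermat.Agent.S17.H.Pos.Adapted
import Fermat.Agent.S17.H.Pairing.Green

set_option autoImplicit false

noncomputable section

open AlgebraicCurve ModularCurve Fermat.Agent.RR

namespace Fermat.Agent.S17.Pos

/-! ### combinatorics -/

/-- a downward closed finite set of natural numbers contains every number below its
cardinality -/
theorem mem_of_lt_card_of_downward_closed (L : Finset ℕ)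
    (hL : ∀ l ∈ L, ∀ l', l' < l → l' ∈ L) {k : ℕ} (hk : k < L.card) : k ∈ L := by
  by_contra hkL
  have hsub : L ⊆ Finset.range k := by
    intro l hl
    rw [Finset.mem_range]
    by_contra hge
    rcases Nat.lt_or_eq_of_le (not_lt.mp hge) with h | h
    · exact hkL (hL l hl k h)
    · exact hkL (h ▸ hl)
  have := Finset.card_le_card hsub
  rw [Finset.card_range] at this
  omega

/-- a symmetric double sum with zero diagonal is twice its strictly lower triangular part -/
theorem sum_sum_lt_eq_half {m : ℕ} (G : Fin m → Fin m → ℝ) (hsymm : ∀ t t', G t t' = G t' t)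
    (hdiag : ∀ t, G t t = 0) :
    2 * ∑ t, ∑ t' ∈ Finset.univ.filter (· < t), G t t' = ∑ t, ∑ t', G t t' := by
  have h1 : ∀ t : Fin m, ∑ t', G t t'
      = ∑ t' ∈ Finset.univ.filter (· < t), G t t' + ∑ t' ∈ Finset.univ.filter (t < ·), G t t' := by
    intro t
    rw [Finset.sum_filter, Finset.sum_filter, ← Finset.sum_add_distrib]
    refine Finset.sum_congr rfl fun t' _ => ?_
    rcases lt_trichotomy t' t with h | h | h
    · rw [if_pos h, if_neg (not_lt.mpr h.le), add_zero]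
    · subst h
      simp [hdiag]
    · rw [if_neg (not_lt.mpr h.le), if_pos h, zero_add]
  have h2 : ∑ t, ∑ t' ∈ Finset.univ.filter (t < ·), G t t'
      = ∑ t, ∑ t' ∈ Finset.univ.filter (· < t), G t t' := by
    simp only [Finset.sum_filter]
    rw [Finset.sum_comm]
    refine Finset.sum_congr rfl fun t _ => Finset.sum_congr rfl fun t' _ => ?_
    rw [hsymm]
  rw [Finset.sum_congr rfl fun t _ => h1 t, Finset.sum_add_distrib, h2]
  ring

/-- `Σ_{l < m} l = m (m - 1) / 2` in `ℝ` -/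
theorem sum_range_cast (m : ℕ) : ∑ l ∈ Finset.range m, (l : ℝ) = ((m : ℝ) ^ 2 - m) / 2 := by
  induction m with
  | zero => simp
  | succ m ih =>
    rw [Finset.sum_range_succ, ih]
    push_cast
    ring

variable {N : ℕ} [NeZero N]

/-- sums over an enumeration of the columns -/
theorem sum_enum {A : DivN N} {n : ℕ} (c : Fin (n + 1) ≃ Col A) (f : PtN N → ℕ → ℝ) :
    ∑ t, f (c t).1.1 (c t).1.2
      = ∑ P ∈ A.support, ∑ l ∈ Finset.range (A P).toNat, f P l := by
  classical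
  rw [Equiv.sum_comp c (fun x : Col A => f x.1.1 x.1.2)]
  rw [Finset.sum_coe_sort (colSet A) (fun x : Σ _ : PtN N, ℕ => f x.1 x.2)]
  unfold colSet
  rw [Finset.sum_sigma]

/-- an enumeration of the columns which is increasing in the order of the Taylor coefficient -/
theorem exists_good_enum {A : DivN N} {n : ℕ} (hcard : Fintype.card (Col A) = n + 1) :
    ∃ c : Fin (n + 1) ≃ Col A, ∀ t t', (c t').1.2 < (c t).1.2 → t' < t := by
  classical
  let e₀ : Col A ≃ Fin (n + 1) := Fintype.equivFinOfCardEq hcard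
  let key : Fin (n + 1) → ℕ := fun t => (e₀.symm t).1.2
  have hmono : Monotone (key ∘ Tuple.sort key) := Tuple.monotone_sort key
  refine ⟨(Tuple.sort key).trans e₀.symm, fun t t' hlt => ?_⟩
  by_contra hnot
  have hle : t ≤ t' := not_lt.mp hnot
  have h2 : key (Tuple.sort key t) ≤ key (Tuple.sort key t') := hmono hle
  have h3 : key (Tuple.sort key t') < key (Tuple.sort key t) := hlt
  exact absurd h3 (not_lt.mpr h2)


/-! ### `glin` of a sum of points -/

theorem glin_sum_single (S : HSetup N) (v : S.𝔸.ι) (P : PtN N) {ι : Type*} (s : Finset ι)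
    (Q : ι → PtN N) :
    Pairing.glin S v P (∑ j ∈ s, Finsupp.single (Q j) (1 : ℤ))
      = ∑ j ∈ s, gloc S.𝔸 v S.φ P (Q j) := by
  classical
  let φ : DivN N →+ ℝ := Finsupp.liftAddHom
    (fun c => (AddMonoidHom.mulRight (gloc S.𝔸 v S.φ P c)).comp (Int.castAddHom ℝ))
  have hφ : ∀ Z : DivN N, Pairing.glin S v P Z = φ Z := by
    intro Z
    show _ = Finsupp.liftAddHom _ Z
    rw [Finsupp.liftAddHom_apply]
    rfl
  rw [hφ, map_sum]
  refine Finset.sum_congr rfl fun j _ => ?_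
  show Finsupp.liftAddHom _ (Finsupp.single (Q j) (1 : ℤ)) = _
  rw [Finsupp.liftAddHom_apply_single]
  simp

/-! ### the determinant of the adapted basis -/

theorem det_sq_eq_prod_of_adapted {K : Type*} [Field K] {d : ℕ} (a M : Matrix (Fin d) (Fin d) K)
    (hdet : a.det = 1 ∨ a.det = -1) (htri : ∀ k l, l < k → (a * M) k l = 0) :
    M.det ^ 2 = ∏ t, ((a * M) t t) ^ 2 := by
  have h2 : (a * M).det = ∏ t, (a * M) t t :=
    Matrix.det_of_isUpperTriangular (fun i j hij => htri i j hij)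
  rw [Matrix.det_mul] at h2
  rw [Finset.prod_pow, ← h2, mul_pow]
  rcases hdet with h | h <;> rw [h] <;> ring


/-! ### one column -/

/-- the conclusion of `OneStep` for a fixed family `ξ` and a fixed constant `γ` -/
def OneStepFor (S : HSetup N) {n : ℕ} (ξ : Fin (n + 1) → FN N) (γ : MConst S.𝔸) : Prop :=
  ∀ (v : S.𝔸.ι) (c : Fin (n + 1) → Qbar) (P : PtN N) (π : FN N) (l : ℕ)
    (A' : DivN N), c ≠ 0 → P ≠ S.P₀ → (∃ i, val P (ξ i) ≠ 0) → P.ord π = 1 →
    (l : ℤ) = P.ord (∑ i, c i • ξ i) → 0 ≤ A' → A' S.P₀ = 0 → NoBase ξ A' →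
    A' ≤ zdiv (Pairing.hRR N) S.P₀ S.e 1 (∑ i, c i • ξ i) →
    Real.log (S.𝔸.abv v (val P ((∑ i, c i • ξ i) / π ^ l)))
      ≤ Real.log (vnorm S.𝔸 v c) + l * Real.log (theta S.𝔸 v S.φ P π)
        - gsum S.𝔸 v S.φ P A' + famloc S v ξ P + γ v

theorem column_step {S : HSetup N} (U : Unif S) {n : ℕ} (ξ : Fin (n + 1) → FN N)
    (hξ : ∀ i, ξ i ∈ secSpace S.P₀ S.e 1) {A : DivN N} (hbase : A S.P₀ = 0)
    (hnb : NoBase ξ A) (c : Fin (n + 1) ≃ Col A)
    (hc : ∀ t t', (c t').1.2 < (c t).1.2 → t' < t) {γ₁ : MConst S.𝔸}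
    (hγ₁ : OneStepFor S ξ γ₁) (v : S.𝔸.ι) (w : Fin (n + 1) → Qbar)
    (hw : ∀ i, S.𝔸.abv v (w i) ≤ 1) (t : Fin (n + 1))
    (hvan : ∀ t', t' < t → tay (c t').1.1 (U.π (c t').1.1) (c t').1.2 (∑ i, w i • ξ i) = 0)
    (hne : tay (c t).1.1 (U.π (c t).1.1) (c t).1.2 (∑ i, w i • ξ i) ≠ 0) :
    Real.log (S.𝔸.abv v (tay (c t).1.1 (U.π (c t).1.1) (c t).1.2 (∑ i, w i • ξ i)))
      ≤ ((c t).1.2 : ℝ) * kappa S U v (c t).1.1
        - ∑ t' ∈ Finset.univ.filter (· < t), gloc S.𝔸 v S.φ (c t).1.1 (c t').1.1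
        + famloc S v ξ (c t).1.1 + γ₁ v := by
  classical
  set s : FN N := ∑ i, w i • ξ i with hs
  set P : PtN N := (c t).1.1 with hP
  set l : ℕ := (c t).1.2 with hl
  have hcolt : ((l : ℕ) : ℤ) < A P := mem_colSet.mp (c t).2
  have hP0 : P ≠ S.P₀ := ne_base_of_mem_colSet hbase (c t)
  have hPA : P ∈ A.support := by
    rw [Finsupp.mem_support_iff]
    intro h0
    rw [h0] at hcolt
    omega
  have hs0 : s ≠ 0 := by
    intro h0
    apply hne
    rw [h0]
    exact tay_zero_fun _ _ _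
  have hw0 : w ≠ 0 := by
    intro h0
    apply hs0
    rw [hs, h0]
    simp
  have hsV : s ∈ secSpace S.P₀ S.e 1 :=
    Submodule.sum_mem _ fun i _ => Submodule.smul_mem _ _ (hξ i)
  -- every column `(Q, k)` with `k` smaller than the index of an earlier column at `Q` is earlier
  have hearlier : ∀ (Q : PtN N) (k : ℕ) (t₁ : Fin (n + 1)), t₁ ≤ t → (c t₁).1.1 = Q →
      k < (c t₁).1.2 → tay Q (U.π Q) k s = 0 := by
    intro Q k t₁ ht₁ hQ hk
    have hmem : (⟨Q, k⟩ : Σ _ : PtN N, ℕ) ∈ colSet A := by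
      rw [mem_colSet]
      have := mem_colSet.mp (c t₁).2
      rw [hQ] at this
      show (k : ℤ) < A Q
      omega
    have hlt : c.symm ⟨⟨Q, k⟩, hmem⟩ < t₁ := by
      apply hc
      rw [Equiv.apply_symm_apply]
      exact hk
    have := hvan _ (lt_of_lt_of_le hlt ht₁)
    rwa [Equiv.apply_symm_apply] at this
  -- the order of `s` at `P`
  have hreg : 0 ≤ P.ord s := ord_nonneg_of_mem_secSpace hsV hP0
  have hge : (l : ℤ) ≤ P.ord s :=
    le_ord_of_tay_eq_zero (Pairing.hRR N) P (U.ord_eq P) l hs0 hreg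
      (fun k hk => hearlier P k t le_rfl rfl hk)
  have hord : (l : ℤ) = P.ord s := by
    refine le_antisymm hge ?_
    by_contra hgt
    have hgt' : ((l + 1 : ℕ) : ℤ) ≤ P.ord s := by
      push_cast
      omega
    exact hne (tay_eq_zero_of_le_ord (Pairing.hRR N) P (U.ord_eq P) (l + 1) hs0 hgt' l
      (Nat.lt_succ_self l))
  have hlead : tay P (U.π P) l s = val P (s / U.π P ^ l) :=
    tay_eq_ev_div_pow (Pairing.hRR N) P (U.ord_eq P) l hs0 hge
  -- the divisor of the earlier columns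
  set T : Finset (Fin (n + 1)) := Finset.univ.filter (· < t) with hT
  set A' : DivN N := ∑ t' ∈ T, Finsupp.single (c t').1.1 (1 : ℤ) with hA'
  have hA'apply : ∀ Q : PtN N, A' Q = ((T.filter fun t' => (c t').1.1 = Q).card : ℤ) := by
    intro Q
    rw [hA', Finsupp.finsetSum_apply]
    simp only [Finsupp.single_apply]
    rw [Finset.sum_ite, Finset.sum_const_zero, add_zero, Finset.sum_const]
    simp
  have hA'nn : 0 ≤ A' := by
    rw [Finsupp.le_def]
    intro Q
    rw [hA'apply]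
    simp
  have hA'supp : ∀ Q ∈ A'.support, ∃ t₁, t₁ < t ∧ (c t₁).1.1 = Q := by
    intro Q hQ
    rw [Finsupp.mem_support_iff, hA'apply] at hQ
    have hne' : (T.filter fun t' => (c t').1.1 = Q).Nonempty := by
      rw [Finset.nonempty_iff_ne_empty]
      intro h0
      rw [h0] at hQ
      simp at hQ
    obtain ⟨t₁, ht₁⟩ := hne'
    rw [Finset.mem_filter, hT, Finset.mem_filter] at ht₁
    exact ⟨t₁, ht₁.1.2, ht₁.2⟩
  have hA'base : A' S.P₀ = 0 := by
    by_contra h0
    obtain ⟨t₁, -, ht₁⟩ := hA'supp S.P₀ (Finsupp.mem_support_iff.mpr h0)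
    exact ne_base_of_mem_colSet hbase (c t₁) ht₁
  have hA'nb : NoBase ξ A' := by
    intro Q hQ
    obtain ⟨t₁, -, ht₁⟩ := hA'supp Q hQ
    refine hnb Q ?_
    rw [Finsupp.mem_support_iff]
    intro h0
    have := mem_colSet.mp (c t₁).2
    rw [ht₁, h0] at this
    omega
  have hA'le : A' ≤ zdiv (Pairing.hRR N) S.P₀ S.e 1 s := by
    rw [Finsupp.le_def]
    intro Q
    by_cases hQ : A' Q = 0
    · rw [hQ]
      exact zdiv_nonneg (Pairing.hRR N) S.P₀ S.e 1 hsV hs0 Q
    · obtain ⟨t₀, -, ht₀⟩ := hA'supp Q (Finsupp.mem_support_iff.mpr hQ)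
      have hQ0 : Q ≠ S.P₀ := ht₀ ▸ ne_base_of_mem_colSet hbase (c t₀)
      rw [zdiv_apply, Finsupp.single_apply, if_neg (Ne.symm hQ0), add_zero, hA'apply]
      set TQ : Finset (Fin (n + 1)) := T.filter fun t' => (c t').1.1 = Q with hTQ
      set L : Finset ℕ := TQ.image fun t' => (c t').1.2 with hLdef
      have hLcard : L.card = TQ.card := by
        rw [hLdef]
        apply Finset.card_image_of_injOn
        intro t₁ ht₁ t₂ ht₂ h12
        have h1 : (c t₁).1.1 = Q := (Finset.mem_filter.mp ht₁).2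
        have h2 : (c t₂).1.1 = Q := (Finset.mem_filter.mp ht₂).2
        apply c.injective
        apply Subtype.ext
        exact Sigma.ext (h1.trans h2.symm) (heq_of_eq h12)
      have hLdc : ∀ l₁ ∈ L, ∀ l', l' < l₁ → l' ∈ L := by
        intro l₁ hl₁ l' hl'
        rw [hLdef, Finset.mem_image] at hl₁
        obtain ⟨t₁, ht₁, rfl⟩ := hl₁
        have h1 : (c t₁).1.1 = Q := (Finset.mem_filter.mp ht₁).2
        have h1t : t₁ < t := (Finset.mem_filter.mp (Finset.mem_filter.mp ht₁).1).2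
        have hmem : (⟨Q, l'⟩ : Σ _ : PtN N, ℕ) ∈ colSet A := by
          rw [mem_colSet]
          have := mem_colSet.mp (c t₁).2
          rw [h1] at this
          show (l' : ℤ) < A Q
          omega
        have hlt : c.symm ⟨⟨Q, l'⟩, hmem⟩ < t₁ := by
          apply hc
          rw [Equiv.apply_symm_apply]
          exact hl'
        rw [hLdef, Finset.mem_image]
        refine ⟨c.symm ⟨⟨Q, l'⟩, hmem⟩, ?_, ?_⟩
        · rw [hTQ, Finset.mem_filter, hT, Finset.mem_filter]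
          refine ⟨⟨Finset.mem_univ _, lt_trans hlt h1t⟩, ?_⟩
          rw [Equiv.apply_symm_apply]
        · rw [Equiv.apply_symm_apply]
      refine le_ord_of_tay_eq_zero (Pairing.hRR N) Q (U.ord_eq Q) TQ.card hs0
        (ord_nonneg_of_mem_secSpace hsV hQ0) (fun k hk => ?_)
      have hkL : k ∈ L := mem_of_lt_card_of_downward_closed L hLdc (by rw [hLcard]; exact hk)
      rw [hLdef, Finset.mem_image] at hkL
      obtain ⟨t₁, ht₁, hk₁⟩ := hkL
      have h1 : (c t₁).1.1 = Q := (Finset.mem_filter.mp ht₁).2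
      have h1t : t₁ < t := (Finset.mem_filter.mp (Finset.mem_filter.mp ht₁).1).2
      have := hvan t₁ h1t
      rwa [h1, hk₁] at this
  -- apply the one-step bound
  have hmain := hγ₁ v w P (U.π P) l A' hw0 hP0 (hnb P hPA) (U.ord_eq P) hord hA'nn hA'base
    hA'nb hA'le
  have hvn : Real.log (vnorm S.𝔸 v w) ≤ 0 := by
    apply Real.log_nonpos (vnorm_nonneg _ _ _)
    exact Finset.sup'_le _ _ fun i _ => hw i
  have hgs : gsum S.𝔸 v S.φ P A' = ∑ t' ∈ T, gloc S.𝔸 v S.φ P (c t').1.1 := by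
    rw [Pairing.gsum_eq_glin, hA', glin_sum_single]
  rw [hlead]
  rw [hgs] at hmain
  unfold kappa
  linarith


/-! ### the local determinant bound -/

/-- **the local determinant bound** (seat DETLOC), from the one-step bound. -/
theorem jetSq_bound {S : HSetup N} (U : Unif S) (h1 : OneStep S) (n : ℕ)
    (ξ : Fin (n + 1) → FN N) (hξ : ∀ i, ξ i ∈ secSpace S.P₀ S.e 1)
    (hli : LinearIndependent Qbar ξ) :
    ∃ γ : MConst S.𝔸, ∀ (v : S.𝔸.ι) (A : DivN N), 0 ≤ A →
      Divisor.degree A = ((n + 1 : ℕ) : ℤ) → A S.P₀ = 0 → NoBase ξ A → Inj S ξ A →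
      Real.log (S.𝔸.abv v (jetSq U n ξ A))
        + ∑ P ∈ A.support, ∑ Q ∈ A.support, (A P : ℝ) * (A Q : ℝ) * gloc S.𝔸 v S.φ P Q
        - ∑ P ∈ A.support, ((A P : ℝ) ^ 2 - (A P : ℝ)) * kappa S U v P
      ≤ 2 * ∑ P ∈ A.support, (A P : ℝ) * famloc S v ξ P + γ v := by
  classical
  obtain ⟨γ₁, hγ₁⟩ := h1 n ξ hξ hli
  have hγ₁' : OneStepFor S ξ γ₁ := hγ₁
  refine ⟨MConst.nsmul' (2 * (n + 1)) γ₁, fun v A hA hdeg hbase hnb hinj => ?_⟩
  have hcard := card_col hA hdeg
  obtain ⟨c, hc⟩ := exists_good_enum hcard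
  obtain ⟨a, ha_le, ha_det, ha_tri⟩ :=
    exists_adapted_matrix (S.𝔸.abv v) (n + 1) (jetMat U ξ A c)
  -- the diagonal entries are Taylor coefficients of the adapted sections
  have hentry : ∀ t l, (a * jetMat U ξ A c) t l
      = tay (c l).1.1 (U.π (c l).1.1) (c l).1.2 (∑ i, a t i • ξ i) := by
    intro t l
    rw [← jetMat_vecMul U ξ hξ A hbase c (a t) l]
    rfl
  have hjet : jetSq U n ξ A
      = ∏ t, (tay (c t).1.1 (U.π (c t).1.1) (c t).1.2 (∑ i, a t i • ξ i)) ^ 2 := by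
    rw [jetSq_eq U ξ A c, det_sq_eq_prod_of_adapted a _ ha_det ha_tri]
    exact Finset.prod_congr rfl fun t _ => by rw [hentry]
  have hjne := jetSq_ne_zero U n ξ A hξ hli hA hdeg hbase hinj
  have htne : ∀ t, tay (c t).1.1 (U.π (c t).1.1) (c t).1.2 (∑ i, a t i • ξ i) ≠ 0 := by
    intro t h0
    apply hjne
    rw [hjet]
    exact Finset.prod_eq_zero (Finset.mem_univ t) (by rw [h0]; ring)
  -- one column
  have hstep := fun t => column_step U ξ hξ hbase hnb c hc hγ₁' v (a t) (ha_le t) t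
    (fun t' ht' => by rw [← hentry]; exact ha_tri t t' ht') (htne t)
  -- the logarithm of `jetSq`
  have hlog : Real.log (S.𝔸.abv v (jetSq U n ξ A))
      = 2 * ∑ t, Real.log (S.𝔸.abv v
          (tay (c t).1.1 (U.π (c t).1.1) (c t).1.2 (∑ i, a t i • ξ i))) := by
    rw [hjet, map_prod, Real.log_prod (fun t _ => by
      rw [map_pow]
      exact pow_ne_zero 2 (ne_of_gt ((S.𝔸.abv v).pos (htne t)))), Finset.mul_sum]
    refine Finset.sum_congr rfl fun t _ => ?_
    rw [map_pow, Real.log_pow]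
    push_cast
    ring
  -- the three sums
  have hsum1 : ∑ t : Fin (n + 1), ((c t).1.2 : ℝ) * kappa S U v (c t).1.1
      = ∑ P ∈ A.support, (((A P : ℝ) ^ 2 - (A P : ℝ)) / 2) * kappa S U v P := by
    rw [sum_enum c (fun P l => (l : ℝ) * kappa S U v P)]
    refine Finset.sum_congr rfl fun P _ => ?_
    rw [← Finset.sum_mul, sum_range_cast]
    have : (((A P).toNat : ℕ) : ℝ) = (A P : ℝ) := by
      have := Int.toNat_of_nonneg (Finsupp.le_def.mp hA P)
      exact_mod_cast this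
    rw [this]
  have hsum2 : ∑ t : Fin (n + 1), famloc S v ξ (c t).1.1
      = ∑ P ∈ A.support, (A P : ℝ) * famloc S v ξ P := by
    rw [sum_enum c (fun P _ => famloc S v ξ P)]
    refine Finset.sum_congr rfl fun P _ => ?_
    rw [Finset.sum_const, Finset.card_range, nsmul_eq_mul]
    have : (((A P).toNat : ℕ) : ℝ) = (A P : ℝ) := by
      have := Int.toNat_of_nonneg (Finsupp.le_def.mp hA P)
      exact_mod_cast this
    rw [this]
  have hsum3 : 2 * ∑ t : Fin (n + 1), ∑ t' ∈ Finset.univ.filter (· < t),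
        gloc S.𝔸 v S.φ (c t).1.1 (c t').1.1
      = ∑ P ∈ A.support, ∑ Q ∈ A.support, (A P : ℝ) * (A Q : ℝ) * gloc S.𝔸 v S.φ P Q := by
    rw [sum_sum_lt_eq_half (fun t t' => gloc S.𝔸 v S.φ (c t).1.1 (c t').1.1)
      (fun t t' => Pairing.gloc_symm S.𝔸 v S.φ _ _) (fun t => Pairing.gloc_self S.𝔸 v S.φ _)]
    rw [sum_enum c (fun P _ => ∑ t', gloc S.𝔸 v S.φ P (c t').1.1)]
    refine Finset.sum_congr rfl fun P _ => ?_
    rw [Finset.sum_const, Finset.card_range, nsmul_eq_mul,
      sum_enum c (fun Q _ => gloc S.𝔸 v S.φ P Q), Finset.mul_sum]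
    refine Finset.sum_congr rfl fun Q _ => ?_
    rw [Finset.sum_const, Finset.card_range, nsmul_eq_mul]
    have hP : (((A P).toNat : ℕ) : ℝ) = (A P : ℝ) := by
      have := Int.toNat_of_nonneg (Finsupp.le_def.mp hA P)
      exact_mod_cast this
    have hQ : (((A Q).toNat : ℕ) : ℝ) = (A Q : ℝ) := by
      have := Int.toNat_of_nonneg (Finsupp.le_def.mp hA Q)
      exact_mod_cast this
    rw [hP, hQ]
    ring
  -- summing the column bounds
  have htotal := Finset.sum_le_sum fun t (_ : t ∈ Finset.univ) => hstep t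
  simp only [Finset.sum_add_distrib, Finset.sum_sub_distrib, Finset.sum_const,
    Finset.card_univ, Fintype.card_fin, nsmul_eq_mul] at htotal
  rw [hsum1, hsum2] at htotal
  rw [hlog, ← hsum3, MConst.nsmul'_apply]
  have hk : ∑ P ∈ A.support, ((A P : ℝ) ^ 2 - (A P : ℝ)) * kappa S U v P
      = 2 * ∑ P ∈ A.support, (((A P : ℝ) ^ 2 - (A P : ℝ)) / 2) * kappa S U v P := by
    rw [Finset.mul_sum]
    refine Finset.sum_congr rfl fun P _ => ?_
    ring
  rw [hk]
  push_cast at htotal ⊢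
  linarith

/-- **Seat DETLOC.** -/
def jetData (S : HSetup N) (U : Unif S) (h1 : OneStep S) : JetData S U where
  jetSq := jetSq U
  galois σ n ξ A _ _ _ := jetSq_galois U σ n ξ A
  ne_zero n ξ A hξ hli hA hdeg hbase hinj := jetSq_ne_zero U n ξ A hξ hli hA hdeg hbase hinj
  bound n ξ hξ hli := jetSq_bound U h1 n ξ hξ hli

end Fermat.Agent.S17.Pos
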