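import Mathlib
import Fermat.Agent.S17.H.Pos.AdjFin

set_option autoImplicit false
set_option linter.unusedSectionVars false

/-!
# S17, package H, seat GB-ADJ, part 2: the adjunction identity

`adj_core`: for Galois-stable representatives `a`, `b` of the same class with disjoint supports
(`dsize a + dsize b ≤ 12 s`):

`| Σ_Q a(Q)² κ(Q) + I(a,b) - I(a,a) | ≤ 2 · Σ_v γ_v · dsize a`.

Proof: `b - a = div u`, `u = f₁ / f₂` with `f₁, f₂ ∈ V₁`; `LocalQuotLC` at the points `Q` of `a`
with the uniformizers `π_Q` of `U` (`ord_Q u = - a(Q)`), weights `a(Q)` (the norms cancel since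
`deg a = 0`), sum over `v`, and the product formula with leading coefficients.
-/

noncomputable section

open AlgebraicCurve ModularCurve Fermat.Agent.RR Fermat.Agent.S17.Pairing

namespace Fermat.Agent.S17.Pos

variable {N : ℕ} [NeZero N]

theorem adj_finite_support_sum_kappa (S : HSetup N) (U : Unif S) (a : DivN N) :
    (Function.support fun v : S.𝔸.ι =>
      ∑ Q ∈ a.support, (a Q : ℝ) ^ 2 * kappa S U v Q).Finite := by
  classical
  have hfin : (⋃ Q ∈ a.support, {v : S.𝔸.ι | kappa S U v Q ≠ 0}).Finite :=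
    Set.Finite.biUnion a.support.finite_toSet fun Q _ => adj_finite_kappa S U Q
  refine hfin.subset ?_
  intro v hv
  rw [Function.mem_support] at hv
  obtain ⟨Q, hQ, hne⟩ := Finset.exists_ne_zero_of_sum_ne_zero hv
  simp only [Set.mem_iUnion, Set.mem_ofPred_eq]
  refine ⟨Q, hQ, ?_⟩
  intro h0
  apply hne
  rw [h0, mul_zero]

theorem adj_finsum_sum_kappa (S : HSetup N) (U : Unif S) (a : DivN N) :
    ∑ᶠ v : S.𝔸.ι, ∑ Q ∈ a.support, (a Q : ℝ) ^ 2 * kappa S U v Q
      = ∑ Q ∈ a.support, (a Q : ℝ) ^ 2 * kapglob S U Q := by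
  have hfin : ∀ Q, (Function.support fun v : S.𝔸.ι => (a Q : ℝ) ^ 2 * kappa S U v Q).Finite := by
    intro Q
    refine (adj_finite_kappa S U Q).subset ?_
    intro v hv
    rw [Function.mem_support] at hv
    simp only [Set.mem_ofPred_eq, ne_eq]
    intro h0
    apply hv
    rw [h0, mul_zero]
  rw [finsum_sum_comm _ _ (fun Q _ => hfin Q)]
  refine Finset.sum_congr rfl fun Q _ => ?_
  unfold kapglob
  rw [mul_finsum]

theorem adj_finite_support_sum_lcoef (S : HSetup N) (π : PtN N → FN N) (a : DivN N) (u : FN N) :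
    (Function.support fun v : S.𝔸.ι =>
      ∑ Q ∈ a.support, (a Q : ℝ) * Real.log (S.𝔸.abv v (lcoef Q (π Q) u))).Finite := by
  classical
  have hfin : (⋃ Q ∈ a.support,
      {v : S.𝔸.ι | Real.log (S.𝔸.abv v (lcoef Q (π Q) u)) ≠ 0}).Finite :=
    Set.Finite.biUnion a.support.finite_toSet fun Q _ => finite_log_abv_ne_zero S.𝔸 _
  refine hfin.subset ?_
  intro v hv
  rw [Function.mem_support] at hv
  obtain ⟨Q, hQ, hne⟩ := Finset.exists_ne_zero_of_sum_ne_zero hv
  simp only [Set.mem_iUnion, Set.mem_ofPred_eq]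
  refine ⟨Q, hQ, ?_⟩
  intro h0
  apply hne
  rw [h0, mul_zero]

/-- **the adjunction identity** -/
theorem adj_core (S : HSetup N) (U : Unif S) {d : ℕ}
    (bas : Module.Basis (Fin (d + 1)) Qbar (secSpace S.P₀ S.e 1)) {γ : MConst S.𝔸}
    (hγ : LocalQuotLC S bas γ) {x : JZero N} {a b : DivN N} (hxa : Move.Rep a x)
    (hxb : Move.Rep b x) (ha : GalStable N a) (hb : GalStable N b)
    (hsize : dsize a + dsize b ≤ 12 * S.s) (hdisj : Disjoint a.support b.support) :
    |∑ Q ∈ a.support, (a Q : ℝ) ^ 2 * kapglob S U Q + iPair S a b - iPair S a a|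
      ≤ 2 * γ.total * dsize a := by
  classical
  have h := hRR N
  obtain ⟨u, hu0, hu⟩ := exists_divOf_sub hxb hxa
  have hsz : dsize (divOf h u) ≤ 12 * S.s := by
    rw [← hu]
    have := dsize_sub_le' b a
    omega
  obtain ⟨f₁, f₂, hf₁, hf₁0, hf₂, hf₂0, hq⟩ := exists_sections S u hu0 hsz
  have hD : divOf h f₁ - divOf h f₂ = b - a := by
    rw [← divOf_div f₁ f₂ hf₁0 hf₂0, hq, hu]
  have hdeg : Divisor.degree a = 0 := hxa.degree_eq
  have hstab : GalStable N (divOf h u) := by
    rw [← hu]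
    exact galStable_sub hb ha
  have hord : ∀ Q ∈ a.support, (Q.ord u : ℝ) = - (a Q : ℝ) := by
    intro Q hQ
    have hbQ : b Q = 0 := by
      have := Finset.disjoint_left.mp hdisj hQ
      rwa [Finsupp.mem_support_iff, not_not] at this
    have h1 : Q.ord u = (b - a) Q := by rw [hu, divOf_apply]
    rw [h1, Finsupp.sub_apply, hbQ]
    push_cast
    ring
  have hsum0 : ∑ Q ∈ a.support, (a Q : ℝ) = 0 := by
    have := degree_eq_sum h a
    rw [hdeg] at this
    have h2 : ((∑ Q ∈ a.support, a Q : ℤ) : ℝ) = 0 := by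
      rw [← this]
      norm_cast
    push_cast at h2
    exact h2
  set κ : S.𝔸.ι → ℝ := fun v =>
    Real.log (cnorm S.𝔸 v bas f₁) - Real.log (cnorm S.𝔸 v bas f₂) with hκ
  set X : S.𝔸.ι → ℝ := fun v => ∑ Q ∈ a.support,
    (a Q : ℝ) * (Real.log (S.𝔸.abv v (lcoef Q (U.π Q) u)) + (a Q : ℝ) * kappa S U v Q
      + glin S v Q (b - a)) with hX
  have hloc : ∀ v, |X v| ≤ 2 * γ v * dsize a := by
    intro v
    have e1 : X v = ∑ Q ∈ a.support, (a Q : ℝ) *
        (Real.log (S.𝔸.abv v (lcoef Q (U.π Q) u)) - κ v + (a Q : ℝ) * kappa S U v Q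
          + glin S v Q (b - a)) := by
      have : ∑ Q ∈ a.support, (a Q : ℝ) *
          (Real.log (S.𝔸.abv v (lcoef Q (U.π Q) u)) - κ v + (a Q : ℝ) * kappa S U v Q
            + glin S v Q (b - a))
          = X v - (∑ Q ∈ a.support, (a Q : ℝ)) * κ v := by
        rw [hX, Finset.sum_mul, ← Finset.sum_sub_distrib]
        refine Finset.sum_congr rfl fun Q _ => ?_
        ring
      rw [this, hsum0, zero_mul, sub_zero]
    rw [e1]
    refine (Finset.abs_sum_le_sum_abs _ _).trans ?_
    have e2 : (2 * γ v * dsize a : ℝ) = ∑ Q ∈ a.support, |(a Q : ℝ)| * (2 * γ v) := by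
      rw [← Finset.sum_mul]
      unfold dsize
      push_cast
      rw [mul_comm]
      congr 1
      refine Finset.sum_congr rfl fun Q _ => ?_
      rw [Nat.cast_natAbs, Int.cast_abs]
    rw [e2]
    refine Finset.sum_le_sum fun Q hQ => ?_
    rw [abs_mul]
    refine mul_le_mul_of_nonneg_left ?_ (abs_nonneg _)
    have := hγ v f₁ f₂ hf₁ hf₁0 hf₂ hf₂0 Q (U.π Q) (U.ord_eq Q)
    rw [hq, hD, hord Q hQ] at this
    have e3 : Real.log (S.𝔸.abv v (lcoef Q (U.π Q) u)) - κ v + (a Q : ℝ) * kappa S U v Q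
        + glin S v Q (b - a)
        = Real.log (S.𝔸.abv v (lcoef Q (U.π Q) u))
          - (Real.log (cnorm S.𝔸 v bas f₁) - Real.log (cnorm S.𝔸 v bas f₂))
          - -(a Q : ℝ) * Real.log (theta S.𝔸 v S.φ Q (U.π Q)) + glin S v Q (b - a) := by
      rw [hκ]
      unfold kappa
      ring
    rw [e3]
    exact this
  have hXsplit : ∑ᶠ v, X v
      = ∑ Q ∈ a.support, (a Q : ℝ) ^ 2 * kapglob S U Q + iPair S a (b - a) := by
    have e1 : X = fun v =>
        ((∑ Q ∈ a.support, (a Q : ℝ) * Real.log (S.𝔸.abv v (lcoef Q (U.π Q) u)))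
          + ∑ Q ∈ a.support, (a Q : ℝ) ^ 2 * kappa S U v Q)
        + ∑ Q ∈ a.support, (a Q : ℝ) * glin S v Q (b - a) := by
      funext v
      rw [hX, ← Finset.sum_add_distrib, ← Finset.sum_add_distrib]
      refine Finset.sum_congr rfl fun Q _ => ?_
      ring
    have hP := sum_log_lcoef_eq_zero S U.π u hu0 a ha hdeg hstab (fun Q _ => U.ord_eq Q)
      (fun σ Q _ => U.equivariant σ Q)
    have f1 := adj_finite_support_sum_lcoef S U.π a u
    have f2 := adj_finite_support_sum_kappa S U a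
    have f3 := finite_support_sum_glin S a (b - a)
    rw [e1, finsum_add_distrib ((f1.union f2).subset (Function.support_add _ _)) f3,
      finsum_add_distrib f1 f2, hP, zero_add, adj_finsum_sum_kappa, iPair_eq_finsum_glin]
  have hY : (Function.support fun v : S.𝔸.ι => 2 * γ v * (dsize a : ℝ)).Finite := by
    refine γ.finite.subset ?_
    intro v hv
    rw [Function.mem_support] at hv
    simp only [Set.mem_ofPred_eq, ne_eq]
    intro h0
    apply hv
    show 2 * γ.c v * (dsize a : ℝ) = 0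
    rw [h0]
    ring
  have hfinal := abs_finsum_le_finsum X (fun v => 2 * γ v * (dsize a : ℝ)) hloc hY
  rw [hXsplit, iPair_sub_right] at hfinal
  have e4 : ∑ Q ∈ a.support, (a Q : ℝ) ^ 2 * kapglob S U Q + iPair S a b - iPair S a a
      = ∑ Q ∈ a.support, (a Q : ℝ) ^ 2 * kapglob S U Q + (iPair S a b - iPair S a a) := by ring
  rw [e4]
  refine hfinal.trans (le_of_eq ?_)
  have : (fun v : S.𝔸.ι => 2 * γ v * (dsize a : ℝ))
      = fun v => (2 * (dsize a : ℝ)) * γ v := by
    funext v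
    ring
  rw [this, ← mul_finsum]
  unfold MConst.total
  ring

end Fermat.Agent.S17.Pos
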