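import Mathlib
import Fermat.Agent.S17.H.Pos.AdjCore

set_option autoImplicit false
set_option linter.unusedSectionVars false

/-!
# S17, package H, seat GB-ADJ: the adjunction inequality

`adjThm S U bas hLD : AdjThm S U`: for the canonical divisor `A` of `x` (degree `d ≤ g`),
`a = A - d P₀` and `b = A' - Z` (a movable representative avoiding `supp A ∪ {P₀}`):

`- I(a,b) ≥ 2 d n(A) - I(A,A) + K₂(A) - C`.

From `adj_core` (`- I(a,b) = Σ_Q a(Q)² κ(Q) - I(a,a) + O(1)`), the expansion of `I(a,a)` and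
`I(A, P₀) = n(A) + O(1)` (`adj_global_base`).
-/

noncomputable section

open AlgebraicCurve ModularCurve Fermat.Agent.RR Fermat.Agent.S17.Pairing

namespace Fermat.Agent.S17.Pos

variable {N : ℕ} [NeZero N]

/-! ### expansions -/

theorem adj_galStable_single (S : HSetup N) (n : ℤ) :
    GalStable N (Finsupp.single S.P₀ n : DivN N) := by
  intro σ
  unfold galDiv
  rw [SemilinearAut.smul_single]
  congr 1
  exact S.P₀_fixed σ

/-- `n(A) = (1/e) Σ_P A(P) lamglob(P)` -/
theorem adj_nHeight_eq (S : HSetup N) (A : DivN N) :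
    nHeight S A = (1 / (S.e : ℝ)) * ∑ P ∈ A.support, (A P : ℝ) * lamglob S P := by
  unfold nHeight
  congr 1
  have hfin : ∀ P, (Function.support fun v : S.𝔸.ι => (A P : ℝ) * lamloc S.𝔸 v S.φ P).Finite := by
    intro P
    refine (adj_finite_lamloc S P).subset ?_
    intro v hv
    rw [Function.mem_support] at hv
    simp only [Set.mem_ofPred_eq, ne_eq]
    intro h0
    apply hv
    rw [h0, mul_zero]
  rw [finsum_sum_comm _ _ (fun P _ => hfin P)]
  refine Finset.sum_congr rfl fun P _ => ?_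
  unfold lamglob
  rw [mul_finsum]

/-- `I(A, n P₀) = n Σ_P A(P) g(P,P₀)` -/
theorem adj_iPair_single (S : HSetup N) (A : DivN N) (n : ℤ) :
    iPair S A (Finsupp.single S.P₀ n)
      = (n : ℝ) * ∑ P ∈ A.support, (A P : ℝ) * gglob S P S.P₀ := by
  classical
  rw [iPair_eq_sum_of_subset S A (Finsupp.single S.P₀ n) (Finset.Subset.refl _)
    (Finsupp.support_single_subset), Finset.mul_sum]
  refine Finset.sum_congr rfl fun P _ => ?_
  rw [Finset.sum_singleton, Finsupp.single_eq_same]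
  ring

theorem adj_iPair_single_single (S : HSetup N) (n m : ℤ) :
    iPair S (Finsupp.single S.P₀ n) (Finsupp.single S.P₀ m) = 0 := by
  classical
  rw [iPair_eq_sum_of_subset S _ _ Finsupp.support_single_subset Finsupp.support_single_subset,
    Finset.sum_singleton, Finset.sum_singleton, gglob_self, mul_zero]

/-- `I(a,a)` for `a = A - d P₀` -/
theorem adj_iPair_self (S : HSetup N) (A : DivN N) (n : ℤ) :
    iPair S (A - Finsupp.single S.P₀ n) (A - Finsupp.single S.P₀ n)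
      = iPair S A A - 2 * iPair S A (Finsupp.single S.P₀ n) := by
  rw [iPair_sub_left, iPair_sub_right, iPair_sub_right, adj_iPair_single_single,
    iPair_symm S (Finsupp.single S.P₀ n) A]
  ring

/-- `Σ_Q a(Q)² κ(Q) = K₂(A) + d² κ(P₀)` for `a = A - d P₀`, `P₀ ∉ A` -/
theorem adj_sum_sq_kapglob (S : HSetup N) (U : Unif S) (A : DivN N) (hbase : A S.P₀ = 0)
    (n : ℤ) :
    ∑ Q ∈ (A - Finsupp.single S.P₀ n).support,
        (((A - Finsupp.single S.P₀ n) Q : ℤ) : ℝ) ^ 2 * kapglob S U Q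
      = K2 S U A + (n : ℝ) ^ 2 * kapglob S U S.P₀ := by
  classical
  have hP₀ : S.P₀ ∉ A.support := by
    rw [Finsupp.mem_support_iff, not_not]
    exact hbase
  have hsub : (A - Finsupp.single S.P₀ n).support ⊆ insert S.P₀ A.support := by
    intro Q hQ
    rw [Finsupp.mem_support_iff, Finsupp.sub_apply] at hQ
    rw [Finset.mem_insert, Finsupp.mem_support_iff]
    by_contra hcon
    rw [not_or, not_not] at hcon
    rw [hcon.2, Finsupp.single_apply, if_neg (Ne.symm hcon.1)] at hQ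
    exact hQ rfl
  rw [Finset.sum_subset hsub (fun Q _ hQ => by
    rw [Finsupp.notMem_support_iff.mp hQ]; simp), Finset.sum_insert hP₀]
  unfold K2
  rw [add_comm]
  congr 1
  · refine Finset.sum_congr rfl fun Q hQ => ?_
    have hne : Q ≠ S.P₀ := fun h => hP₀ (h ▸ hQ)
    rw [Finsupp.sub_apply, Finsupp.single_apply, if_neg (Ne.symm hne), sub_zero]
  · rw [Finsupp.sub_apply, hbase, Finsupp.single_eq_same]
    push_cast
    ring

/-- `Σ_P A(P) = d` -/
theorem adj_sum_eq_degree (A : DivN N) (d : ℕ) (hdeg : Divisor.degree A = d) :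
    ∑ P ∈ A.support, (A P : ℝ) = d := by
  have := degree_eq_sum (hRR N) A
  rw [hdeg] at this
  have h2 : ((∑ Q ∈ A.support, A Q : ℤ) : ℝ) = ((d : ℤ) : ℝ) := by rw [← this]
  push_cast at h2
  exact h2

/-- `|I(A, d P₀) - d n(A)| ≤ d² B` -/
theorem adj_iPair_single_sub (S : HSetup N) {B : ℝ}
    (hB : ∀ P : PtN N, P ≠ S.P₀ → |gglob S P S.P₀ - (1 / (S.e : ℝ)) * lamglob S P| ≤ B)
    (A : DivN N) (hA : 0 ≤ A) (hbase : A S.P₀ = 0) (d : ℕ) (hdeg : Divisor.degree A = d) :
    |iPair S A (Finsupp.single S.P₀ (d : ℤ)) - d * nHeight S A| ≤ (d : ℝ) ^ 2 * B := by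
  have hA' : ∀ P, (0 : ℝ) ≤ (A P : ℝ) := fun P => by
    exact_mod_cast Finsupp.le_def.mp hA P
  have e1 : iPair S A (Finsupp.single S.P₀ (d : ℤ)) - d * nHeight S A
      = (d : ℝ) * ∑ P ∈ A.support,
          (A P : ℝ) * (gglob S P S.P₀ - (1 / (S.e : ℝ)) * lamglob S P) := by
    rw [adj_iPair_single, adj_nHeight_eq, Finset.mul_sum, Finset.mul_sum, Finset.mul_sum,
      Finset.mul_sum, ← Finset.sum_sub_distrib]
    refine Finset.sum_congr rfl fun P _ => ?_
    push_cast
    ring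
  rw [e1, abs_mul, abs_of_nonneg (Nat.cast_nonneg d), pow_two, mul_assoc]
  refine mul_le_mul_of_nonneg_left ?_ (Nat.cast_nonneg d)
  refine (Finset.abs_sum_le_sum_abs _ _).trans ?_
  rw [← adj_sum_eq_degree A d hdeg, Finset.sum_mul]
  refine Finset.sum_le_sum fun P hP => ?_
  rw [abs_mul, abs_of_nonneg (hA' P)]
  refine mul_le_mul_of_nonneg_left (hB P ?_) (hA' P)
  rintro rfl
  exact (Finsupp.mem_support_iff.mp hP) hbase

/-! ### the theorem -/

/-- **Seat GB-ADJ.** -/
theorem adjThm (S : HSetup N) (U : Unif S) {d : ℕ}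
    (bas : Module.Basis (Fin (d + 1)) Qbar (secSpace S.P₀ S.e 1))
    (hLD : LocalDecomp S.𝔸 (hRR N) S.P₀ S.e S.φ 1 bas) : AdjThm S U := by
  classical
  obtain ⟨γ₂, hγ₂⟩ := exists_localQuotLC S bas hLD
  obtain ⟨γ₁, hγ₁⟩ := hLD
  have he0 : (0 : ℝ) < (S.e : ℝ) := by
    have := S.e_large
    have : 0 < S.e := by omega
    exact_mod_cast this
  set g : ℝ := (genusFF Qbar (FN N) : ℝ) with hg
  have hg0 : 0 ≤ g := Nat.cast_nonneg _
  set B : ℝ := (|adjC1 S bas| + γ₁.total) / (S.e : ℝ) with hBdef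
  have hB0 : 0 ≤ B := div_nonneg (add_nonneg (abs_nonneg _) γ₁.total_nonneg) he0.le
  have hB : ∀ P : PtN N, P ≠ S.P₀ →
      |gglob S P S.P₀ - (1 / (S.e : ℝ)) * lamglob S P| ≤ B := by
    intro P hP
    have h1 := abs_le.mp (adj_global_base S bas hγ₁ hP)
    have h2 := abs_le.mp (le_refl |adjC1 S bas|)
    have e1 : gglob S P S.P₀ - (1 / (S.e : ℝ)) * lamglob S P
        = ((S.e : ℝ) * gglob S P S.P₀ - lamglob S P) / (S.e : ℝ) := by
      field_simp
    rw [e1, hBdef, abs_div, abs_of_pos he0]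
    refine div_le_div_of_nonneg_right ?_ he0.le
    rw [abs_le]
    constructor <;> linarith [h1.1, h1.2, neg_abs_le (adjC1 S bas), le_abs_self (adjC1 S bas)]
  refine ⟨g ^ 2 * |kapglob S U S.P₀| + 2 * g ^ 2 * B + 4 * g * γ₂.total, ?_⟩
  intro x A d hA
  obtain ⟨hAstab, hdg⟩ := Move.IsCanon.galStable S hA
  have hdg' : (d : ℝ) ≤ g := by
    rw [hg]
    exact_mod_cast hdg
  have hd0 : (0 : ℝ) ≤ (d : ℝ) := Nat.cast_nonneg d
  -- the representative `a = A - d P₀`
  have hsP0 : (0 : DivN N) ≤ Finsupp.single S.P₀ (d : ℤ) := by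
    rw [Finsupp.le_def]
    intro P
    rw [Finsupp.single_apply]
    split_ifs
    · exact Int.natCast_nonneg d
    · exact le_refl _
  have hsize_a : dsize (A - Finsupp.single S.P₀ (d : ℤ)) ≤ 2 * d := by
    have h1 := Move.dsize_sub_le (N := N) hA.nonneg hsP0
    rw [hA.degree_eq, Divisor.degree_single, (hRR N).deg_one] at h1
    simp only [Nat.cast_one, mul_one] at h1
    have : (dsize (A - Finsupp.single S.P₀ (d : ℤ)) : ℤ) ≤ ((2 * d : ℕ) : ℤ) := by
      push_cast
      linarith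
    exact_mod_cast this
  have ha : IsRep S (x : JZero N) (A - Finsupp.single S.P₀ (d : ℤ)) := by
    refine ⟨galStable_sub hAstab (adj_galStable_single S d), ?_, hA.mem, hA.mk_eq⟩
    unfold HSetup.s
    omega
  -- the representative `b`
  obtain ⟨A', Z, -, -, -, -, -, -, hA'T, hZT, -, hb⟩ :=
    Move.exists_isRep_pair S x (A.support ∪ {S.P₀})
  have hdisj : Disjoint (A - Finsupp.single S.P₀ (d : ℤ)).support (A' - Z).support := by
    rw [Finset.disjoint_left]
    intro Q hQa hQb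
    have hQT : Q ∈ A.support ∪ {S.P₀} := by
      rw [Finsupp.mem_support_iff, Finsupp.sub_apply] at hQa
      rw [Finset.mem_union, Finset.mem_singleton, Finsupp.mem_support_iff]
      by_contra hcon
      rw [not_or, not_not] at hcon
      rw [hcon.1, Finsupp.single_apply, if_neg (Ne.symm hcon.2)] at hQa
      exact hQa rfl
    rw [Finsupp.mem_support_iff, Finsupp.sub_apply, hA'T Q hQT, hZT Q hQT] at hQb
    exact hQb rfl
  refine ⟨A - Finsupp.single S.P₀ (d : ℤ), A' - Z, ha, hb, hdisj, ?_⟩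
  -- the adjunction identity
  have hsz : dsize (A - Finsupp.single S.P₀ (d : ℤ)) + dsize (A' - Z) ≤ 12 * S.s := by
    have h1 := ha.size_le
    have h2 := hb.size_le
    omega
  have hcore := abs_le.mp (adj_core S U bas hγ₂ (isRep_rep ha) (isRep_rep hb) ha.galStable
    hb.galStable hsz hdisj)
  rw [adj_sum_sq_kapglob S U A hA.base, adj_iPair_self] at hcore
  have hI := abs_le.mp (adj_iPair_single_sub S hB A hA.nonneg hA.base d hA.degree_eq)
  have hk := neg_abs_le (kapglob S U S.P₀)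
  have hds : (dsize (A - Finsupp.single S.P₀ (d : ℤ)) : ℝ) ≤ 2 * d := by exact_mod_cast hsize_a
  have hγ0 := γ₂.total_nonneg
  -- numerical bounds using `d ≤ g`
  have b1 : (d : ℝ) ^ 2 ≤ g ^ 2 := pow_le_pow_left₀ hd0 hdg' 2
  have b2 : (d : ℝ) ^ 2 * |kapglob S U S.P₀| ≤ g ^ 2 * |kapglob S U S.P₀| :=
    mul_le_mul_of_nonneg_right b1 (abs_nonneg _)
  have b3 : (d : ℝ) ^ 2 * B ≤ g ^ 2 * B := mul_le_mul_of_nonneg_right b1 hB0
  have b4 : 2 * γ₂.total * (dsize (A - Finsupp.single S.P₀ (d : ℤ)) : ℝ)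
      ≤ 4 * g * γ₂.total := by
    have : 2 * γ₂.total * (dsize (A - Finsupp.single S.P₀ (d : ℤ)) : ℝ)
        ≤ 2 * γ₂.total * (2 * g) :=
      mul_le_mul_of_nonneg_left (hds.trans (by linarith)) (by positivity)
    linarith
  have b5 : -((d : ℝ) ^ 2 * |kapglob S U S.P₀|) ≤ (d : ℝ) ^ 2 * kapglob S U S.P₀ := by
    have := mul_le_mul_of_nonneg_left hk (sq_nonneg (d : ℝ))
    linarith
  push_cast at hcore
  linarith [hcore.1, hcore.2, hI.1, hI.2]

end Fermat.Agent.S17.Pos
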