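import Mathlib
import Fermat.Agent.S17.H.Pos.Fin

set_option autoImplicit false

/-!
# S17, package H, seat GB-DETGLOB: `DetThm` from `JetData` and `DetData`

Sum the local determinant bound `JetData.bound` over all places `v` and over the members `ξ` of
the Galois-stable datum `X`: the product `∏_{ξ ∈ X} Δ(ξ, A)²` is a nonzero Galois-fixed number,
so `Σ_v Σ_ξ log |Δ(ξ,A)²|_v = 0` (product formula on `ℚ`).
-/

noncomputable section

open AlgebraicCurve ModularCurve Fermat.Agent.RR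

namespace Fermat.Agent.S17.Pos

variable {N : ℕ} [NeZero N]

/-- the product of the jet determinants over a Galois-stable datum is Galois-fixed -/
theorem prod_jetSq_fixed (S : HSetup N) (U : Unif S) (J : JetData S U) {n : ℕ}
    (X : Finset (Fin (n + 1) → FN N))
    (hX : ∀ (σ : GQ), ∀ ξ ∈ X, (fun i => Pts.galFun N σ (ξ i)) ∈ X)
    {A : DivN N} (hA : IsAdm S A (n + 1)) (σ : GQ) :
    σ (∏ ξ ∈ X, J.jetSq n ξ A) = ∏ ξ ∈ X, J.jetSq n ξ A := by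
  classical
  rw [map_prod]
  have hfac : ∀ ξ ∈ X, σ (J.jetSq n ξ A) = J.jetSq n (fun i => Pts.galFun N σ (ξ i)) A := by
    intro ξ _
    rw [J.galois σ n ξ A hA.nonneg hA.degree_eq hA.base, hA.galStable σ]
  rw [Finset.prod_congr rfl hfac]
  refine Finset.prod_bij (fun ξ _ => fun i => Pts.galFun N σ (ξ i)) (fun ξ hξ => hX σ ξ hξ)
    ?_ ?_ (fun ξ _ => rfl)
  · intro ξ₁ _ ξ₂ _ h12
    funext i
    have := congrFun h12 i
    have h3 := congrArg (Pts.galFun N σ⁻¹) this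
    rwa [← Pts.galFun_mul, ← Pts.galFun_mul, inv_mul_cancel, Pts.galFun_one, Pts.galFun_one] at h3
  · intro ξ hξ
    refine ⟨fun i => Pts.galFun N σ⁻¹ (ξ i), hX σ⁻¹ ξ hξ, ?_⟩
    funext i
    show Pts.galFun N σ (Pts.galFun N σ⁻¹ (ξ i)) = ξ i
    rw [← Pts.galFun_mul, mul_inv_cancel, Pts.galFun_one]

/-- the global determinant bound for one member `ξ` of a datum -/
theorem jet_global (S : HSetup N) (U : Unif S) (J : JetData S U) {n : ℕ}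
    (ξ : Fin (n + 1) → FN N) (γ : MConst S.𝔸) {A : DivN N} (hA : IsAdm S A (n + 1))
    (hnb : NoBase ξ A) (hne : J.jetSq n ξ A ≠ 0)
    (hb : ∀ v : S.𝔸.ι, Real.log (S.𝔸.abv v (J.jetSq n ξ A))
        + ∑ P ∈ A.support, ∑ Q ∈ A.support, (A P : ℝ) * (A Q : ℝ) * gloc S.𝔸 v S.φ P Q
        - ∑ P ∈ A.support, ((A P : ℝ) ^ 2 - (A P : ℝ)) * kappa S U v P
      ≤ 2 * ∑ P ∈ A.support, (A P : ℝ) * famloc S v ξ P + γ v) :
    (∑ᶠ v : S.𝔸.ι, Real.log (S.𝔸.abv v (J.jetSq n ξ A)))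
      + iPair S A A - (K2 S U A - K1 S U A) ≤ 2 * famH S ξ A + γ.total := by
  classical
  have f1 := finite_log_abv S.𝔸 hne
  have f2 : (Function.support fun v : S.𝔸.ι =>
      ∑ P ∈ A.support, ∑ Q ∈ A.support, (A P : ℝ) * (A Q : ℝ) * gloc S.𝔸 v S.φ P Q).Finite := by
    refine (Set.Finite.biUnion A.support.finite_toSet (fun P _ =>
      Set.Finite.biUnion A.support.finite_toSet (fun Q _ => Pairing.glocFinite S P Q))).subset ?_
    intro v hv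
    simp only [Function.mem_support, ne_eq] at hv
    obtain ⟨P, hP, hne1⟩ := Finset.exists_ne_zero_of_sum_ne_zero hv
    obtain ⟨Q, hQ, hne2⟩ := Finset.exists_ne_zero_of_sum_ne_zero hne1
    simp only [Set.mem_iUnion, Set.mem_ofPred_eq, ne_eq, Finset.mem_coe]
    refine ⟨P, hP, Q, hQ, ?_⟩
    intro h0
    rw [h0, mul_zero] at hne2
    exact hne2 rfl
  have f3 := finite_support_sum_mul A.support (fun P => (A P : ℝ) ^ 2 - (A P : ℝ))
    (fun (v : S.𝔸.ι) P => kappa S U v P) (fun P _ => finite_kappa S U P)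
  have f4 := finite_support_sum_mul A.support (fun P => (A P : ℝ))
    (fun (v : S.𝔸.ι) P => famloc S v ξ P) (fun P hP => finite_famloc S ξ P (hnb P hP))
  have f4' : (Function.support fun v : S.𝔸.ι =>
      2 * ∑ P ∈ A.support, (A P : ℝ) * famloc S v ξ P).Finite := by
    refine f4.subset ?_
    intro v hv
    simp only [Function.mem_support, ne_eq, mul_eq_zero, not_or] at hv ⊢
    exact hv.2
  have f5 : (Function.support fun v : S.𝔸.ι => γ v).Finite := γ.finite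
  have f12 : (Function.support fun v : S.𝔸.ι => Real.log (S.𝔸.abv v (J.jetSq n ξ A))
        + ∑ P ∈ A.support, ∑ Q ∈ A.support, (A P : ℝ) * (A Q : ℝ) * gloc S.𝔸 v S.φ P Q).Finite :=
    (f1.union f2).subset (Function.support_add _ _)
  have hle := finsum_le_finsum' (f := fun v : S.𝔸.ι => Real.log (S.𝔸.abv v (J.jetSq n ξ A))
        + ∑ P ∈ A.support, ∑ Q ∈ A.support, (A P : ℝ) * (A Q : ℝ) * gloc S.𝔸 v S.φ P Q
        - ∑ P ∈ A.support, ((A P : ℝ) ^ 2 - (A P : ℝ)) * kappa S U v P)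
    (g := fun v : S.𝔸.ι => 2 * ∑ P ∈ A.support, (A P : ℝ) * famloc S v ξ P + γ v)
    ((f12.union f3).subset (Function.support_sub _ _))
    ((f4'.union f5).subset (Function.support_add _ _)) hb
  rw [finsum_sub_distrib f12 f3, finsum_add_distrib f1 f2, finsum_add_distrib f4' f5,
    ← mul_finsum] at hle
  have e1 : ∑ᶠ v : S.𝔸.ι, ∑ P ∈ A.support, ∑ Q ∈ A.support,
      (A P : ℝ) * (A Q : ℝ) * gloc S.𝔸 v S.φ P Q = iPair S A A := rfl
  have e2 : ∑ᶠ v : S.𝔸.ι, ∑ P ∈ A.support, ((A P : ℝ) ^ 2 - (A P : ℝ)) * kappa S U v P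
      = K2 S U A - K1 S U A := by
    rw [finsum_sum_mul A.support (fun P => (A P : ℝ) ^ 2 - (A P : ℝ))
      (fun (v : S.𝔸.ι) P => kappa S U v P) (fun P _ => finite_kappa S U P)]
    unfold K2 K1 kapglob
    rw [← Finset.sum_sub_distrib]
    refine Finset.sum_congr rfl fun P _ => ?_
    ring
  have e3 := famH_eq_finsum S ξ A hnb
  rw [e1, e2, ← e3] at hle
  exact hle

/-- **Seat DETGLOB.** -/
theorem detThm_of (S : HSetup N) (U : Unif S) (J : JetData S U) (hD : DetData S) :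
    DetThm S U := by
  classical
  obtain ⟨𝓛, hdat, hex⟩ := hD
  -- the constants of the local bounds
  have hγ : ∀ (Y : Σ n : ℕ, Finset (Fin (n + 1) → FN N)) (ξ : Fin (Y.1 + 1) → FN N),
      ∃ γ : MConst S.𝔸, Y ∈ 𝓛 → ξ ∈ Y.2 →
        ∀ (v : S.𝔸.ι) (A : DivN N), 0 ≤ A →
        Divisor.degree A = ((Y.1 + 1 : ℕ) : ℤ) → A S.P₀ = 0 → NoBase ξ A → Inj S ξ A →
        Real.log (S.𝔸.abv v (J.jetSq Y.1 ξ A))
          + ∑ P ∈ A.support, ∑ Q ∈ A.support, (A P : ℝ) * (A Q : ℝ) * gloc S.𝔸 v S.φ P Q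
          - ∑ P ∈ A.support, ((A P : ℝ) ^ 2 - (A P : ℝ)) * kappa S U v P
        ≤ 2 * ∑ P ∈ A.support, (A P : ℝ) * famloc S v ξ P + γ v := by
    intro Y ξ
    by_cases hY : Y ∈ 𝓛 ∧ ξ ∈ Y.2
    · obtain ⟨γ, hγ⟩ := J.bound Y.1 ξ ((hdat Y hY.1).1.mem ξ hY.2) ((hdat Y hY.1).2 ξ hY.2)
      exact ⟨γ, fun _ _ => hγ⟩
    · exact ⟨0, fun h1 h2 => absurd ⟨h1, h2⟩ hY⟩
  choose γ hγ using hγ
  set C : ℝ := ∑ Y ∈ 𝓛, ∑ ξ ∈ Y.2, (γ Y ξ).total with hC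
  refine ⟨𝓛, C, fun Y hY => (hdat Y hY).1, ?_⟩
  intro x A n hA
  obtain ⟨X, hX, hgood⟩ := hex x A n hA
  refine ⟨X, hX, fun ξ hξ => (hgood ξ hξ).1, ?_⟩
  have hadm := canonAdm S x A (n + 1) hA
  have hdatX := hdat ⟨n, X⟩ hX
  have hne : ∀ ξ ∈ X, J.jetSq n ξ A ≠ 0 := fun ξ hξ =>
    J.ne_zero n ξ A (hdatX.1.mem ξ hξ) (hdatX.2 ξ hξ) hadm.nonneg hadm.degree_eq hadm.base
      (hgood ξ hξ).2
  have hglob : ∀ ξ ∈ X, (∑ᶠ v : S.𝔸.ι, Real.log (S.𝔸.abv v (J.jetSq n ξ A)))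
      + iPair S A A - (K2 S U A - K1 S U A) ≤ 2 * famH S ξ A + (γ ⟨n, X⟩ ξ).total := by
    intro ξ hξ
    exact jet_global S U J ξ (γ ⟨n, X⟩ ξ) hadm (hgood ξ hξ).1 (hne ξ hξ)
      (fun v => hγ ⟨n, X⟩ ξ hX hξ v A hadm.nonneg hadm.degree_eq hadm.base
        (hgood ξ hξ).1 (hgood ξ hξ).2)
  -- the product formula
  have hprod : ∑ ξ ∈ X, ∑ᶠ v : S.𝔸.ι, Real.log (S.𝔸.abv v (J.jetSq n ξ A)) = 0 := by
    rw [← finsum_sum_comm X (fun (v : S.𝔸.ι) ξ => Real.log (S.𝔸.abv v (J.jetSq n ξ A)))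
      (fun ξ hξ => finite_log_abv S.𝔸 (hne ξ hξ))]
    have hP0 : ∏ ξ ∈ X, J.jetSq n ξ A ≠ 0 := Finset.prod_ne_zero_iff.mpr hne
    rw [← finsum_log_abv_eq_zero S.𝔸 hP0 (prod_jetSq_fixed S U J X hdatX.1.galStable hadm)]
    refine finsum_congr fun v => ?_
    rw [map_prod, Real.log_prod]
    intro ξ hξ
    exact (S.𝔸.abv v).ne_zero (hne ξ hξ)
  -- sum over `ξ ∈ X`
  have hsum := Finset.sum_le_sum hglob
  rw [Finset.sum_sub_distrib, Finset.sum_add_distrib, hprod, zero_add, Finset.sum_add_distrib,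
    Finset.sum_const, Finset.sum_const, ← Finset.mul_sum] at hsum
  have hcard : (0 : ℝ) < X.card := by exact_mod_cast Finset.card_pos.mpr hdatX.1.nonempty
  have hcard1 : (1 : ℝ) ≤ X.card := by exact_mod_cast Finset.card_pos.mpr hdatX.1.nonempty
  have hCX : ∑ ξ ∈ X, (γ ⟨n, X⟩ ξ).total ≤ C := by
    have h1 : ∑ ξ ∈ X, (γ ⟨n, X⟩ ξ).total
        = (fun Y : (Σ n : ℕ, Finset (Fin (n + 1) → FN N)) => ∑ ξ ∈ Y.2, (γ Y ξ).total) ⟨n, X⟩ :=
      rfl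
    rw [h1, hC]
    exact Finset.single_le_sum
      (f := fun Y : (Σ n : ℕ, Finset (Fin (n + 1) → FN N)) => ∑ ξ ∈ Y.2, (γ Y ξ).total)
      (fun Y _ => Finset.sum_nonneg fun ξ _ => (γ Y ξ).total_nonneg) hX
  have hCX0 : 0 ≤ ∑ ξ ∈ X, (γ ⟨n, X⟩ ξ).total :=
    Finset.sum_nonneg fun ξ _ => (γ ⟨n, X⟩ ξ).total_nonneg
  simp only [nsmul_eq_mul] at hsum
  unfold avgH
  have key : iPair S A A - (K2 S U A - K1 S U A)
      ≤ (2 * ∑ ξ ∈ X, famH S ξ A + ∑ ξ ∈ X, (γ ⟨n, X⟩ ξ).total) / X.card := by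
    rw [le_div_iff₀ hcard]
    linarith
  have h2 : (∑ ξ ∈ X, (γ ⟨n, X⟩ ξ).total) / X.card ≤ C :=
    (div_le_self hCX0 hcard1).trans hCX
  have h3 : (2 * ∑ ξ ∈ X, famH S ξ A + ∑ ξ ∈ X, (γ ⟨n, X⟩ ξ).total) / X.card
      = 2 * (1 / (X.card : ℝ) * ∑ ξ ∈ X, famH S ξ A)
        + (∑ ξ ∈ X, (γ ⟨n, X⟩ ξ).total) / X.card := by
    field_simp
  rw [h3] at key
  linarith

end Fermat.Agent.S17.Pos
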