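import Mathlib
import Fermat.Agent.S17.H.Pos.Props

set_option autoImplicit false

/-!
# S17, package H, seat GB-POS: the split of `PosThm` into a local and a global part

`M = e |X|`, `M₁ = |X| (2 e - 2 d + 1)`, `M₂ = 2 e`  (`d = n + 1`).

* `PosLocal S U n X` (seat POS-LOC, helper28, `Pos/PosLoc.lean`): for every index `a` two
  Galois-fixed nonzero functions `f₀, f₁` and an `M`-constant `γ` such that at every point
  `P ≠ P₀` with `π_P = φ_a - φ_a(P)` which is not a base point of `X`: one of `f₀, f₁` is a unit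
  at `P`, and for each of them which is a unit at `P`
  `log |f(P)|_v + M₁ λ_v(P) + M₂ Σ_ξ log ‖ξ(P)‖_v ≤ M (κ_v(P) + 2 λ_v(P)) + γ_v`.
  (`WeilCompare` for the families `w^[M]` and `cat(w^[M], f · φ_i^{M₁} ∏_ξ ξ_{r_ξ}^{M₂})`.)
* `posThm_of_local` (seat POS-GLOB, `Pos/PosGlob.lean`): `PosLocal` for all data ⟹ `PosThm`
  (sum over `v` and `P ∈ supp A`; product formula for the Galois-equivariant choice
  `P ↦ f_{k(P)}^{a(P)}`).
-/

noncomputable section

open AlgebraicCurve ModularCurve Fermat.Agent.RR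

namespace Fermat.Agent.S17.Pos

variable {N : ℕ} [NeZero N]

/-- **Seat POS-LOC.** -/
def PosLocal (S : HSetup N) (U : Unif S) (n : ℕ) (X : Finset (Fin (n + 1) → FN N)) : Prop :=
  ∀ a : Fin (S.r + 1), ∃ (f₀ f₁ : FN N) (γ : MConst S.𝔸),
    f₀ ≠ 0 ∧ f₁ ≠ 0 ∧ (∀ σ : GQ, Pts.galFun N σ f₀ = f₀) ∧ (∀ σ : GQ, Pts.galFun N σ f₁ = f₁) ∧
    ∀ P : PtN N, P ≠ S.P₀ →
      U.π P = S.φ a - algebraMap Qbar (FN N) (val P (S.φ a)) →
      (∀ ξ ∈ X, ∃ i, val P (ξ i) ≠ 0) →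
      (P.ord f₀ = 0 ∨ P.ord f₁ = 0) ∧
      ∀ f : FN N, (f = f₀ ∨ f = f₁) → P.ord f = 0 → ∀ v : S.𝔸.ι,
        Real.log (S.𝔸.abv v (val P f))
          + ((X.card : ℝ) * (2 * (S.e : ℝ) - 2 * ((n : ℝ) + 1) + 1)) * lamloc S.𝔸 v S.φ P
          + 2 * (S.e : ℝ) * ∑ ξ ∈ X, famloc S v ξ P
        ≤ ((S.e : ℝ) * (X.card : ℝ)) * (kappa S U v P + 2 * lamloc S.𝔸 v S.φ P) + γ v

/-- the statement of seat POS-GLOB -/
def PosGlobStatement (S : HSetup N) (U : Unif S) : Prop :=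
  (∀ (n : ℕ) (X : Finset (Fin (n + 1) → FN N)), IsDetDatum S n X → PosLocal S U n X) →
    PosThm S U

/-- the statement of seat POS-LOC -/
def PosLocStatement (S : HSetup N) (U : Unif S) : Prop :=
  KappaFam S U → WeilCompareAll S →
    ∀ (n : ℕ) (X : Finset (Fin (n + 1) → FN N)), IsDetDatum S n X → PosLocal S U n X

/-- **Seat POS** from its two halves. -/
theorem posThm_of_halves (S : HSetup N) (U : Unif S) (hloc : PosLocStatement S U)
    (hglob : PosGlobStatement S U) (hK : KappaFam S U) (hWC : WeilCompareAll S) : PosThm S U :=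
  hglob (hloc hK hWC)

end Fermat.Agent.S17.Pos
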