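import Mathlib
import Fermat.Agent.S17.H.Pos.PosLocal
import Fermat.Agent.S17.H.Pos.Fin

set_option autoImplicit false

/-!
# S17, package H, seat GB-POS-GLOB: `PosLocal` for all data implies `PosThm`

For `P ≠ P₀` let `a(P)` be the least index `a` with `π_P = φ_a - φ_a(P)` and let `g_P` be the first
of the two functions `f₀^{a(P)}`, `f₁^{a(P)}` of `PosLocal` which is a unit at `P`.  The choice
`P ↦ g_P` is Galois-invariant (`g_{σP} = g_P`) and every `g_P` is Galois-fixed, so for a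
Galois-stable divisor `A` the number `Λ = ∏_P g_P(P)^{A(P)}` is Galois-fixed:
`Σ_P A(P) Σ_v log |g_P(P)|_v = 0` (product formula on `ℚ`).  Summing the local inequality of
`PosLocal` over `v` and over `P ∈ supp A` (weights `A(P) ≥ 0`) gives `PosThm`.
-/

noncomputable section

open AlgebraicCurve ModularCurve Fermat.Agent.RR

namespace Fermat.Agent.S17.Pos

variable {N : ℕ} [NeZero N]

/-! ### the Galois-invariant choice of the index -/

/-- `π_P = φ_a - φ_a(P)` -/
def IsIdx (S : HSetup N) (U : Unif S) (P : PtN N) (a : Fin (S.r + 1)) : Prop :=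
  U.π P = S.φ a - algebraMap Qbar (FN N) (val P (S.φ a))

theorem isIdx_galPlace (S : HSetup N) (U : Unif S) (σ : GQ) {P : PtN N} {a : Fin (S.r + 1)}
    (h : IsIdx S U P a) : IsIdx S U (Pts.galPlace N σ P) a := by
  unfold IsIdx at h ⊢
  rw [← U.equivariant σ P, h]
  have h1 : Pts.galFun N σ (S.φ a - algebraMap Qbar (FN N) (val P (S.φ a)))
      = Pts.galFun N σ (S.φ a) - Pts.galFun N σ (algebraMap Qbar (FN N) (val P (S.φ a))) := by
    unfold Pts.galFun
    exact smul_sub _ _ _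
  rw [h1, S.φ_fixed σ a, Pts.galFun_algebraMap]
  have h2 := Pts.evBar_galois N σ P (S.φ a)
  rw [S.φ_fixed σ a] at h2
  unfold Pts.evBar at h2
  rw [← h2]

open Classical in
/-- the set of indices `a` with `π_P = φ_a - φ_a(P)` -/
def idxSet (S : HSetup N) (U : Unif S) (P : PtN N) : Finset (Fin (S.r + 1)) :=
  Finset.univ.filter (fun a => IsIdx S U P a)

theorem mem_idxSet (S : HSetup N) (U : Unif S) (P : PtN N) (a : Fin (S.r + 1)) :
    a ∈ idxSet S U P ↔ IsIdx S U P a := by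
  unfold idxSet
  simp only [Finset.mem_filter, Finset.mem_univ, true_and]

theorem idxSet_galPlace (S : HSetup N) (U : Unif S) (σ : GQ) (P : PtN N) :
    idxSet S U (Pts.galPlace N σ P) = idxSet S U P := by
  ext a
  rw [mem_idxSet, mem_idxSet]
  constructor
  · intro h
    have := isIdx_galPlace S U σ⁻¹ h
    rwa [← Pts.galPlace_mul, inv_mul_cancel, Pts.galPlace_one] at this
  · exact isIdx_galPlace S U σ

/-- the least element of a set of indices (junk `0` for the empty set) -/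
def leastIdx {r : ℕ} (T : Finset (Fin (r + 1))) : Fin (r + 1) :=
  if h : T.Nonempty then T.min' h else 0

theorem leastIdx_mem {r : ℕ} {T : Finset (Fin (r + 1))} (h : T.Nonempty) : leastIdx T ∈ T := by
  unfold leastIdx
  rw [dif_pos h]
  exact Finset.min'_mem T h

/-- the least index `a` with `π_P = φ_a - φ_a(P)` -/
def aOf (S : HSetup N) (U : Unif S) (P : PtN N) : Fin (S.r + 1) := leastIdx (idxSet S U P)

theorem aOf_galPlace (S : HSetup N) (U : Unif S) (σ : GQ) (P : PtN N) :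
    aOf S U (Pts.galPlace N σ P) = aOf S U P := by
  unfold aOf
  rw [idxSet_galPlace]

theorem isIdx_aOf (S : HSetup N) (U : Unif S) {P : PtN N} (hP : P ≠ S.P₀) :
    IsIdx S U P (aOf S U P) := by
  obtain ⟨a, ha⟩ := U.coord_form P hP
  have hne : (idxSet S U P).Nonempty := ⟨a, (mem_idxSet S U P a).mpr ha⟩
  exact (mem_idxSet S U P _).mp (leastIdx_mem hne)

/-! ### the Galois-invariant choice of the unit -/

theorem ord_galPlace_of_fixed (σ : GQ) (P : PtN N) {f : FN N}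
    (hf : Pts.galFun N σ f = f) : (Pts.galPlace N σ P).ord f = P.ord f := by
  have := Pts.ord_galPlace_galFun N σ P f
  rwa [hf] at this

open Classical in
/-- the first of `f₀^{a(P)}`, `f₁^{a(P)}` which is a unit at `P` -/
def gOf (S : HSetup N) (U : Unif S) (f₀ f₁ : Fin (S.r + 1) → FN N) (P : PtN N) : FN N :=
  if P.ord (f₀ (aOf S U P)) = 0 then f₀ (aOf S U P) else f₁ (aOf S U P)

theorem gOf_galPlace (S : HSetup N) (U : Unif S) (f₀ f₁ : Fin (S.r + 1) → FN N)
    (hfix₀ : ∀ a (σ : GQ), Pts.galFun N σ (f₀ a) = f₀ a) (σ : GQ) (P : PtN N) :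
    gOf S U f₀ f₁ (Pts.galPlace N σ P) = gOf S U f₀ f₁ P := by
  unfold gOf
  rw [aOf_galPlace, ord_galPlace_of_fixed σ P (hfix₀ _ σ)]

theorem gOf_fixed (S : HSetup N) (U : Unif S) (f₀ f₁ : Fin (S.r + 1) → FN N)
    (hfix₀ : ∀ a (σ : GQ), Pts.galFun N σ (f₀ a) = f₀ a)
    (hfix₁ : ∀ a (σ : GQ), Pts.galFun N σ (f₁ a) = f₁ a) (σ : GQ) (P : PtN N) :
    Pts.galFun N σ (gOf S U f₀ f₁ P) = gOf S U f₀ f₁ P := by
  unfold gOf
  split_ifs
  · exact hfix₀ _ σ
  · exact hfix₁ _ σ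

theorem gOf_eq_or (S : HSetup N) (U : Unif S) (f₀ f₁ : Fin (S.r + 1) → FN N) (P : PtN N) :
    gOf S U f₀ f₁ P = f₀ (aOf S U P) ∨ gOf S U f₀ f₁ P = f₁ (aOf S U P) := by
  unfold gOf
  split_ifs
  · exact Or.inl rfl
  · exact Or.inr rfl

theorem ord_gOf (S : HSetup N) (U : Unif S) (f₀ f₁ : Fin (S.r + 1) → FN N) (P : PtN N)
    (h : P.ord (f₀ (aOf S U P)) = 0 ∨ P.ord (f₁ (aOf S U P)) = 0) :
    P.ord (gOf S U f₀ f₁ P) = 0 := by
  unfold gOf
  split_ifs with h0
  · exact h0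
  · rcases h with h | h
    · exact absurd h h0
    · exact h

/-! ### the product formula for a Galois-invariant family of fixed units -/

theorem apply_galPlace_of_galStable {A : DivN N} (hA : GalStable N A) (σ : GQ) (P : PtN N) :
    A (Pts.galPlace N σ P) = A P := by
  have h1 := SemilinearAut.divisor_smul_apply_smul
    (arithmeticGalois (modularFunctionFieldFull N) σ) A P
  have h2 := hA σ
  unfold galDiv at h2
  rw [h2] at h1
  exact h1

theorem mem_support_galPlace_of_galStable {A : DivN N} (hA : GalStable N A) (σ : GQ)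
    (P : PtN N) : Pts.galPlace N σ P ∈ A.support ↔ P ∈ A.support := by
  rw [Finsupp.mem_support_iff, Finsupp.mem_support_iff, apply_galPlace_of_galStable hA]

/-- `Λ = ∏_P g_P(P)^{A(P)}` is Galois-fixed. -/
theorem prod_val_fixed {A : DivN N} (hA : GalStable N A) (g : PtN N → FN N)
    (hg : ∀ (σ : GQ) (P : PtN N), g (Pts.galPlace N σ P) = g P)
    (hfix : ∀ (σ : GQ) (P : PtN N), Pts.galFun N σ (g P) = g P) (σ : GQ) :
    σ (∏ P ∈ A.support, val P (g P) ^ (A P)) = ∏ P ∈ A.support, val P (g P) ^ (A P) := by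
  have hfac : ∀ P ∈ A.support, σ (val P (g P) ^ (A P))
      = val (Pts.galPlace N σ P) (g (Pts.galPlace N σ P)) ^ (A (Pts.galPlace N σ P)) := by
    intro P _
    have h2 := Pts.evBar_galois N σ P (g P)
    unfold Pts.evBar at h2
    rw [hfix σ P] at h2
    rw [map_zpow₀, apply_galPlace_of_galStable hA, hg σ P]
    show (σ (Pts.ev P (g P))) ^ (A P) = (Pts.ev (Pts.galPlace N σ P) (g P)) ^ (A P)
    rw [h2]
  rw [map_prod, Finset.prod_congr rfl hfac]
  refine Finset.prod_bij (fun P _ => Pts.galPlace N σ P) ?_ ?_ ?_ ?_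
  · intro P hP
    exact (mem_support_galPlace_of_galStable hA σ P).mpr hP
  · intro P _ Q _ hPQ
    have := congrArg (Pts.galPlace N σ⁻¹) hPQ
    rwa [← Pts.galPlace_mul, ← Pts.galPlace_mul, inv_mul_cancel, Pts.galPlace_one,
      Pts.galPlace_one] at this
  · intro Q hQ
    refine ⟨Pts.galPlace N σ⁻¹ Q, ?_, ?_⟩
    · exact (mem_support_galPlace_of_galStable hA σ⁻¹ Q).mpr hQ
    · rw [← Pts.galPlace_mul, mul_inv_cancel, Pts.galPlace_one]
  · intro P _
    rfl

/-- **Product formula** for a Galois-invariant family of Galois-fixed units on a Galois-stable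
divisor: `Σ_P A(P) Σ_v log |g_P(P)|_v = 0`. -/
theorem sum_finsum_log_val_eq_zero (S : HSetup N) {A : DivN N} (hA : GalStable N A)
    (g : PtN N → FN N)
    (hg : ∀ (σ : GQ) (P : PtN N), g (Pts.galPlace N σ P) = g P)
    (hfix : ∀ (σ : GQ) (P : PtN N), Pts.galFun N σ (g P) = g P)
    (hg0 : ∀ P ∈ A.support, g P ≠ 0) (hunit : ∀ P ∈ A.support, P.ord (g P) = 0) :
    ∑ P ∈ A.support, (A P : ℝ) * ∑ᶠ v : S.𝔸.ι, Real.log (S.𝔸.abv v (val P (g P))) = 0 := by
  have hval : ∀ P ∈ A.support, val P (g P) ≠ 0 := fun P hP =>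
    Pts.ev_ne_zero_of_ord_eq_zero (Pairing.hRR N) P (hg0 P hP) (hunit P hP)
  rw [← finsum_sum_mul A.support (fun P => (A P : ℝ))
    (fun (v : S.𝔸.ι) P => Real.log (S.𝔸.abv v (val P (g P))))
    (fun P hP => finite_log_abv S.𝔸 (hval P hP))]
  have hΛ0 : ∏ P ∈ A.support, val P (g P) ^ (A P) ≠ 0 :=
    Finset.prod_ne_zero_iff.mpr fun P hP => zpow_ne_zero _ (hval P hP)
  rw [← finsum_log_abv_eq_zero S.𝔸 hΛ0 (prod_val_fixed hA g hg hfix)]
  refine finsum_congr fun v => ?_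
  rw [map_prod, Real.log_prod]
  · refine Finset.sum_congr rfl fun P _ => ?_
    rw [map_zpow₀, Real.log_zpow]
  · intro P hP
    rw [map_zpow₀]
    exact zpow_ne_zero _ ((S.𝔸.abv v).ne_zero (hval P hP))

/-! ### summation over the places -/

/-- summation over `v` of a linear inequality between finitely supported functions -/
theorem finsum_lin_le {ι : Type*} (a b d k g : ι → ℝ) (c₁ c₂ M : ℝ)
    (ha : (Function.support a).Finite) (hb : (Function.support b).Finite)
    (hd : (Function.support d).Finite) (hk : (Function.support k).Finite)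
    (hg : (Function.support g).Finite)
    (h : ∀ v, a v + c₁ * b v + c₂ * d v ≤ M * (k v + 2 * b v) + g v) :
    (∑ᶠ v, a v) + c₁ * (∑ᶠ v, b v) + c₂ * (∑ᶠ v, d v)
      ≤ M * ((∑ᶠ v, k v) + 2 * (∑ᶠ v, b v)) + ∑ᶠ v, g v := by
  classical
  set s : Finset ι := ha.toFinset ∪ hb.toFinset ∪ hd.toFinset ∪ hk.toFinset ∪ hg.toFinset with hs
  have sub : ∀ (f : ι → ℝ) (hf : (Function.support f).Finite), hf.toFinset ⊆ s →
      ∑ᶠ v, f v = ∑ v ∈ s, f v := by
    intro f hf hsub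
    refine finsum_eq_sum_of_support_subset f ?_
    intro v hv
    exact hsub ((Set.Finite.mem_toFinset hf).mpr hv)
  have e1 := sub a ha (by intro v hv; simp only [hs, Finset.mem_union]; tauto)
  have e2 := sub b hb (by intro v hv; simp only [hs, Finset.mem_union]; tauto)
  have e3 := sub d hd (by intro v hv; simp only [hs, Finset.mem_union]; tauto)
  have e4 := sub k hk (by intro v hv; simp only [hs, Finset.mem_union]; tauto)
  have e5 := sub g hg (by intro v hv; simp only [hs, Finset.mem_union]; tauto)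
  rw [e1, e2, e3, e4, e5]
  have hsum := Finset.sum_le_sum (s := s) (fun v _ => h v)
  simp only [Finset.sum_add_distrib, ← Finset.mul_sum] at hsum
  linarith

/-- **Seat POS-GLOB.** -/
theorem posGlob (S : HSetup N) (U : Unif S) : PosGlobStatement S U := by
  classical
  intro hloc n X hX
  have h := hloc n X hX
  choose f₀ f₁ γ hf₀ hf₁ hfix₀ hfix₁ hmain using h
  set Γ : ℝ := ∑ a, (γ a).total with hΓ
  have hΓa : ∀ a, (γ a).total ≤ Γ := fun a =>
    Finset.single_le_sum (f := fun a => (γ a).total) (fun a _ => (γ a).total_nonneg)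
      (Finset.mem_univ a)
  have hΓ0 : 0 ≤ Γ := Finset.sum_nonneg fun a _ => (γ a).total_nonneg
  clear_value Γ
  have he : (0 : ℝ) < S.e := by
    have := S.e_large
    have h1 : 0 < S.e := by omega
    exact_mod_cast h1
  have hcard : (0 : ℝ) < X.card := by exact_mod_cast Finset.card_pos.mpr hX.nonempty
  refine ⟨((n + 1 : ℕ) : ℝ) * Γ / ((S.e : ℝ) * X.card), ?_⟩
  intro A hA hnb
  -- the points of `A`
  have hP₀ : ∀ P ∈ A.support, P ≠ S.P₀ := by
    intro P hP hcon
    rw [Finsupp.mem_support_iff, hcon] at hP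
    exact hP hA.base
  have hApos : ∀ P, (0 : ℝ) ≤ (A P : ℝ) := fun P => by
    exact_mod_cast Finsupp.le_def.mp hA.nonneg P
  have hnbP : ∀ P ∈ A.support, ∀ ξ ∈ X, ∃ i, val P (ξ i) ≠ 0 := fun P hP ξ hξ => hnb ξ hξ P hP
  set g : PtN N → FN N := gOf S U f₀ f₁ with hgdef
  have hloc' : ∀ P (hP : P ∈ A.support), _ :=
    fun P hP => hmain (aOf S U P) P (hP₀ P hP) (isIdx_aOf S U (hP₀ P hP)) (hnbP P hP)
  have hunit : ∀ P ∈ A.support, P.ord (g P) = 0 := fun P hP =>
    ord_gOf S U f₀ f₁ P (hloc' P hP).1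
  have hg0 : ∀ P ∈ A.support, g P ≠ 0 := by
    intro P _
    rcases gOf_eq_or S U f₀ f₁ P with h | h
    · rw [hgdef, h]; exact hf₀ _
    · rw [hgdef, h]; exact hf₁ _
  have hval : ∀ P ∈ A.support, val P (g P) ≠ 0 := fun P hP =>
    Pts.ev_ne_zero_of_ord_eq_zero (Pairing.hRR N) P (hg0 P hP) (hunit P hP)
  -- the inequality at one point, summed over `v`
  have hpt : ∀ P ∈ A.support,
      (∑ᶠ v : S.𝔸.ι, Real.log (S.𝔸.abv v (val P (g P))))
        + ((X.card : ℝ) * (2 * (S.e : ℝ) - 2 * ((n : ℝ) + 1) + 1)) * lamglob S P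
        + 2 * (S.e : ℝ) * ∑ ξ ∈ X, famglob S ξ P
      ≤ ((S.e : ℝ) * (X.card : ℝ)) * (kapglob S U P + 2 * lamglob S P) + Γ := by
    intro P hP
    have hd : (Function.support fun v : S.𝔸.ι => ∑ ξ ∈ X, famloc S v ξ P).Finite := by
      have := finite_support_sum_mul X (fun _ => (1 : ℝ)) (fun (v : S.𝔸.ι) ξ => famloc S v ξ P)
        (fun ξ hξ => finite_famloc S ξ P (hnbP P hP ξ hξ))
      simpa only [one_mul] using this
    have hsumd : ∑ᶠ v : S.𝔸.ι, ∑ ξ ∈ X, famloc S v ξ P = ∑ ξ ∈ X, famglob S ξ P := by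
      unfold famglob
      exact finsum_sum_comm X (fun (v : S.𝔸.ι) ξ => famloc S v ξ P)
        (fun ξ hξ => finite_famloc S ξ P (hnbP P hP ξ hξ))
    have := finsum_lin_le (fun v : S.𝔸.ι => Real.log (S.𝔸.abv v (val P (g P))))
      (fun v : S.𝔸.ι => lamloc S.𝔸 v S.φ P) (fun v : S.𝔸.ι => ∑ ξ ∈ X, famloc S v ξ P)
      (fun v : S.𝔸.ι => kappa S U v P) (fun v : S.𝔸.ι => γ (aOf S U P) v)
      ((X.card : ℝ) * (2 * (S.e : ℝ) - 2 * ((n : ℝ) + 1) + 1)) (2 * (S.e : ℝ))
      ((S.e : ℝ) * (X.card : ℝ))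
      (finite_log_abv S.𝔸 (hval P hP)) (finite_lamloc S P) hd (finite_kappa S U P)
      (γ (aOf S U P)).finite
      (fun v => (hloc' P hP).2 (g P) (gOf_eq_or S U f₀ f₁ P) (hunit P hP) v)
    rw [hsumd] at this
    have h5 : ∑ᶠ v : S.𝔸.ι, γ (aOf S U P) v ≤ Γ := hΓa (aOf S U P)
    unfold lamglob kapglob
    linarith
  -- sum over the points with weights `A(P)`
  have hsum := Finset.sum_le_sum (s := A.support)
    (fun P hP => mul_le_mul_of_nonneg_left (hpt P hP) (hApos P))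
  -- the five sums
  have s1 : ∑ P ∈ A.support, (A P : ℝ) * ∑ᶠ v : S.𝔸.ι, Real.log (S.𝔸.abv v (val P (g P))) = 0 :=
    sum_finsum_log_val_eq_zero S hA.galStable g
      (fun σ P => gOf_galPlace S U f₀ f₁ (fun a σ => hfix₀ a σ) σ P)
      (fun σ P => gOf_fixed S U f₀ f₁ (fun a σ => hfix₀ a σ) (fun a σ => hfix₁ a σ) σ P)
      hg0 hunit
  have s2 : ∑ P ∈ A.support, (A P : ℝ) * lamglob S P = (S.e : ℝ) * nHeight S A := by
    rw [nHeight_eq]
    field_simp
  have s3 : ∑ P ∈ A.support, (A P : ℝ) * ∑ ξ ∈ X, famglob S ξ P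
      = (X.card : ℝ) * avgH S X A := by
    unfold avgH famH
    rw [Finset.sum_comm]
    have : ∑ P ∈ A.support, (A P : ℝ) * ∑ ξ ∈ X, famglob S ξ P
        = ∑ P ∈ A.support, ∑ ξ ∈ X, (A P : ℝ) * famglob S ξ P := by
      refine Finset.sum_congr rfl fun P _ => ?_
      rw [Finset.mul_sum]
    rw [this]
    field_simp
  have s4 : ∑ P ∈ A.support, (A P : ℝ) * kapglob S U P = K1 S U A := rfl
  have s5 : ∑ P ∈ A.support, (A P : ℝ) = ((n + 1 : ℕ) : ℝ) := by
    have h1 := Fermat.Agent.RR.degree_eq_sum (Pairing.hRR N) A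
    rw [hA.degree_eq] at h1
    have h2 : ((∑ P ∈ A.support, A P : ℤ) : ℝ) = ((n + 1 : ℕ) : ℝ) := by
      rw [← h1]
      push_cast
      ring
    rw [← h2]
    push_cast
    rfl
  have hL : ∑ P ∈ A.support, (A P : ℝ) *
      ((∑ᶠ v : S.𝔸.ι, Real.log (S.𝔸.abv v (val P (g P))))
        + ((X.card : ℝ) * (2 * (S.e : ℝ) - 2 * ((n : ℝ) + 1) + 1)) * lamglob S P
        + 2 * (S.e : ℝ) * ∑ ξ ∈ X, famglob S ξ P)
      = 0 + ((X.card : ℝ) * (2 * (S.e : ℝ) - 2 * ((n : ℝ) + 1) + 1)) * ((S.e : ℝ) * nHeight S A)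
        + 2 * (S.e : ℝ) * ((X.card : ℝ) * avgH S X A) := by
    rw [← s1, ← s2, ← s3, Finset.mul_sum, Finset.mul_sum, ← Finset.sum_add_distrib,
      ← Finset.sum_add_distrib]
    refine Finset.sum_congr rfl fun P _ => ?_
    ring
  have hR : ∑ P ∈ A.support, (A P : ℝ) *
      (((S.e : ℝ) * (X.card : ℝ)) * (kapglob S U P + 2 * lamglob S P) + Γ)
      = ((S.e : ℝ) * (X.card : ℝ)) * (K1 S U A + 2 * ((S.e : ℝ) * nHeight S A))
        + ((n + 1 : ℕ) : ℝ) * Γ := by
    rw [← s4, ← s2, ← s5]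
    simp only [Finset.mul_sum, Finset.sum_mul, ← Finset.sum_add_distrib]
    refine Finset.sum_congr rfl fun P _ => ?_
    ring
  rw [hL, hR] at hsum
  -- the final computation
  have hEc : (0 : ℝ) < (S.e : ℝ) * X.card := mul_pos he hcard
  have key : (nHeight S A - (K1 S U A + 2 * ((n + 1 : ℕ) : ℝ) * nHeight S A - 2 * avgH S X A))
      * ((S.e : ℝ) * X.card) ≤ ((n + 1 : ℕ) : ℝ) * Γ := by
    push_cast
    push_cast at hsum
    nlinarith [hsum]
  have key2 : nHeight S A - (K1 S U A + 2 * ((n + 1 : ℕ) : ℝ) * nHeight S A - 2 * avgH S X A)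
      ≤ ((n + 1 : ℕ) : ℝ) * Γ / ((S.e : ℝ) * X.card) := by
    rw [le_div_iff₀ hEc]
    exact key
  linarith

end Fermat.Agent.S17.Pos
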