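import Mathlib
import Fermat.Agent.S17.H.Pos.Fin
import Fermat.Agent.S17.H.ImmCoord

set_option autoImplicit false

/-!
# S17, package H, seat GB-UNIF: Galois-equivariant uniformizers

`nonempty_unif S : Nonempty (Unif S)`.  For `P ≠ P₀` the uniformizer is `φ_a - φ_a(P)` with `a` the
LEAST index such that this function has a simple zero at `P` (L3); this choice is Galois-equivariant
because `φ` is Galois-fixed.  At `P₀`: `(φ_a - c φ_{a₀}) / φ_{a₀}`, `a₀` the pivot, which is fixed.
-/

noncomputable section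

open AlgebraicCurve ModularCurve Fermat.Agent.RR

namespace Fermat.Agent.S17.Pos

variable {N : ℕ} [NeZero N]

/-- the candidate `φ_a - φ_a(P)` -/
def ucand (S : HSetup N) (P : PtN N) (a : Fin (S.r + 1)) : FN N :=
  S.φ a - algebraMap Qbar (FN N) (val P (S.φ a))

theorem galFun_sub (σ : GQ) (f g : FN N) :
    Pts.galFun N σ (f - g) = Pts.galFun N σ f - Pts.galFun N σ g := by
  unfold Pts.galFun
  exact smul_sub _ f g

theorem galFun_mul' (σ : GQ) (f g : FN N) :
    Pts.galFun N σ (f * g) = Pts.galFun N σ f * Pts.galFun N σ g := by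
  unfold Pts.galFun
  exact smul_mul' _ f g

theorem galFun_div (σ : GQ) (f g : FN N) :
    Pts.galFun N σ (f / g) = Pts.galFun N σ f / Pts.galFun N σ g := by
  unfold Pts.galFun
  exact smul_div₀' _ f g

theorem val_galPlace_fixed (σ : GQ) (P : PtN N) {f : FN N} (hf : Pts.galFun N σ f = f) :
    val (Pts.galPlace N σ P) f = σ (val P f) := by
  have := Pts.evBar_galois N σ P f
  rw [hf] at this
  exact this

theorem galFun_ucand (S : HSetup N) (σ : GQ) (P : PtN N) (a : Fin (S.r + 1)) :
    Pts.galFun N σ (ucand S P a) = ucand S (Pts.galPlace N σ P) a := by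
  unfold ucand
  rw [galFun_sub, S.φ_fixed σ a, Pts.galFun_algebraMap, val_galPlace_fixed σ P (S.φ_fixed σ a)]

theorem ord_ucand_galPlace (S : HSetup N) (σ : GQ) (P : PtN N) (a : Fin (S.r + 1)) :
    (Pts.galPlace N σ P).ord (ucand S (Pts.galPlace N σ P) a) = P.ord (ucand S P a) := by
  rw [← galFun_ucand, Pts.ord_galPlace_galFun]

/-- L3: some candidate is a uniformizer at `P ≠ P₀` -/
theorem exists_ucand (S : HSetup N) {P : PtN N} (hP : P ≠ S.P₀) :
    ∃ a, P.ord (ucand S P a) = 1 := by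
  classical
  have h := Pairing.hRR N
  have hdeg : 2 * (genusFF Qbar (FN N) : ℤ) + 1 ≤ Divisor.degree (Finsupp.single S.P₀ (S.e : ℤ)) := by
    rw [imm_degree_single h]
    exact_mod_cast e_large' S
  have h0 : P.ord (S.φ 0) = -(Finsupp.single S.P₀ (S.e : ℤ)) P := by
    rw [S.isEmbBasis.zero_eq_one, Finsupp.single_apply, if_neg (Ne.symm hP), neg_zero]
    exact P.ord_one
  obtain ⟨a, -, ha⟩ := imm_exists_simple_coord h (Finsupp.single S.P₀ (S.e : ℤ)) P hdeg S.φ
    S.isEmbBasis.span_eq' 0 (S.isEmbBasis.ne_zero 0) h0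
  refine ⟨a, ?_⟩
  rw [S.isEmbBasis.zero_eq_one, div_one, div_one, Algebra.smul_def, mul_one] at ha
  exact ha

/-- the least index of a uniformizing candidate (junk `0` if there is none) -/
def uidx (S : HSetup N) (P : PtN N) : Fin (S.r + 1) :=
  open Classical in
  if h : (Finset.univ.filter fun a => P.ord (ucand S P a) = 1).Nonempty then
    (Finset.univ.filter fun a => P.ord (ucand S P a) = 1).min' h
  else 0

theorem ord_uidx (S : HSetup N) {P : PtN N} (hP : P ≠ S.P₀) :
    P.ord (ucand S P (uidx S P)) = 1 := by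
  classical
  obtain ⟨a, ha⟩ := exists_ucand S hP
  have hne : (Finset.univ.filter fun a => P.ord (ucand S P a) = 1).Nonempty :=
    ⟨a, by simp [ha]⟩
  unfold uidx
  rw [dif_pos hne]
  have := Finset.min'_mem _ hne
  simpa using this

theorem uidx_galPlace (S : HSetup N) (σ : GQ) (P : PtN N) :
    uidx S (Pts.galPlace N σ P) = uidx S P := by
  classical
  have hfil : (Finset.univ.filter fun a =>
      (Pts.galPlace N σ P).ord (ucand S (Pts.galPlace N σ P) a) = 1)
      = Finset.univ.filter fun a => P.ord (ucand S P a) = 1 := by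
    refine Finset.filter_congr fun a _ => ?_
    rw [ord_ucand_galPlace]
  unfold uidx
  simp only [hfil]

/-- a Galois-fixed uniformizer at `P₀` -/
theorem exists_unif_base (S : HSetup N) :
    ∃ π₀ : FN N, S.P₀.ord π₀ = 1 ∧ ∀ σ : GQ, Pts.galFun N σ π₀ = π₀ := by
  classical
  have h := Pairing.hRR N
  have hdeg : 2 * (genusFF Qbar (FN N) : ℤ) + 1 ≤ Divisor.degree (Finsupp.single S.P₀ (S.e : ℤ)) := by
    rw [imm_degree_single h]
    exact_mod_cast e_large' S
  have he' : 2 * genusFF Qbar (FN N) ≤ S.e := by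
    have := e_large' S
    omega
  set a0 := pivot S.φ S.P₀ with ha0
  obtain ⟨a, -, ha⟩ := imm_exists_simple_coord h (Finsupp.single S.P₀ (S.e : ℤ)) S.P₀ hdeg S.φ
    S.isEmbBasis.span_eq' a0 (S.isEmbBasis.ne_zero a0) (S.isEmbBasis.ord_pivot h he' S.P₀)
  refine ⟨_, ha, fun σ => ?_⟩
  have hq : Pts.galFun N σ (S.φ a / S.φ a0) = S.φ a / S.φ a0 := by
    rw [galFun_div, S.φ_fixed, S.φ_fixed]
  have hc : σ (Pts.ev S.P₀ (S.φ a / S.φ a0)) = Pts.ev S.P₀ (S.φ a / S.φ a0) := by
    have := val_galPlace_fixed σ S.P₀ hq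
    rw [S.P₀_fixed σ] at this
    exact this.symm
  rw [galFun_div, galFun_sub, Algebra.smul_def, galFun_mul', Pts.galFun_algebraMap, hc,
    S.φ_fixed, S.φ_fixed]

/-- **Seat UNIF.** -/
theorem nonempty_unif (S : HSetup N) : Nonempty (Unif S) := by
  classical
  obtain ⟨π₀, hπ₀, hfix⟩ := exists_unif_base S
  have hne : ∀ (σ : GQ) (P : PtN N), P ≠ S.P₀ → Pts.galPlace N σ P ≠ S.P₀ := by
    intro σ P hP hcon
    apply hP
    have h1 := congrArg (Pts.galPlace N σ⁻¹) hcon
    rwa [← Pts.galPlace_mul, inv_mul_cancel, Pts.galPlace_one, S.P₀_fixed] at h1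
  refine ⟨⟨fun P => if P = S.P₀ then π₀ else ucand S P (uidx S P), ?_, ?_, ?_⟩⟩
  · intro P
    by_cases hP : P = S.P₀
    · simp only [if_pos hP]
      rw [hP]
      exact hπ₀
    · simp only [if_neg hP]
      exact ord_uidx S hP
  · intro σ P
    by_cases hP : P = S.P₀
    · subst hP
      simp only [if_true, S.P₀_fixed σ]
      exact hfix σ
    · simp only [if_neg hP, if_neg (hne σ P hP)]
      rw [galFun_ucand, uidx_galPlace]
  · intro P hP
    simp only [if_neg hP]
    exact ⟨uidx S P, rfl⟩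

end Fermat.Agent.S17.Pos
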