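import Mathlib
import Fermat.Agent.S17.H.Pos.DetGlobal
import Fermat.Agent.S17.H.Pos.Unif
import Fermat.Agent.S17.H.Pos.WeilAll
import Fermat.Agent.S17.H.Pos.Adj
import Fermat.Agent.S17.H.Pos.PosGlob
import Fermat.Agent.S17.H.Pos.OneProp
import Fermat.Agent.S17.H.LCge
import Fermat.Agent.S17.H.LCle
import Fermat.Agent.S17.H.Pairing.Final

set_option autoImplicit false

/-!
# S17, package H, seat GB: pre-assembly

`positivityThm_pre`: `PositivityThm S` from the seats which are still open
(`JetData`, `DetData`, `KappaFam`, `PosLocStatement`); everything else (L6, L7, L4, ADJ, DETGLOB,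
POS-GLOB, UNIF, FIN) is plugged in.
-/

noncomputable section

open AlgebraicCurve ModularCurve Fermat.Agent.RR

namespace Fermat.Agent.S17.Pos

variable {N : ℕ} [NeZero N]

/-- the basis of `V₁ = L(e P₀)` given by `φ` -/
def embBasis (S : HSetup N) : Module.Basis (Fin (S.r + 1)) Qbar (secSpace S.P₀ S.e 1) :=
  (Module.Basis.span S.isEmbBasis.linearIndependent).map
    (LinearEquiv.ofEq _ _ S.isEmbBasis.span_eq)

theorem e_large4 (S : HSetup N) : 4 * genusFF Qbar (FN N) + 1 ≤ S.e := by
  have := S.e_large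
  omega

theorem e_large3 (S : HSetup N) : 3 * genusFF Qbar (FN N) + 1 ≤ S.e := by
  have := S.e_large
  omega

/-- L6 at `j = 1` for the basis `φ` -/
theorem localGe (S : HSetup N) :
    LocalDecompGe S.𝔸 (Pairing.hRR N) S.P₀ S.e S.φ 1 (embBasis S) :=
  localDecompGe S.𝔸 (Pairing.hRR N) (e_large4 S) S.isEmbBasis le_rfl (embBasis S)

/-- L7 at `j = 1` for the basis `φ` -/
theorem localLe (S : HSetup N) :
    LocalDecompLe S.𝔸 (Pairing.hRR N) S.P₀ S.e S.φ 1 (embBasis S) :=
  localDecompLe S.𝔸 (Pairing.hRR N) S.isEmbBasis (e_large3 S) (embBasis S)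

/-- L6 + L7 at `j = 1` for the basis `φ` -/
theorem localDecomp (S : HSetup N) :
    LocalDecomp S.𝔸 (Pairing.hRR N) S.P₀ S.e S.φ 1 (embBasis S) :=
  Pairing.localDecomp_of_ge_le S.𝔸 (Pairing.hRR N) S.P₀ S.e S.φ 1 (embBasis S)
    (localGe S) (localLe S)

/-- **Pre-assembly of seat GB.** -/
theorem positivityThm_pre (S : HSetup N) (U : Unif S) (J : JetData S U) (hD : DetData S)
    (hK : KappaFam S U) (hPL : PosLocStatement S U) : PositivityThm S :=
  positivityThm_of S U (canonAdm S) (adjThm S U (embBasis S) (localDecomp S))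
    (detThm_of S U J hD)
    (posThm_of_halves S U hPL (posGlob S U) hK (weilCompareAll S))

end Fermat.Agent.S17.Pos
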