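import Mathlib
import Fermat.Agent.S17.H.Pos.AdjFin

set_option autoImplicit false
set_option linter.unusedSectionVars false

/-!
# S17, package H, seat GB-ELIM, part 1: the base divisor of a family of sections and the local
decomposition theorem at a non-zero of a section

* `baseDiv S ξ`        : `B = inf_i Z_{ξ_i}` (pointwise minimum of the zero divisors).
* `baseDiv_le_zdiv`    : `B ≤ Z_s` for every nonzero `s` in the span of `ξ`.
* `exists_baseDiv_eq`  : at every point some `ξ_i` has `Z_{ξ_i}(c) = B(c)`.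
* `elim_log_secSize`   : `log |s|_v(P) = log |s(P)|_v - lamloc_v(P)` for `P ≠ P₀`, `s(P) ≠ 0`.
* `elim_localGe`       : `LocalDecompGe` for `s` at `P ≠ P₀` with `s(P) ≠ 0`:
                         `lamloc_v(P) - glin(P, Z_s) ≤ log |s(P)|_v - log ‖s‖_v + γ_v`.
-/

noncomputable section

open AlgebraicCurve ModularCurve Fermat.Agent.RR Fermat.Agent.S17.Pairing

namespace Fermat.Agent.S17.Pos

variable {N : ℕ} [NeZero N]

/-- the zero divisor of a section of `V₁` -/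
abbrev zd (S : HSetup N) (f : FN N) : DivN N := zdiv (hRR N) S.P₀ S.e 1 f

/-- the base divisor `inf_i Z_{ξ_i}` of a family of sections (truncated at `0`) -/
def baseDiv (S : HSetup N) {n : ℕ} (ξ : Fin (n + 1) → FN N) : DivN N :=
  Finsupp.onFinset (zd S (ξ 0)).support
    (fun c => max (Finset.univ.inf' Finset.univ_nonempty fun i => zd S (ξ i) c) 0) (by
      intro c hc
      rw [Finsupp.mem_support_iff]
      intro h0
      apply hc
      have h1 : (Finset.univ.inf' Finset.univ_nonempty fun i => zd S (ξ i) c) ≤ zd S (ξ 0) c :=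
        Finset.inf'_le (fun i => zd S (ξ i) c) (Finset.mem_univ 0)
      rw [h0] at h1
      exact max_eq_right h1)

theorem baseDiv_apply' (S : HSetup N) {n : ℕ} (ξ : Fin (n + 1) → FN N) (c : PtN N) :
    baseDiv S ξ c = max (Finset.univ.inf' Finset.univ_nonempty fun i => zd S (ξ i) c) 0 := rfl

theorem baseDiv_nonneg (S : HSetup N) {n : ℕ} (ξ : Fin (n + 1) → FN N) : 0 ≤ baseDiv S ξ := by
  rw [Finsupp.le_def]
  intro c
  rw [baseDiv_apply']
  exact le_max_right _ _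

section

variable (S : HSetup N) {n : ℕ} (ξ : Fin (n + 1) → FN N)
  (hξ : ∀ i, ξ i ∈ secSpace S.P₀ S.e 1) (hξ0 : ∀ i, ξ i ≠ 0)

include hξ hξ0

theorem baseDiv_apply (c : PtN N) :
    baseDiv S ξ c = Finset.univ.inf' Finset.univ_nonempty fun i => zd S (ξ i) c := by
  rw [baseDiv_apply']
  apply max_eq_left
  rw [Finset.le_inf'_iff]
  intro i _
  exact zdiv_nonneg (hRR N) S.P₀ S.e 1 (hξ i) (hξ0 i) c

theorem baseDiv_le (i : Fin (n + 1)) : baseDiv S ξ ≤ zd S (ξ i) := by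
  rw [Finsupp.le_def]
  intro c
  rw [baseDiv_apply S ξ hξ hξ0]
  exact Finset.inf'_le (fun i => zd S (ξ i) c) (Finset.mem_univ i)

/-- at every point the minimum is attained -/
theorem exists_baseDiv_eq (c : PtN N) : ∃ i, zd S (ξ i) c = baseDiv S ξ c := by
  obtain ⟨i, -, hi⟩ := Finset.exists_mem_eq_inf' Finset.univ_nonempty fun i => zd S (ξ i) c
  exact ⟨i, by rw [baseDiv_apply S ξ hξ hξ0, hi]⟩

/-- the base divisor vanishes where some `ξ_i` does not vanish -/
theorem baseDiv_eq_zero {c : PtN N} (hc : ∃ i, zd S (ξ i) c = 0) : baseDiv S ξ c = 0 := by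
  obtain ⟨i, hi⟩ := hc
  have h1 := Finsupp.le_def.mp (baseDiv_le S ξ hξ hξ0 i) c
  have h2 := Finsupp.le_def.mp (baseDiv_nonneg S ξ) c
  rw [hi] at h1
  exact le_antisymm h1 h2

/-- the sections of the span vanish on the base divisor -/
theorem baseDiv_le_zdiv {s : FN N} (hs : s ∈ Submodule.span Qbar (Set.range ξ)) (hs0 : s ≠ 0) :
    baseDiv S ξ ≤ zd S s := by
  have h := hRR N
  have hsub : Submodule.span Qbar (Set.range ξ)
      ≤ riemannRochSpace (Finsupp.single S.P₀ ((1 * S.e : ℕ) : ℤ) - baseDiv S ξ) := by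
    rw [Submodule.span_le]
    rintro _ ⟨i, rfl⟩
    rw [SetLike.mem_coe, mem_riemannRochSpace_iff_le h (hξ0 i)]
    have := baseDiv_le S ξ hξ hξ0 i
    unfold zd zdiv at this
    rw [neg_sub]
    exact sub_le_iff_le_add.mpr this
  have hmem := hsub hs
  rw [mem_riemannRochSpace_iff_le h hs0, neg_sub] at hmem
  unfold zd zdiv
  exact sub_le_iff_le_add.mp hmem

end

/-! ### the local decomposition theorem at a non-zero of a section -/

/-- for `P ≠ P₀` and a section `s` of `V₁`: `|s|_v(P) = |s(P)|_v / ‖φ(P)‖_v` -/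
theorem elim_secSize (S : HSetup N) (v : S.𝔸.ι) {P : PtN N} (hP : P ≠ S.P₀) (π : FN N)
    {s : FN N} (hs : s ∈ secSpace S.P₀ S.e 1) (hs0 : s ≠ 0) :
    secSize S.𝔸 v S.φ 1 P π 0 s
      = S.𝔸.abv v (val P s) / vnorm S.𝔸 v (fun a => val P (S.φ a)) := by
  classical
  have he := e_ge_two_genus S
  have hpiv := S.isEmbBasis.ord_pivot_of_ne (hRR N) he hP
  have hp0 : S.φ (pivot S.φ P) ≠ 0 := S.isEmbBasis.ne_zero _
  have hv0 : val P (S.φ (pivot S.φ P)) ≠ 0 := Pts.ev_ne_zero_of_ord_eq_zero (hRR N) P hp0 hpiv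
  have habs : 0 < S.𝔸.abv v (val P (S.φ (pivot S.φ P))) := (S.𝔸.abv v).pos hv0
  have hsnn : 0 ≤ P.ord s := by
    have h1 := zdiv_nonneg (hRR N) S.P₀ S.e 1 hs hs0 P
    rw [zdiv_apply, Finsupp.single_apply, if_neg (Ne.symm hP), add_zero] at h1
    exact h1
  unfold secSize
  rw [pow_one, pow_zero, mul_one, pow_one, adj_vnorm_coord S v hP]
  have : val P (s / S.φ (pivot S.φ P)) = val P s / val P (S.φ (pivot S.φ P)) :=
    Pts.ev_div (hRR N) P hsnn hpiv
  rw [this, map_div₀]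
  field_simp

/-- for `P ≠ P₀`, `s(P) ≠ 0`: `log |s|_v(P) = log |s(P)|_v - lamloc_v(P)` -/
theorem elim_log_secSize (S : HSetup N) (v : S.𝔸.ι) {P : PtN N} (hP : P ≠ S.P₀) (π : FN N)
    {s : FN N} (hs : s ∈ secSpace S.P₀ S.e 1) (hs0 : s ≠ 0) (hsP : val P s ≠ 0) :
    Real.log (secSize S.𝔸 v S.φ 1 P π 0 s)
      = Real.log (S.𝔸.abv v (val P s)) - lamloc S.𝔸 v S.φ P := by
  rw [elim_secSize S v hP π hs hs0]
  unfold lamloc
  have h1 : 0 < S.𝔸.abv v (val P s) := (S.𝔸.abv v).pos hsP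
  have h2 : 0 < vnorm S.𝔸 v (fun a => val P (S.φ a)) := by
    refine vnorm_pos S.𝔸 v ?_
    intro h0
    have := congrFun h0 0
    simp only [Pi.zero_apply] at this
    rw [S.isEmbBasis.zero_eq_one] at this
    exact one_ne_zero ((Pts.ev_one P).symm.trans this)
  rw [Real.log_div h1.ne' h2.ne']

/-- a section which does not vanish at `P ≠ P₀` (as a function) has `Z_s(P) = 0` -/
theorem elim_zd_eq_zero (S : HSetup N) {P : PtN N} (hP : P ≠ S.P₀) {s : FN N}
    (hs : s ∈ secSpace S.P₀ S.e 1) (hs0 : s ≠ 0) (hsP : val P s ≠ 0) : zd S s P = 0 := by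
  classical
  have h1 := zdiv_nonneg (hRR N) S.P₀ S.e 1 hs hs0 P
  unfold zd
  rw [zdiv_apply, Finsupp.single_apply, if_neg (Ne.symm hP), add_zero] at h1 ⊢
  by_contra hne
  have hpos : 0 < P.ord s := lt_of_le_of_ne h1 (Ne.symm hne)
  exact hsP ((Pts.ev_eq_zero_iff (hRR N) P hs0 h1).mpr hpos)

/-- `LocalDecompGe` at a non-zero `P ≠ P₀` of a section -/
theorem elim_localGe (S : HSetup N) {d : ℕ}
    (b : Module.Basis (Fin (d + 1)) Qbar (secSpace S.P₀ S.e 1)) {γ : MConst S.𝔸}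
    (hγ : ∀ (v : S.𝔸.ι) (f : FN N), f ∈ secSpace S.P₀ S.e 1 → f ≠ 0 →
      ∀ (P : PtN N) (π : FN N), P.ord π = 1 → ∀ m : ℕ,
        (m : ℤ) = zdiv (hRR N) S.P₀ S.e 1 f P →
        Real.log (cnorm S.𝔸 v b f) + m * Real.log (theta S.𝔸 v S.φ P π)
          - gsum S.𝔸 v S.φ P (zdiv (hRR N) S.P₀ S.e 1 f) - γ v
          ≤ Real.log (secSize S.𝔸 v S.φ 1 P π m f))
    (v : S.𝔸.ι) {P : PtN N} (hP : P ≠ S.P₀) {s : FN N} (hs : s ∈ secSpace S.P₀ S.e 1)
    (hs0 : s ≠ 0) (hsP : val P s ≠ 0) :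
    lamloc S.𝔸 v S.φ P - glin S v P (zd S s)
      ≤ Real.log (S.𝔸.abv v (val P s)) - Real.log (cnorm S.𝔸 v b s) + γ v := by
  obtain ⟨π, hπ⟩ := exists_uniformizer P
  have hm : ((0 : ℕ) : ℤ) = zdiv (hRR N) S.P₀ S.e 1 s P := by
    have := elim_zd_eq_zero S hP hs hs0 hsP
    unfold zd at this
    rw [this]
    rfl
  have h := hγ v s hs hs0 P π hπ 0 hm
  rw [elim_log_secSize S v hP π hs hs0 hsP, gsum_eq_glin] at h
  push_cast at h
  unfold zd
  linarith

end Fermat.Agent.S17.Pos
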