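import Mathlib
import Fermat.Agent.S17.H.Pos.ElimBase

set_option autoImplicit false
set_option linter.unusedSectionVars false

/-!
# S17, package H, seat GB-ELIM, part 2: elimination of the base divisor

`exists_base_elim_of_tri` : the statement of seat ELIM from `LocalDecompGe` (`j = 1`) and the
chordal triangle inequality `min (g_v(P,Q), g_v(P,Q')) ≤ g_v(Q,Q') + τ_v` (`ChordTriangle S`).

Proof: `B = inf_i Z_{ξ_i}`, `R_i = Z_{ξ_i} - B ≥ 0` (degree `≤ e`) have no common point;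
`C = ∪ supp R_i`, `G_v = Σ_{c,c' ∈ C} |g_v(c,c')|`.  For `P ≠ P₀` where some `ξ_i` does not
vanish there is an index `r` with `ξ_r(P) ≠ 0` and `g_v(P,c) ≤ G_v + τ_v` on `supp R_r`
(`exists_good_index`); then `LocalDecompGe` (`m = 0`) for `ξ_r` at `P`.
-/

noncomputable section

open AlgebraicCurve ModularCurve Fermat.Agent.RR Fermat.Agent.S17.Pairing

namespace Fermat.Agent.S17.Pos

variable {N : ℕ} [NeZero N]

/-- **the chordal triangle inequality**, in logarithmic form -/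
def ChordTriangle (S : HSetup N) : Prop :=
  ∃ τ : MConst S.𝔸, ∀ (v : S.𝔸.ι) (P Q Q' : PtN N), P ≠ Q → P ≠ Q' → Q ≠ Q' →
    min (gloc S.𝔸 v S.φ P Q) (gloc S.𝔸 v S.φ P Q') ≤ gloc S.𝔸 v S.φ Q Q' + τ v

/-- the residual divisors `R_i = Z_{ξ_i} - B` -/
def resDiv (S : HSetup N) {n : ℕ} (ξ : Fin (n + 1) → FN N) (i : Fin (n + 1)) : DivN N :=
  zd S (ξ i) - baseDiv S ξ

open Classical in
/-- the finite set `C = ∪ supp R_i` -/
def resPts (S : HSetup N) {n : ℕ} (ξ : Fin (n + 1) → FN N) : Finset (PtN N) :=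
  Finset.univ.biUnion fun i => (resDiv S ξ i).support

/-- `G_v = Σ_{c, c' ∈ C} |g_v(c,c')|` -/
def elimG (S : HSetup N) {n : ℕ} (ξ : Fin (n + 1) → FN N) : MConst S.𝔸 where
  c := fun v => ∑ c ∈ resPts S ξ, ∑ c' ∈ resPts S ξ, |gloc S.𝔸 v S.φ c c'|
  nonneg := fun v => Finset.sum_nonneg fun _ _ => Finset.sum_nonneg fun _ _ => abs_nonneg _
  finite := by
    classical
    have hfin : (⋃ c ∈ resPts S ξ, ⋃ c' ∈ resPts S ξ,
        {v : S.𝔸.ι | gloc S.𝔸 v S.φ c c' ≠ 0}).Finite :=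
      Set.Finite.biUnion (resPts S ξ).finite_toSet fun c _ =>
        Set.Finite.biUnion (resPts S ξ).finite_toSet fun c' _ => glocFinite S c c'
    refine hfin.subset ?_
    intro v hv
    simp only [Set.mem_ofPred_eq, ne_eq] at hv
    obtain ⟨c, hc, hne⟩ := Finset.exists_ne_zero_of_sum_ne_zero hv
    obtain ⟨c', hc', hne'⟩ := Finset.exists_ne_zero_of_sum_ne_zero hne
    simp only [Set.mem_iUnion, Set.mem_ofPred_eq]
    exact ⟨c, hc, c', hc', fun h0 => hne' (by rw [h0, abs_zero])⟩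

theorem gloc_le_elimG (S : HSetup N) {n : ℕ} (ξ : Fin (n + 1) → FN N) (v : S.𝔸.ι)
    {c c' : PtN N} (hc : c ∈ resPts S ξ) (hc' : c' ∈ resPts S ξ) :
    gloc S.𝔸 v S.φ c c' ≤ elimG S ξ v := by
  refine (le_abs_self _).trans ?_
  show |gloc S.𝔸 v S.φ c c'| ≤ ∑ c ∈ resPts S ξ, ∑ c' ∈ resPts S ξ, |gloc S.𝔸 v S.φ c c'|
  refine le_trans ?_ (Finset.single_le_sum
    (f := fun c => ∑ c' ∈ resPts S ξ, |gloc S.𝔸 v S.φ c c'|)
    (fun _ _ => Finset.sum_nonneg fun _ _ => abs_nonneg _) hc)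
  exact Finset.single_le_sum (f := fun c' => |gloc S.𝔸 v S.φ c c'|)
    (fun _ _ => abs_nonneg _) hc'

/-- `κ_v = Σ_i |log ‖ξ_i‖_v|` -/
def elimK (S : HSetup N) {d : ℕ} (b : Module.Basis (Fin (d + 1)) Qbar (secSpace S.P₀ S.e 1))
    {n : ℕ} (ξ : Fin (n + 1) → FN N) : MConst S.𝔸 where
  c := fun v => ∑ i, |Real.log (cnorm S.𝔸 v b (ξ i))|
  nonneg := fun v => Finset.sum_nonneg fun _ _ => abs_nonneg _
  finite := by
    classical
    have hfin : (⋃ i ∈ (Finset.univ : Finset (Fin (n + 1))),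
        {v : S.𝔸.ι | Real.log (cnorm S.𝔸 v b (ξ i)) ≠ 0}).Finite :=
      Set.Finite.biUnion (Finset.univ).finite_toSet fun i _ => adj_finite_log_cnorm S b (ξ i)
    refine hfin.subset ?_
    intro v hv
    simp only [Set.mem_ofPred_eq, ne_eq] at hv
    obtain ⟨i, hi, hne⟩ := Finset.exists_ne_zero_of_sum_ne_zero hv
    simp only [Set.mem_iUnion, Set.mem_ofPred_eq]
    exact ⟨i, hi, fun h0 => hne (by rw [h0, abs_zero])⟩

section

variable (S : HSetup N) {n : ℕ} (ξ : Fin (n + 1) → FN N)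
  (hξ : ∀ i, ξ i ∈ secSpace S.P₀ S.e 1) (hξ0 : ∀ i, ξ i ≠ 0)

include hξ hξ0

theorem resDiv_nonneg (i : Fin (n + 1)) : 0 ≤ resDiv S ξ i :=
  sub_nonneg.mpr (baseDiv_le S ξ hξ hξ0 i)

theorem resDiv_apply_nonneg (i : Fin (n + 1)) (c : PtN N) : (0 : ℝ) ≤ (resDiv S ξ i c : ℝ) := by
  exact_mod_cast Finsupp.le_def.mp (resDiv_nonneg S ξ hξ hξ0 i) c

/-- `deg R_i ≤ e` -/
theorem sum_resDiv_le (i : Fin (n + 1)) :
    ∑ c ∈ (resDiv S ξ i).support, (resDiv S ξ i c : ℝ) ≤ S.e := by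
  have h := hRR N
  have h1 : Divisor.degree (resDiv S ξ i) ≤ (S.e : ℤ) := by
    unfold resDiv
    rw [map_sub]
    have h2 : Divisor.degree (zd S (ξ i)) = (S.e : ℤ) := by
      unfold zd zdiv
      rw [map_add, degree_divOf, zero_add, Divisor.degree_single, h.deg_one]
      push_cast
      ring
    have h3 := degree_nonneg_of_nonneg h (baseDiv_nonneg S ξ)
    omega
  rw [degree_eq_sum h] at h1
  have h4 : ((∑ c ∈ (resDiv S ξ i).support, resDiv S ξ i c : ℤ) : ℝ) ≤ ((S.e : ℤ) : ℝ) := by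
    exact_mod_cast h1
  push_cast at h4
  exact h4

/-- the residual divisors have no common point -/
theorem exists_resDiv_eq_zero (c : PtN N) : ∃ i, resDiv S ξ i c = 0 := by
  obtain ⟨i, hi⟩ := exists_baseDiv_eq S ξ hξ hξ0 c
  refine ⟨i, ?_⟩
  unfold resDiv
  rw [Finsupp.sub_apply, hi, sub_self]

theorem mem_resPts_of_mem_support {i : Fin (n + 1)} {c : PtN N}
    (hc : c ∈ (resDiv S ξ i).support) : c ∈ resPts S ξ := by
  classical
  unfold resPts
  rw [Finset.mem_biUnion]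
  exact ⟨i, Finset.mem_univ i, hc⟩

/-- **the choice of the index** -/
theorem exists_good_index {τ : MConst S.𝔸}
    (hτ : ∀ (v : S.𝔸.ι) (P Q Q' : PtN N), P ≠ Q → P ≠ Q' → Q ≠ Q' →
      min (gloc S.𝔸 v S.φ P Q) (gloc S.𝔸 v S.φ P Q') ≤ gloc S.𝔸 v S.φ Q Q' + τ v)
    (v : S.𝔸.ι) {P : PtN N} (hP : P ≠ S.P₀) (hex : ∃ i, val P (ξ i) ≠ 0) :
    ∃ r, val P (ξ r) ≠ 0 ∧ ∀ c ∈ (resDiv S ξ r).support,
      gloc S.𝔸 v S.φ P c ≤ elimG S ξ v + τ v := by
  classical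
  have hτ0 := τ.nonneg v
  have hG0 := (elimG S ξ).nonneg v
  by_cases hPC : P ∈ resPts S ξ
  · -- `P` is one of the finitely many points
    obtain ⟨r, hr⟩ := hex
    refine ⟨r, hr, fun c hc => ?_⟩
    have := gloc_le_elimG S ξ v hPC (mem_resPts_of_mem_support S ξ hξ hξ0 hc)
    linarith
  · -- `P` is not one of them: every `ξ_i` is a unit at `P`
    have hall : ∀ i, val P (ξ i) ≠ 0 := by
      intro i
      obtain ⟨i₀, hi₀⟩ := hex
      have hB : baseDiv S ξ P = 0 :=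
        baseDiv_eq_zero S ξ hξ hξ0 ⟨i₀, elim_zd_eq_zero S hP (hξ i₀) (hξ0 i₀) hi₀⟩
      have hR : resDiv S ξ i P = 0 := by
        by_contra hne
        exact hPC (mem_resPts_of_mem_support S ξ hξ hξ0 (Finsupp.mem_support_iff.mpr hne))
      have hZ : zd S (ξ i) P = 0 := by
        unfold resDiv at hR
        rw [Finsupp.sub_apply, hB, sub_zero] at hR
        exact hR
      have hord : P.ord (ξ i) = 0 := by
        unfold zd at hZ
        rw [zdiv_apply, Finsupp.single_apply, if_neg (Ne.symm hP), add_zero] at hZ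
        exact hZ
      exact Pts.ev_ne_zero_of_ord_eq_zero (hRR N) P (hξ0 i) hord
    by_cases hbad : ∃ cs ∈ resPts S ξ, elimG S ξ v + τ v < gloc S.𝔸 v S.φ P cs
    · obtain ⟨cs, hcs, hlt⟩ := hbad
      obtain ⟨r, hr⟩ := exists_resDiv_eq_zero S ξ hξ hξ0 cs
      refine ⟨r, hall r, fun c hc => ?_⟩
      have hcC := mem_resPts_of_mem_support S ξ hξ hξ0 hc
      have hne : c ≠ cs := by
        rintro rfl
        exact (Finsupp.mem_support_iff.mp hc) hr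
      have hPc : P ≠ c := fun h => hPC (h ▸ hcC)
      have hPcs : P ≠ cs := fun h => hPC (h ▸ hcs)
      have h1 := hτ v P c cs hPc hPcs hne
      have h2 := gloc_le_elimG S ξ v hcC hcs
      rcases min_le_iff.mp h1 with h3 | h3
      · linarith
      · linarith
    · simp only [not_exists, not_and, not_lt] at hbad
      exact ⟨0, hall 0, fun c hc => hbad c (mem_resPts_of_mem_support S ξ hξ hξ0 hc)⟩

/-- bound of `glin (P, R_r)` -/
theorem glin_resDiv_le (v : S.𝔸.ι) (P : PtN N) (r : Fin (n + 1)) {M : ℝ} (hM : 0 ≤ M)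
    (hle : ∀ c ∈ (resDiv S ξ r).support, gloc S.𝔸 v S.φ P c ≤ M) :
    glin S v P (resDiv S ξ r) ≤ S.e * M := by
  unfold glin
  calc ∑ c ∈ (resDiv S ξ r).support, (resDiv S ξ r c : ℝ) * gloc S.𝔸 v S.φ P c
      ≤ ∑ c ∈ (resDiv S ξ r).support, (resDiv S ξ r c : ℝ) * M :=
        Finset.sum_le_sum fun c hc =>
          mul_le_mul_of_nonneg_left (hle c hc) (resDiv_apply_nonneg S ξ hξ hξ0 r c)
    _ = (∑ c ∈ (resDiv S ξ r).support, (resDiv S ξ r c : ℝ)) * M := by rw [Finset.sum_mul]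
    _ ≤ S.e * M := mul_le_mul_of_nonneg_right (sum_resDiv_le S ξ hξ hξ0 r) hM

end

/-- **Seat GB-ELIM**, from the chordal triangle inequality. -/
theorem exists_base_elim_of_tri (S : HSetup N) (hTri : ChordTriangle S) {d : ℕ}
    (b : Module.Basis (Fin (d + 1)) Qbar (secSpace S.P₀ S.e 1))
    (hGe : LocalDecompGe S.𝔸 (hRR N) S.P₀ S.e S.φ 1 b) {n : ℕ} (ξ : Fin (n + 1) → FN N)
    (hξ : ∀ i, ξ i ∈ secSpace S.P₀ S.e 1) (hξ0 : ∀ i, ξ i ≠ 0) :
    ∃ (B : DivN N) (γ : MConst S.𝔸), 0 ≤ B ∧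
      (∀ s ∈ Submodule.span Qbar (Set.range ξ), s ≠ 0 →
        B ≤ zdiv (hRR N) S.P₀ S.e 1 s) ∧
      (∀ P : PtN N, (∃ i, zdiv (hRR N) S.P₀ S.e 1 (ξ i) P = 0) → B P = 0) ∧
      ∀ (v : S.𝔸.ι) (P : PtN N), P ≠ S.P₀ → (∃ i, val P (ξ i) ≠ 0) →
        lamloc S.𝔸 v S.φ P - glin S v P B ≤ famloc S v ξ P + γ v := by
  classical
  obtain ⟨γ, hγ⟩ := hGe
  obtain ⟨τ, hτ⟩ := hTri
  refine ⟨baseDiv S ξ, γ + elimK S b ξ + MConst.nsmul' S.e (elimG S ξ + τ),
    baseDiv_nonneg S ξ, fun s hs hs0 => baseDiv_le_zdiv S ξ hξ hξ0 hs hs0,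
    fun P hP => baseDiv_eq_zero S ξ hξ hξ0 hP, ?_⟩
  intro v P hP hex
  obtain ⟨r, hr, hle⟩ := exists_good_index S ξ hξ hξ0 hτ v hP hex
  have hM : 0 ≤ elimG S ξ v + τ v := add_nonneg ((elimG S ξ).nonneg v) (τ.nonneg v)
  have h1 := elim_localGe S b hγ v hP (hξ r) (hξ0 r) hr
  have h2 := glin_resDiv_le S ξ hξ hξ0 v P r hM hle
  have h3 : glin S v P (resDiv S ξ r) = glin S v P (zd S (ξ r)) - glin S v P (baseDiv S ξ) := by
    unfold resDiv
    exact glin_sub S v P _ _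
  -- `log |ξ_r(P)|_v ≤ famloc`
  have h4 : Real.log (S.𝔸.abv v (val P (ξ r))) ≤ famloc S v ξ P := by
    unfold famloc
    refine Real.log_le_log ((S.𝔸.abv v).pos hr) ?_
    exact abv_le_vnorm S.𝔸 v (fun i => val P (ξ i)) r
  -- `- log ‖ξ_r‖_v ≤ κ_v`
  have h5 : - Real.log (cnorm S.𝔸 v b (ξ r)) ≤ elimK S b ξ v := by
    refine (neg_le_abs _).trans ?_
    exact Finset.single_le_sum (f := fun i => |Real.log (cnorm S.𝔸 v b (ξ i))|)
      (fun _ _ => abs_nonneg _) (Finset.mem_univ r)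
  simp only [MConst.add_apply, MConst.nsmul'_apply]
  linarith

end Fermat.Agent.S17.Pos
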