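import Mathlib
import Fermat.Agent.S17.H.Pos.ElimChoice
import Fermat.Agent.S17.H.ChordTri

set_option autoImplicit false
set_option linter.unusedSectionVars false

/-!
# S17, package H, seat GB-ELIM: elimination of the base divisor

`exists_base_elim S b hGe ξ hξ hξ0`: for a family `ξ` of nonzero sections of `V₁ = L(e P₀)` the
base divisor `B = inf_i Z_{ξ_i}` satisfies
* `0 ≤ B`, `B ≤ Z_s` for all nonzero `s` in the span of `ξ`,
* `B(P) = 0` at every point `P` where some `ξ_i` does not vanish (as a section),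
* `lamloc_v(P) - Σ_c B(c) g_v(P,c) ≤ famloc_v(ξ; P) + γ_v` for all `v` and all `P ≠ P₀` where
  some `ξ_i` does not vanish.

(The clause `B S.P₀ = 0` of the first draft is false in general, e.g. for `ξ = (1)`.)
-/

noncomputable section

open AlgebraicCurve ModularCurve Fermat.Agent.RR Fermat.Agent.S17.Pairing

namespace Fermat.Agent.S17.Pos

variable {N : ℕ} [NeZero N]

/-- the chordal triangle inequality (seat ChordTri, helper27) in the form used here -/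
theorem chordTriangle (S : HSetup N) : ChordTriangle S := by
  refine ⟨MConst.nsmul' 2 (archLogTwo S.𝔸), ?_⟩
  intro v P Q Q' hPQ hPQ' hQQ'
  have he : 2 * genusFF Qbar (FN N) + 1 ≤ S.e := by
    have := S.e_large
    omega
  have h := S.isEmbBasis.gloc_triangle S.𝔸 v (hRR N) he (Ne.symm hPQ) hPQ' hQQ'
  rw [gloc_symm S.𝔸 v S.φ Q P] at h
  rw [MConst.nsmul'_apply]
  push_cast
  linarith

/-- **Seat GB-ELIM.** -/
theorem exists_base_elim (S : HSetup N) {d : ℕ}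
    (b : Module.Basis (Fin (d + 1)) Qbar (secSpace S.P₀ S.e 1))
    (hGe : LocalDecompGe S.𝔸 (hRR N) S.P₀ S.e S.φ 1 b) {n : ℕ} (ξ : Fin (n + 1) → FN N)
    (hξ : ∀ i, ξ i ∈ secSpace S.P₀ S.e 1) (hξ0 : ∀ i, ξ i ≠ 0) :
    ∃ (B : DivN N) (γ : MConst S.𝔸), 0 ≤ B ∧
      (∀ s ∈ Submodule.span Qbar (Set.range ξ), s ≠ 0 →
        B ≤ zdiv (hRR N) S.P₀ S.e 1 s) ∧
      (∀ P : PtN N, (∃ i, zdiv (hRR N) S.P₀ S.e 1 (ξ i) P = 0) → B P = 0) ∧
      ∀ (v : S.𝔸.ι) (P : PtN N), P ≠ S.P₀ → (∃ i, val P (ξ i) ≠ 0) →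
        lamloc S.𝔸 v S.φ P - glin S v P B ≤ famloc S v ξ P + γ v :=
  exists_base_elim_of_tri S (chordTriangle S) b hGe ξ hξ hξ0

/-- variant: `B(P) = 0` at the points `P ≠ P₀` where some `ξ_i(P) ≠ 0` (as a function) -/
theorem exists_base_elim' (S : HSetup N) {d : ℕ}
    (b : Module.Basis (Fin (d + 1)) Qbar (secSpace S.P₀ S.e 1))
    (hGe : LocalDecompGe S.𝔸 (hRR N) S.P₀ S.e S.φ 1 b) {n : ℕ} (ξ : Fin (n + 1) → FN N)
    (hξ : ∀ i, ξ i ∈ secSpace S.P₀ S.e 1) (hξ0 : ∀ i, ξ i ≠ 0) :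
    ∃ (B : DivN N) (γ : MConst S.𝔸), 0 ≤ B ∧
      (∀ s ∈ Submodule.span Qbar (Set.range ξ), s ≠ 0 →
        B ≤ zdiv (hRR N) S.P₀ S.e 1 s) ∧
      (∀ P : PtN N, P ≠ S.P₀ → (∃ i, val P (ξ i) ≠ 0) → B P = 0) ∧
      ∀ (v : S.𝔸.ι) (P : PtN N), P ≠ S.P₀ → (∃ i, val P (ξ i) ≠ 0) →
        lamloc S.𝔸 v S.φ P - glin S v P B ≤ famloc S v ξ P + γ v := by
  obtain ⟨B, γ, h0, h1, h2, h3⟩ := exists_base_elim S b hGe ξ hξ hξ0
  refine ⟨B, γ, h0, h1, ?_, h3⟩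
  rintro P hP ⟨i, hi⟩
  exact h2 P ⟨i, elim_zd_eq_zero S hP (hξ i) (hξ0 i) hi⟩

end Fermat.Agent.S17.Pos
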