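import Mathlib
import Fermat.Agent.S17.H.Pos.OneProp
import Fermat.Agent.S17.H.Pos.AdjFin
import Fermat.Agent.S17.H.GaussMore
import Fermat.Agent.S17.H.L7.PolyRep
import Fermat.Agent.S17.H.Pos.Elim

set_option autoImplicit false
set_option linter.unusedSectionVars false
set_option linter.unusedVariables false

/-!
# S17, package H, seat GB-ONE: the one-step bound

`oneStep_of_baseElim`: `OneStep S` from `LocalDecompLe` at `j = 1` and the elimination of the base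
locus (`BaseElim S ξ` for every family `ξ`, seat ELIM).

`oneStep`: `OneStep S` from `LocalDecompLe` and `LocalDecompGe` at `j = 1` (with `exists_base_elim`
of seat ELIM, helper35).
-/

noncomputable section

open AlgebraicCurve ModularCurve Fermat.Agent.RR Fermat.Agent.S17.Pairing

namespace Fermat.Agent.S17.Pos

variable {N : ℕ} [NeZero N]

/-- the conclusion of seat ELIM for the family `ξ`: a divisor `B ≤ Z_s` for all `s ∈ span ξ`,
zero where some `ξ_i` does not vanish, with `λ_v(P) - Σ_c B(c) g_v(P,c) ≤ log ‖ξ(P)‖_v + γ_v`. -/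
def BaseElim (S : HSetup N) {n : ℕ} (ξ : Fin (n + 1) → FN N) : Prop :=
  ∃ (B : DivN N) (γ : MConst S.𝔸), 0 ≤ B ∧
    (∀ s ∈ Submodule.span Qbar (Set.range ξ), s ≠ 0 →
      B ≤ zdiv (Pairing.hRR N) S.P₀ S.e 1 s) ∧
    (∀ P : PtN N, (∃ i, zdiv (Pairing.hRR N) S.P₀ S.e 1 (ξ i) P = 0) → B P = 0) ∧
    ∀ (v : S.𝔸.ι) (P : PtN N), P ≠ S.P₀ → (∃ i, val P (ξ i) ≠ 0) →
      lamloc S.𝔸 v S.φ P - Pairing.glin S v P B ≤ famloc S v ξ P + γ v

/-- off the base point the zero divisor of a section is the divisor of the function -/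
theorem one_zdiv_of_ne (S : HSetup N) (f : FN N) {P : PtN N} (hP : P ≠ S.P₀) :
    zdiv (Pairing.hRR N) S.P₀ S.e 1 f P = P.ord f := by
  classical
  rw [zdiv_apply, Finsupp.single_apply, if_neg (Ne.symm hP), add_zero]

/-- a section which does not vanish at `P ≠ P₀` has order `0` at `P` -/
theorem one_ord_eq_zero_of_val_ne_zero (S : HSetup N) {f : FN N}
    (hf : f ∈ secSpace S.P₀ S.e 1) {P : PtN N} (hP : P ≠ S.P₀) (hv : val P f ≠ 0) :
    P.ord f = 0 := by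
  have hf0 : f ≠ 0 := by
    rintro rfl
    exact hv (Pts.ev_zero P)
  have h1 := L7.zdiv_nonneg (Pairing.hRR N) 1 hf hf0 P
  rw [one_zdiv_of_ne S f hP] at h1
  by_contra hne
  have hpos : 0 < P.ord f := lt_of_le_of_ne h1 (Ne.symm hne)
  exact hv ((Pts.ev_eq_zero_iff (Pairing.hRR N) P hf0 h1).2 hpos)

/-- for `P ≠ P₀`: the size of the leading term of `s` at `P` -/
theorem one_log_secSize (S : HSetup N) (v : S.𝔸.ι) {P : PtN N} (hP : P ≠ S.P₀) {π : FN N}
    (hπ : P.ord π = 1) {s : FN N} (hs0 : s ≠ 0) (l : ℕ) (hl : (l : ℤ) = P.ord s) :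
    Real.log (secSize S.𝔸 v S.φ 1 P π l s)
      = Real.log (S.𝔸.abv v (val P (s / π ^ l))) - lamloc S.𝔸 v S.φ P := by
  have he := e_ge_two_genus S
  have hpiv := S.isEmbBasis.ord_pivot_of_ne (hRR N) he hP
  have hp0 : S.φ (pivot S.φ P) ≠ 0 := S.isEmbBasis.ne_zero _
  have hv0 : val P (S.φ (pivot S.φ P)) ≠ 0 := Pts.ev_ne_zero_of_ord_eq_zero (hRR N) P hp0 hpiv
  have habs : 0 < S.𝔸.abv v (val P (S.φ (pivot S.φ P))) := (S.𝔸.abv v).pos hv0
  have hπ0 : π ≠ 0 := by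
    rintro rfl
    rw [P.ord_zero] at hπ
    exact zero_ne_one hπ
  have hsl0 : s / π ^ l ≠ 0 := div_ne_zero hs0 (pow_ne_zero _ hπ0)
  have hordsl : P.ord (s / π ^ l) = 0 := by
    rw [imm_ord_div P hs0 (pow_ne_zero _ hπ0), imm_ord_pow, hπ, ← hl]
    ring
  have hvsl : val P (s / π ^ l) ≠ 0 := Pts.ev_ne_zero_of_ord_eq_zero (hRR N) P hsl0 hordsl
  have hsplit : s / (S.φ (pivot S.φ P) ^ 1 * π ^ l) = (s / π ^ l) / S.φ (pivot S.φ P) := by
    rw [pow_one]
    field_simp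
  have hval : val P (s / (S.φ (pivot S.φ P) ^ 1 * π ^ l))
      = val P (s / π ^ l) / val P (S.φ (pivot S.φ P)) := by
    rw [hsplit]
    exact Pts.ev_div (hRR N) P hordsl.ge hpiv
  have hvn : 0 < vnorm S.𝔸 v (fun a => val P (S.φ a)) := by
    have h1 := S.isEmbBasis.vnorm_coord_pos S.𝔸 v P
    rw [adj_vnorm_coord S v hP] at h1
    by_contra hcon
    have h2 : vnorm S.𝔸 v (fun a => val P (S.φ a)) ≤ 0 := not_lt.1 hcon
    have h3 := div_nonpos_of_nonpos_of_nonneg h2 habs.le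
    linarith
  unfold secSize lamloc
  rw [hval, pow_one, adj_vnorm_coord S v hP, map_div₀]
  have h4 : S.𝔸.abv v (val P (s / π ^ l)) / S.𝔸.abv v (val P (S.φ (pivot S.φ P)))
      / (vnorm S.𝔸 v (fun a => val P (S.φ a)) / S.𝔸.abv v (val P (S.φ (pivot S.φ P))))
      = S.𝔸.abv v (val P (s / π ^ l)) / vnorm S.𝔸 v (fun a => val P (S.φ a)) := by
    field_simp
  rw [h4, Real.log_div ((S.𝔸.abv v).pos hvsl).ne' hvn.ne']

open Classical in
/-- `gsum` as a sum over any finite set containing the support -/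
theorem one_gsum_eq (S : HSetup N) (v : S.𝔸.ι) (P : PtN N) (D : DivN N) (T : Finset (PtN N))
    (hT : D.support ⊆ T) :
    gsum S.𝔸 v S.φ P D
      = ∑ c ∈ T, if c = P then 0 else (D c : ℝ) * gloc S.𝔸 v S.φ P c := by
  classical
  unfold gsum
  rw [Finset.sum_filter]
  have h1 : ∀ c ∈ D.support, (if c ≠ P then (D c : ℝ) * gloc S.𝔸 v S.φ P c else 0)
      = if c = P then 0 else (D c : ℝ) * gloc S.𝔸 v S.φ P c := by
    intro c _
    by_cases hc : c = P
    · simp [hc]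
    · simp [hc]
  rw [Finset.sum_congr rfl h1]
  refine Finset.sum_subset hT fun c _ hc => ?_
  rw [Finsupp.notMem_support_iff] at hc
  rw [hc]
  simp

open Classical in
/-- `glin` as a sum over any finite set containing the support, for `D P = 0` -/
theorem one_glin_eq (S : HSetup N) (v : S.𝔸.ι) (P : PtN N) (D : DivN N) (hDP : D P = 0)
    (T : Finset (PtN N)) (hT : D.support ⊆ T) :
    glin S v P D = ∑ c ∈ T, if c = P then 0 else (D c : ℝ) * gloc S.𝔸 v S.φ P c := by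
  classical
  unfold glin
  have h1 : ∀ c ∈ D.support, (D c : ℝ) * gloc S.𝔸 v S.φ P c
      = if c = P then 0 else (D c : ℝ) * gloc S.𝔸 v S.φ P c := by
    intro c _
    by_cases hc : c = P
    · rw [if_pos hc, hc, hDP]
      simp
    · rw [if_neg hc]
  rw [Finset.sum_congr rfl h1]
  refine Finset.sum_subset hT fun c _ hc => ?_
  rw [Finsupp.notMem_support_iff] at hc
  rw [hc]
  simp

/-- the coefficient norm of `Σ c_i ξ_i` is bounded by `‖c‖_v` -/
theorem one_cnorm_le (S : HSetup N) {d : ℕ}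
    (b : Module.Basis (Fin (d + 1)) Qbar (secSpace S.P₀ S.e 1)) {n : ℕ}
    (ξ : Fin (n + 1) → FN N) (hξ : ∀ i, ξ i ∈ secSpace S.P₀ S.e 1) :
    ∃ γ : MConst S.𝔸, ∀ (v : S.𝔸.ι) (c : Fin (n + 1) → Qbar),
      cnorm S.𝔸 v b (∑ i, c i • ξ i) ≤ Real.exp (γ v) * vnorm S.𝔸 v c := by
  classical
  obtain ⟨γ, hγ⟩ := gauss_linear_le S.𝔸 (fun k i => b.repr ⟨ξ i, hξ i⟩ k)
  refine ⟨γ, fun v c => ?_⟩
  have hs : ∑ i, c i • ξ i ∈ secSpace S.P₀ S.e 1 :=
    Submodule.sum_mem _ fun i _ => Submodule.smul_mem _ _ (hξ i)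
  have hsub : (⟨∑ i, c i • ξ i, hs⟩ : secSpace S.P₀ S.e 1)
      = ∑ i, c i • (⟨ξ i, hξ i⟩ : secSpace S.P₀ S.e 1) := by
    apply Subtype.ext
    simp
  rw [gauss_cnorm_of_mem S.𝔸 v b hs]
  have hrepr : (fun k => b.repr ⟨∑ i, c i • ξ i, hs⟩ k)
      = fun k => ∑ i, (b.repr ⟨ξ i, hξ i⟩ k) * c i := by
    funext k
    rw [hsub, map_sum, Finsupp.finsetSum_apply]
    refine Finset.sum_congr rfl fun i _ => ?_
    rw [map_smul, Finsupp.smul_apply, smul_eq_mul, mul_comm]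
  rw [hrepr]
  exact hγ v c

/-- **Seat ONE**, from `LocalDecompLe` at `j = 1` and the elimination of the base locus. -/
theorem oneStep_of_baseElim (S : HSetup N) {d : ℕ}
    (b : Module.Basis (Fin (d + 1)) Qbar (secSpace S.P₀ S.e 1))
    (hLe : LocalDecompLe S.𝔸 (Pairing.hRR N) S.P₀ S.e S.φ 1 b)
    (hE : ∀ (n : ℕ) (ξ : Fin (n + 1) → FN N), (∀ i, ξ i ∈ secSpace S.P₀ S.e 1) →
      (∀ i, ξ i ≠ 0) → BaseElim S ξ) : OneStep S := by
  classical
  intro n ξ hξ hli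
  obtain ⟨γ₁, hγ₁⟩ := hLe
  obtain ⟨B, γ₃, hB0, hBle, hBz, hBineq⟩ := hE n ξ hξ (fun i => hli.ne_zero i)
  obtain ⟨γ₂, hγ₂⟩ := one_cnorm_le S b ξ hξ
  refine ⟨γ₁ + γ₂ + γ₃ + MConst.nsmul' S.e (archLogTwo S.𝔸), ?_⟩
  intro v c P π l A' hc hP hval hπ hl hA'0 hA'P₀ hnb hA'le
  set s : FN N := ∑ i, c i • ξ i with hs_def
  have h := Pairing.hRR N
  have he2 : 2 * genusFF Qbar (FN N) + 1 ≤ S.e := by
    have := S.e_large
    omega
  have hs : s ∈ secSpace S.P₀ S.e 1 :=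
    Submodule.sum_mem _ fun i _ => Submodule.smul_mem _ _ (hξ i)
  have hsspan : s ∈ Submodule.span Qbar (Set.range ξ) :=
    Submodule.sum_mem _ fun i _ => Submodule.smul_mem _ _ (Submodule.subset_span ⟨i, rfl⟩)
  have hs0 : s ≠ 0 := by
    intro h0
    apply hc
    funext i
    exact (Fintype.linearIndependent_iff.1 hli) c h0 i
  have hm : (l : ℤ) = zdiv (Pairing.hRR N) S.P₀ S.e 1 s P := by
    rw [one_zdiv_of_ne S s hP]
    exact hl
  -- L7 for `s`
  have hL7 := hγ₁ v s hs hs0 P π hπ l hm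
  rw [one_log_secSize S v hP hπ hs0 l hl] at hL7
  -- the coefficient norm
  have hcn : Real.log (cnorm S.𝔸 v b s) ≤ γ₂ v + Real.log (vnorm S.𝔸 v c) := by
    have h1 := hγ₂ v c
    have h2 : 0 < cnorm S.𝔸 v b s := gauss_cnorm_pos S.𝔸 v b hs hs0
    have h3 : 0 < vnorm S.𝔸 v c := vnorm_pos S.𝔸 v hc
    have h4 := Real.log_le_log h2 h1
    rwa [Real.log_mul (Real.exp_pos _).ne' h3.ne', Real.log_exp] at h4
  -- the base divisor does not meet `P` and `A'`
  have hordξ : ∀ Q : PtN N, Q ≠ S.P₀ → (∃ i, val Q (ξ i) ≠ 0) → B Q = 0 := by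
    intro Q hQ ⟨i, hi⟩
    refine hBz Q ⟨i, ?_⟩
    rw [one_zdiv_of_ne S (ξ i) hQ]
    exact one_ord_eq_zero_of_val_ne_zero S (hξ i) hQ hi
  have hBP : B P = 0 := hordξ P hP hval
  have hBs := hBle s hsspan hs0
  -- `Z_s = A' + B + R`
  set Z : DivN N := zdiv (Pairing.hRR N) S.P₀ S.e 1 s with hZ
  have hZ0 : ∀ Q, 0 ≤ Z Q := fun Q => L7.zdiv_nonneg (Pairing.hRR N) 1 hs hs0 Q
  have hsum_le : ∀ Q, A' Q + B Q ≤ Z Q := by
    intro Q
    by_cases hQ : Q ∈ A'.support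
    · have hQP₀ : Q ≠ S.P₀ := by
        rintro rfl
        exact (Finsupp.mem_support_iff.1 hQ) hA'P₀
      rw [hordξ Q hQP₀ (hnb Q hQ), add_zero]
      exact Finsupp.le_def.1 hA'le Q
    · rw [Finsupp.notMem_support_iff.1 hQ, zero_add]
      exact Finsupp.le_def.1 hBs Q
  have hA'nn : ∀ Q, 0 ≤ A' Q := fun Q => Finsupp.le_def.1 hA'0 Q
  have hBnn : ∀ Q, 0 ≤ B Q := fun Q => Finsupp.le_def.1 hB0 Q
  set T : Finset (PtN N) := Z.support with hT
  have hsupp : ∀ D : DivN N, (∀ Q, 0 ≤ D Q) → (∀ Q, D Q ≤ Z Q) → D.support ⊆ T := by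
    intro D hD0 hDZ Q hQ
    rw [hT, Finsupp.mem_support_iff]
    have h1 := Finsupp.mem_support_iff.1 hQ
    have h2 := hD0 Q
    have h3 := hDZ Q
    omega
  have hA'T : A'.support ⊆ T := hsupp A' hA'nn fun Q => by
    have := hsum_le Q
    have := hBnn Q
    omega
  have hBT : B.support ⊆ T := hsupp B hBnn fun Q => by
    have := hsum_le Q
    have := hA'nn Q
    omega
  -- degree of `Z`
  have hdegZ : ∑ Q ∈ T, Z Q = (S.e : ℤ) := by
    have h1 := L7.degree_zdiv (P₀ := S.P₀) (e := S.e) (Pairing.hRR N) 1 s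
    rw [degree_eq_sum (Pairing.hRR N), one_mul] at h1
    exact h1
  -- the comparison of the sums
  have hγa : 0 ≤ archLogTwo S.𝔸 v := (archLogTwo S.𝔸).nonneg v
  have hgs : gsum S.𝔸 v S.φ P A' + glin S v P B - (S.e : ℝ) * archLogTwo S.𝔸 v
      ≤ gsum S.𝔸 v S.φ P Z := by
    rw [one_gsum_eq S v P A' T hA'T, one_glin_eq S v P B hBP T hBT,
      one_gsum_eq S v P Z T (Finset.Subset.refl _)]
    have hterm : ∀ Q ∈ T,
        (if Q = P then (0 : ℝ) else (A' Q : ℝ) * gloc S.𝔸 v S.φ P Q)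
          + (if Q = P then (0 : ℝ) else (B Q : ℝ) * gloc S.𝔸 v S.φ P Q)
          - (Z Q : ℝ) * archLogTwo S.𝔸 v
        ≤ if Q = P then (0 : ℝ) else (Z Q : ℝ) * gloc S.𝔸 v S.φ P Q := by
      intro Q _
      have hZQ : (0 : ℝ) ≤ (Z Q : ℝ) := by exact_mod_cast hZ0 Q
      by_cases hQ : Q = P
      · rw [if_pos hQ, if_pos hQ, if_pos hQ]
        have := mul_nonneg hZQ hγa
        linarith
      · rw [if_neg hQ, if_neg hQ, if_neg hQ]
        have hg := S.isEmbBasis.gloc_ge S.𝔸 v (Pairing.hRR N) he2 (Ne.symm hQ)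
        have hR : (0 : ℝ) ≤ (Z Q : ℝ) - (A' Q : ℝ) - (B Q : ℝ) := by
          have := hsum_le Q
          have h5 : ((A' Q + B Q : ℤ) : ℝ) ≤ (Z Q : ℝ) := by exact_mod_cast this
          push_cast at h5
          linarith
        have hA'Q : (0 : ℝ) ≤ (A' Q : ℝ) := by exact_mod_cast hA'nn Q
        have hBQ : (0 : ℝ) ≤ (B Q : ℝ) := by exact_mod_cast hBnn Q
        -- `(Z - A' - B) (g + γ) ≥ 0` and `(A' + B) γ ≥ 0`
        have h6 : 0 ≤ ((Z Q : ℝ) - (A' Q : ℝ) - (B Q : ℝ))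
            * (gloc S.𝔸 v S.φ P Q + archLogTwo S.𝔸 v) :=
          mul_nonneg hR (by linarith)
        have h7 : 0 ≤ ((A' Q : ℝ) + (B Q : ℝ)) * archLogTwo S.𝔸 v :=
          mul_nonneg (by linarith) hγa
        nlinarith
    have hsum := Finset.sum_le_sum hterm
    rw [Finset.sum_sub_distrib, Finset.sum_add_distrib, ← Finset.sum_mul] at hsum
    have hcast : (∑ Q ∈ T, (Z Q : ℝ)) = (S.e : ℝ) := by
      have : ((∑ Q ∈ T, Z Q : ℤ) : ℝ) = ((S.e : ℤ) : ℝ) := by rw [hdegZ]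
      push_cast at this
      exact this
    rw [hcast] at hsum
    exact hsum
  -- the elimination
  have hel := hBineq v P hP hval
  simp only [MConst.add_apply, MConst.nsmul'_apply]
  linarith

/-- **Seat ONE.** -/
theorem oneStep (S : HSetup N) {d : ℕ}
    (b : Module.Basis (Fin (d + 1)) Qbar (secSpace S.P₀ S.e 1))
    (hLe : LocalDecompLe S.𝔸 (Pairing.hRR N) S.P₀ S.e S.φ 1 b)
    (hGe : LocalDecompGe S.𝔸 (Pairing.hRR N) S.P₀ S.e S.φ 1 b) : OneStep S :=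
  oneStep_of_baseElim S b hLe fun n ξ hξ hξ0 => exists_base_elim S b hGe ξ hξ hξ0

end Fermat.Agent.S17.Pos
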