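import Mathlib
import Fermat.Agent.S17.H.Pos.PosLocal

set_option autoImplicit false

/-!
# S17, package H, seat GB-POS-LOC: the domination lemma

`dominate`: if every member of a finite family `w` has, at every place, at least the order of
some member of the finite family `u` (both families of nonzero functions), then at every place
`P` where all `u i` are regular and one of them is a unit:
`|w_j(P)|_v ≤ exp(γ_v) · max_i |u_i(P)|_v`.   (`WeilCompare` for `u` and `cat(u, w)`, `s = 1`.)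
-/

noncomputable section

open AlgebraicCurve ModularCurve Fermat.Agent.RR

namespace Fermat.Agent.S17.Pos

variable {N : ℕ} [NeZero N]

/-- order of a finite product of nonzero functions -/
theorem ord_prod' {ι : Type*} (P : PtN N) (s : Finset ι) (f : ι → FN N)
    (hf : ∀ i ∈ s, f i ≠ 0) : P.ord (∏ i ∈ s, f i) = ∑ i ∈ s, P.ord (f i) := by
  classical
  induction s using Finset.induction_on with
  | empty => simp
  | insert a s ha ih =>
    rw [Finset.prod_insert ha, Finset.sum_insert ha,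
      P.ord_mul (hf a (Finset.mem_insert_self a s))
        (Finset.prod_ne_zero_iff.mpr fun i hi => hf i (Finset.mem_insert_of_mem hi)),
      ih fun i hi => hf i (Finset.mem_insert_of_mem hi)]

/-- order of a natural power -/
theorem ord_npow (P : PtN N) (f : FN N) (n : ℕ) : P.ord (f ^ n) = n * P.ord f := by
  have := P.ord_zpow f (n : ℤ)
  rwa [zpow_natCast] at this

/-- value of a finite product of regular functions -/
theorem val_prod' {ι : Type*} (P : PtN N) (s : Finset ι) (f : ι → FN N)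
    (hf0 : ∀ i ∈ s, f i ≠ 0) (hf : ∀ i ∈ s, 0 ≤ P.ord (f i)) :
    val P (∏ i ∈ s, f i) = ∏ i ∈ s, val P (f i) := by
  classical
  induction s using Finset.induction_on with
  | empty => simp [val, Pts.ev_one]
  | insert a s ha ih =>
    have h0 : ∀ i ∈ s, f i ≠ 0 := fun i hi => hf0 i (Finset.mem_insert_of_mem hi)
    have h1 : ∀ i ∈ s, 0 ≤ P.ord (f i) := fun i hi => hf i (Finset.mem_insert_of_mem hi)
    rw [Finset.prod_insert ha, Finset.prod_insert ha, ← ih h0 h1]
    refine Pts.ev_mul (Pairing.hRR N) P (hf a (Finset.mem_insert_self a s)) ?_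
    rw [ord_prod' P s f h0]
    exact Finset.sum_nonneg h1

/-- **the domination lemma** -/
theorem dominate (S : HSetup N) (hWC : WeilCompareAll S) {ι κ : Type} [Fintype ι] [Nonempty ι]
    [Fintype κ] (u : ι → FN N) (w : κ → FN N) (hu : ∀ i, u i ≠ 0) (hw : ∀ j, w j ≠ 0)
    (hpol : ∀ (P : PtN N) (j : κ), ∃ i, P.ord (u i) ≤ P.ord (w j)) :
    ∃ γ : MConst S.𝔸, ∀ (v : S.𝔸.ι) (P : PtN N), (∀ i, 0 ≤ P.ord (u i)) →
      (∃ i, P.ord (u i) = 0) → ∀ (j : κ) (B : ℝ), (∀ i, S.𝔸.abv v (val P (u i)) ≤ B) →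
        S.𝔸.abv v (val P (w j)) ≤ Real.exp (γ v) * B := by
  classical
  -- reindex by `Fin`
  obtain ⟨k, ⟨eι⟩⟩ : ∃ k : ℕ, Nonempty (ι ≃ Fin (k + 1)) := by
    have hpos : 0 < Fintype.card ι := Fintype.card_pos
    obtain ⟨k, hk⟩ : ∃ k, Fintype.card ι = k + 1 := ⟨Fintype.card ι - 1, by omega⟩
    exact ⟨k, ⟨(Fintype.equivFin ι).trans (finCongr hk)⟩⟩
  obtain ⟨k', ⟨eσ⟩⟩ : ∃ k : ℕ, Nonempty ((ι ⊕ κ) ≃ Fin (k + 1)) := by
    have hpos : 0 < Fintype.card (ι ⊕ κ) := Fintype.card_pos
    obtain ⟨k, hk⟩ : ∃ k, Fintype.card (ι ⊕ κ) = k + 1 := ⟨Fintype.card (ι ⊕ κ) - 1, by omega⟩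
    exact ⟨k, ⟨(Fintype.equivFin (ι ⊕ κ)).trans (finCongr hk)⟩⟩
  set u' : Fin (k + 1) → FN N := fun i => u (eι.symm i) with hu'
  set c' : Fin (k' + 1) → FN N := fun i => Sum.elim u w (eσ.symm i) with hc'
  have hsame : SamePolar u' c' := by
    refine ⟨fun i => hu _, fun i => ?_, fun P => ⟨fun i => ?_, fun i' => ?_⟩⟩
    · rcases h : eσ.symm i with x | y
      · simp only [hc', h, Sum.elim_inl]; exact hu x
      · simp only [hc', h, Sum.elim_inr]; exact hw y
    · refine ⟨eσ (Sum.inl (eι.symm i)), ?_⟩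
      simp only [hc', hu', Equiv.symm_apply_apply, Sum.elim_inl, le_refl]
    · rcases h : eσ.symm i' with x | y
      · refine ⟨eι x, ?_⟩
        simp only [hc', hu', h, Sum.elim_inl, Equiv.symm_apply_apply, le_refl]
      · obtain ⟨i, hi⟩ := hpol P y
        refine ⟨eι i, ?_⟩
        simp only [hc', hu', h, Sum.elim_inr, Equiv.symm_apply_apply]
        exact hi
  obtain ⟨γ, hγ⟩ := hWC k k' u' c' hsame
  refine ⟨γ, fun v P hreg hunit j B hB => ?_⟩
  have h1 := hγ v P 1 (fun i => by rw [P.ord_one]; exact hreg _)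
    (by
      obtain ⟨i, hi⟩ := hunit
      refine ⟨eι i, ?_⟩
      rw [P.ord_one]
      simp only [hu', Equiv.symm_apply_apply]
      exact hi.symm)
  simp only [div_one] at h1
  -- positivity of the two norms
  obtain ⟨i₀, hi₀⟩ := hunit
  have hval0 : val P (u i₀) ≠ 0 := Pts.ev_ne_zero_of_ord_eq_zero (Pairing.hRR N) P (hu i₀) hi₀
  have hupos : 0 < vnorm S.𝔸 v fun i => val P (u' i) := by
    refine lt_of_lt_of_le ((S.𝔸.abv v).pos hval0) ?_
    have := abv_le_vnorm S.𝔸 v (fun i => val P (u' i)) (eι i₀)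
    simpa only [hu', Equiv.symm_apply_apply] using this
  have hcpos : 0 < vnorm S.𝔸 v fun i => val P (c' i) := by
    refine lt_of_lt_of_le ((S.𝔸.abv v).pos hval0) ?_
    have := abv_le_vnorm S.𝔸 v (fun i => val P (c' i)) (eσ (Sum.inl i₀))
    simpa only [hc', Equiv.symm_apply_apply, Sum.elim_inl] using this
  have h2 : Real.log (vnorm S.𝔸 v fun i => val P (c' i))
      ≤ Real.log (vnorm S.𝔸 v fun i => val P (u' i)) + γ v := by
    have := (abs_le.mp h1).1
    linarith
  have h3 : (vnorm S.𝔸 v fun i => val P (c' i))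
      ≤ Real.exp (γ v) * vnorm S.𝔸 v fun i => val P (u' i) := by
    have h4 := Real.exp_le_exp.mpr h2
    rw [Real.exp_log hcpos, Real.exp_add, Real.exp_log hupos, mul_comm] at h4
    exact h4
  have h5 : (vnorm S.𝔸 v fun i => val P (u' i)) ≤ B := by
    apply Finset.sup'_le
    intro i _
    exact hB _
  have h6 : S.𝔸.abv v (val P (w j)) ≤ vnorm S.𝔸 v fun i => val P (c' i) := by
    have := abv_le_vnorm S.𝔸 v (fun i => val P (c' i)) (eσ (Sum.inr j))
    simpa only [hc', Equiv.symm_apply_apply, Sum.elim_inr] using this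
  calc S.𝔸.abv v (val P (w j)) ≤ _ := h6
    _ ≤ _ := h3
    _ ≤ Real.exp (γ v) * B := mul_le_mul_of_nonneg_left h5 (Real.exp_pos _).le

end Fermat.Agent.S17.Pos
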