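import Mathlib
import Fermat.Agent.S17.H.MoveGlobal
import Fermat.Agent.S17.H.ImmCoord
import Fermat.Agent.S17.H.Pairing.Defs

set_option autoImplicit false
set_option linter.unusedSectionVars false
set_option linter.unusedVariables false

/-!
# S17, package H, seat GB-POS, sub-seat POS-EXIST

`exists_fixed_pair`: for a Galois-stable divisor `D` of degree `≥ 2 g` there are two Galois-fixed
nonzero sections `f₀, f₁ ∈ L(D)` without common zero (as sections of `𝒪(D)`): at every place one
of them has order exactly `-D(P)`.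
-/

noncomputable section

open AlgebraicCurve ModularCurve Fermat.Agent.RR

namespace Fermat.Agent.S17.Pos

variable {N : ℕ} [NeZero N]

/-- `L(D)` is not contained in `L(D - Q)` for `deg D ≥ 2 g` -/
theorem posExist_not_le_sub_single (D : DivN N)
    (hdeg : 2 * (genusFF Qbar (FN N) : ℤ) ≤ Divisor.degree D) (Q : PtN N) :
    ¬ riemannRochSpace D ≤ riemannRochSpace (D - Finsupp.single Q 1) := by
  intro hle
  obtain ⟨f, hf, hf0, hord⟩ := imm_exists_ord_eq (Pairing.hRR N) D Q hdeg
  have h1 := (imm_mem_sub_single_iff hf).1 (hle hf)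
  rcases h1 with h1 | h1
  · exact hf0 h1
  · omega

/-- `L(D) ≠ 0` for `deg D ≥ 2 g` -/
theorem posExist_not_le_bot (D : DivN N)
    (hdeg : 2 * (genusFF Qbar (FN N) : ℤ) ≤ Divisor.degree D) :
    ¬ riemannRochSpace D ≤ (⊥ : Submodule Qbar (FN N)) := by
  intro hle
  obtain ⟨Q⟩ := Fermat.Agent.RR.nonempty_place (Pairing.hRR N)
  obtain ⟨f, hf, hf0, -⟩ := imm_exists_ord_eq (Pairing.hRR N) D Q hdeg
  exact hf0 ((Submodule.mem_bot Qbar).1 (hle hf))

/-- `L(D)` is Galois-stable for a Galois-stable divisor `D` -/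
theorem posExist_stable (D : DivN N) (hD : GalStable N D) (σ : GQ) (f : FN N)
    (hf : f ∈ riemannRochSpace D) :
    arithmeticGalois (modularFunctionFieldFull N) σ • f ∈ riemannRochSpace D := by
  have h1 := Move.smul_mem_riemannRochSpace (arithmeticGalois (modularFunctionFieldFull N) σ) hf
  have h2 : arithmeticGalois (modularFunctionFieldFull N) σ • D = D := hD σ
  rwa [h2] at h1

/-- **POS-EXIST**: two Galois-fixed sections of `L(D)` without common zero. -/
theorem exists_fixed_pair (D : DivN N) (hD : GalStable N D)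
    (hdeg : 2 * (genusFF Qbar (FN N) : ℤ) ≤ Divisor.degree D) :
    ∃ f₀ f₁ : FN N, f₀ ≠ 0 ∧ f₁ ≠ 0 ∧ (∀ σ : GQ, Pts.galFun N σ f₀ = f₀) ∧
      (∀ σ : GQ, Pts.galFun N σ f₁ = f₁) ∧
      (∀ P : PtN N, - D P ≤ P.ord f₀) ∧ (∀ P : PtN N, - D P ≤ P.ord f₁) ∧
      ∀ P : PtN N, P.ord f₀ = - D P ∨ P.ord f₁ = - D P := by
  classical
  have h := Pairing.hRR N
  -- the first section
  obtain ⟨f₀, hf₀U, hf₀fix, hf₀out⟩ := RatDesc.exists_fixed_notMem' N (riemannRochSpace D)
    (posExist_stable D hD) (fun _ : Unit => (⊥ : Submodule Qbar (FN N)))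
    (fun _ => posExist_not_le_bot D hdeg)
  have hf₀0 : f₀ ≠ 0 := fun h0 => hf₀out () ((Submodule.mem_bot Qbar).2 h0)
  have hord₀ : ∀ P : PtN N, - D P ≤ P.ord f₀ := fun P =>
    ((mem_riemannRochSpace_iff.mp hf₀U) P).resolve_left hf₀0
  -- the residual zeros of `f₀`
  set T : Finset (PtN N) := (divOf h f₀ + D).support with hT
  have hTmem : ∀ P : PtN N, P ∉ T → P.ord f₀ = - D P := by
    intro P hP
    rw [hT, Finsupp.notMem_support_iff, Finsupp.add_apply, divOf_apply] at hP
    omega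
  -- the second section
  obtain ⟨f₁, hf₁U, hf₁fix, hf₁out⟩ := RatDesc.exists_fixed_notMem' N (riemannRochSpace D)
    (posExist_stable D hD)
    (fun Q : Option T => Q.elim (⊥ : Submodule Qbar (FN N))
      fun Q => riemannRochSpace (D - Finsupp.single (Q : PtN N) 1))
    (fun Q => by
      cases Q with
      | none => exact posExist_not_le_bot D hdeg
      | some Q => exact posExist_not_le_sub_single D hdeg Q)
  have hf₁0 : f₁ ≠ 0 := fun h0 => hf₁out none ((Submodule.mem_bot Qbar).2 h0)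
  have hord₁ : ∀ P : PtN N, - D P ≤ P.ord f₁ := fun P =>
    ((mem_riemannRochSpace_iff.mp hf₁U) P).resolve_left hf₁0
  refine ⟨f₀, f₁, hf₀0, hf₁0, hf₀fix, hf₁fix, hord₀, hord₁, fun P => ?_⟩
  by_cases hP : P ∈ T
  · right
    have h1 : f₁ ∉ riemannRochSpace (D - Finsupp.single P 1) := hf₁out (some ⟨P, hP⟩)
    rw [imm_mem_sub_single_iff hf₁U] at h1
    push Not at h1
    have h2 := hord₁ P
    omega
  · exact Or.inl (hTmem P hP)

end Fermat.Agent.S17.Pos
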