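import Mathlib
import Fermat.Agent.S17.H.Pos.PosDom
import Fermat.Agent.S17.H.Pairing.ProdLC
import Fermat.Agent.S17.H.Pos.PosExist
import Fermat.Agent.S17.H.Pos.Fin
import Fermat.Agent.S17.H.Northcott

set_option autoImplicit false
set_option linter.unusedSectionVars false
set_option maxHeartbeats 400000

/-!
# S17, package H, seat GB-POS-LOC: the local positivity inequality

`posLocal_of`: `KappaFam` + `WeilCompareAll` (+ the existence of two Galois-fixed sections without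
common zero, seat POS-EXIST) ⟹ `PosLocal S U n X` for every determinant datum `X`.

Proof.  `M = e|X|`, `m₁ = |X|(2e - 2d + 1) = m⁺ - m⁻`, `M₂ = 2e`.  For the index `a` let `(w, D)`
be the Gauss family of `KappaFam`.  `D_tot := M D - m₁ e P₀ + M₂ Σ_ξ min_i div ξ_i` is Galois-stable
of degree `≥ e|X| ≥ 2g`; `f₀, f₁ ∈ L(D_tot)` Galois-fixed without common zero.  The families
`u = (w_i^M φ_j^{m⁻})` and `f φ_j^{m⁺} ∏_ξ ξ_{ρ ξ}^{M₂}` satisfy the hypothesis of `dominate`.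
-/

noncomputable section

open AlgebraicCurve ModularCurve Fermat.Agent.RR

namespace Fermat.Agent.S17.Pos

variable {N : ℕ} [NeZero N]

/-! ### the divisor `P ↦ min_i ord_P (ξ i)` -/

/-- `min_i ord_P (ξ i)` -/
def ordMin {n : ℕ} (ξ : Fin (n + 1) → FN N) (P : PtN N) : ℤ :=
  Finset.univ.inf' Finset.univ_nonempty fun i => P.ord (ξ i)

theorem ordMin_le {n : ℕ} (ξ : Fin (n + 1) → FN N) (P : PtN N) (i : Fin (n + 1)) :
    ordMin ξ P ≤ P.ord (ξ i) :=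
  Finset.inf'_le (fun i => P.ord (ξ i)) (Finset.mem_univ i)

theorem le_ordMin {n : ℕ} (ξ : Fin (n + 1) → FN N) (P : PtN N) (c : ℤ)
    (h : ∀ i, c ≤ P.ord (ξ i)) : c ≤ ordMin ξ P :=
  Finset.le_inf' _ _ fun i _ => h i

theorem exists_ordMin_eq {n : ℕ} (ξ : Fin (n + 1) → FN N) (P : PtN N) :
    ∃ i, ordMin ξ P = P.ord (ξ i) := by
  obtain ⟨i, -, hi⟩ := Finset.exists_mem_eq_inf' Finset.univ_nonempty fun i => P.ord (ξ i)
  exact ⟨i, hi⟩

open Classical in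
/-- the divisor `P ↦ min_i ord_P (ξ i)` -/
def ordMinDiv {n : ℕ} (ξ : Fin (n + 1) → FN N) : DivN N :=
  Finsupp.onFinset (Finset.univ.biUnion fun i => (divOf (Pairing.hRR N) (ξ i)).support)
    (fun P => ordMin ξ P) (by
      intro P hP
      obtain ⟨i, hi⟩ := exists_ordMin_eq ξ P
      rw [Finset.mem_biUnion]
      refine ⟨i, Finset.mem_univ i, ?_⟩
      rw [Finsupp.mem_support_iff, divOf_apply, ← hi]
      exact hP)

theorem ordMinDiv_apply {n : ℕ} (ξ : Fin (n + 1) → FN N) (P : PtN N) :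
    ordMinDiv ξ P = ordMin ξ P := rfl

/-- Galois equivariance of `ordMin` -/
theorem ordMin_gal {n : ℕ} (σ : GQ) (ξ : Fin (n + 1) → FN N) (P : PtN N) :
    ordMin (fun i => Pts.galFun N σ (ξ i)) (Pts.galPlace N σ P) = ordMin ξ P := by
  unfold ordMin
  refine Finset.inf'_congr _ rfl fun i _ => ?_
  exact Pts.ord_galPlace_galFun N σ P (ξ i)

/-- `Σ_{ξ ∈ X} ordMin ξ` is Galois-invariant for a Galois-stable set `X` of tuples -/
theorem sum_ordMin_gal {n : ℕ} (X : Finset (Fin (n + 1) → FN N))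
    (hX : ∀ (σ : GQ), ∀ ξ ∈ X, (fun i => Pts.galFun N σ (ξ i)) ∈ X) (σ : GQ) (P : PtN N) :
    ∑ ξ ∈ X, ordMin ξ (Pts.galPlace N σ P) = ∑ ξ ∈ X, ordMin ξ P := by
  classical
  symm
  refine Finset.sum_bij (fun ξ _ => fun i => Pts.galFun N σ (ξ i)) (fun ξ hξ => hX σ ξ hξ) ?_ ?_
    (fun ξ _ => (ordMin_gal σ ξ P).symm)
  · intro ξ₁ _ ξ₂ _ h12
    funext i
    have := congrFun h12 i
    exact MulAction.injective (arithmeticGalois (modularFunctionFieldFull N) σ) this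
  · intro ξ hξ
    refine ⟨fun i => Pts.galFun N σ⁻¹ (ξ i), hX σ⁻¹ ξ hξ, ?_⟩
    funext i
    show Pts.galFun N σ (Pts.galFun N σ⁻¹ (ξ i)) = ξ i
    rw [← Pts.galFun_mul, mul_inv_cancel, Pts.galFun_one]


/-! ### the divisor `D_tot` -/

/-- `D_tot = M D - m₁ e P₀ + M₂ Σ_ξ min_i div ξ_i` -/
def dtot (S : HSetup N) {n : ℕ} (X : Finset (Fin (n + 1) → FN N)) (D : DivN N) : DivN N :=
  ((S.e * X.card : ℕ) : ℤ) • D
    - (((X.card : ℤ) * (2 * (S.e : ℤ) - 2 * ((n : ℤ) + 1) + 1)) * (S.e : ℤ)) •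
        Finsupp.single S.P₀ (1 : ℤ)
    + (2 * (S.e : ℤ)) • ∑ ξ ∈ X, ordMinDiv ξ

theorem dtot_apply (S : HSetup N) {n : ℕ} (X : Finset (Fin (n + 1) → FN N)) (D : DivN N)
    (P : PtN N) :
    dtot S X D P = ((S.e * X.card : ℕ) : ℤ) * D P
      - (((X.card : ℤ) * (2 * (S.e : ℤ) - 2 * ((n : ℤ) + 1) + 1)) * (S.e : ℤ)) *
          (Finsupp.single S.P₀ (1 : ℤ) P)
      + (2 * (S.e : ℤ)) * ∑ ξ ∈ X, ordMin ξ P := by
  unfold dtot
  rw [Finsupp.add_apply, Finsupp.sub_apply, Finsupp.smul_apply, Finsupp.smul_apply,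
    Finsupp.smul_apply, Finsupp.finset_sum_apply]
  simp only [smul_eq_mul, ordMinDiv_apply]

theorem single_galPlace (S : HSetup N) (σ : GQ) (P : PtN N) :
    Finsupp.single S.P₀ (1 : ℤ) (Pts.galPlace N σ P) = Finsupp.single S.P₀ (1 : ℤ) P := by
  classical
  rw [Finsupp.single_apply, Finsupp.single_apply]
  have hiff : S.P₀ = Pts.galPlace N σ P ↔ S.P₀ = P := by
    constructor
    · intro h
      have h1 : Pts.galPlace N σ S.P₀ = Pts.galPlace N σ P := by rw [S.P₀_fixed σ]; exact h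
      exact MulAction.injective (arithmeticGalois (modularFunctionFieldFull N) σ) h1
    · intro h
      rw [← h, S.P₀_fixed σ]
  by_cases h : S.P₀ = P
  · rw [if_pos h, if_pos (hiff.mpr h)]
  · rw [if_neg h, if_neg (fun h' => h (hiff.mp h'))]

theorem dtot_galStable (S : HSetup N) {n : ℕ} (X : Finset (Fin (n + 1) → FN N))
    (hX : ∀ (σ : GQ), ∀ ξ ∈ X, (fun i => Pts.galFun N σ (ξ i)) ∈ X) (D : DivN N)
    (hD : GalStable N D) : GalStable N (dtot S X D) := by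
  intro σ
  ext P
  have hP : P = Pts.galPlace N σ (Pts.galPlace N σ⁻¹ P) := by
    rw [← Pts.galPlace_mul, mul_inv_cancel, Pts.galPlace_one]
  have h1 : galDiv N σ (dtot S X D) P = dtot S X D (Pts.galPlace N σ⁻¹ P) := by
    unfold galDiv
    rw [SemilinearAut.divisor_smul_apply]
    unfold Pts.galPlace
    rw [map_inv]
  rw [h1, dtot_apply, dtot_apply]
  have h2 : D (Pts.galPlace N σ⁻¹ P) = D P := by
    have := Pairing.galStable_apply hD σ (Pts.galPlace N σ⁻¹ P)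
    rw [← this]
    congr 1
    exact hP.symm
  have h3 := single_galPlace S σ⁻¹ P
  have h4 := sum_ordMin_gal X hX σ⁻¹ P
  rw [h2, h3, h4]


/-- degree of `ordMinDiv ξ` for a member of a determinant datum -/
theorem degree_ordMinDiv_ge (S : HSetup N) {n : ℕ} {X : Finset (Fin (n + 1) → FN N)}
    (hX : IsDetDatum S n X) {ξ : Fin (n + 1) → FN N} (hξ : ξ ∈ X) :
    -((genusFF Qbar (FN N) : ℤ) + n - 1) ≤ Divisor.degree (ordMinDiv ξ) := by
  classical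
  obtain ⟨B, -, hBdeg, hBle⟩ := hX.base ξ hξ
  have hle : B - Finsupp.single S.P₀ ((S.e : ℕ) : ℤ) ≤ ordMinDiv ξ := by
    rw [Finsupp.le_def]
    intro P
    rw [Finsupp.sub_apply, ordMinDiv_apply]
    refine le_ordMin ξ P _ fun i => ?_
    have h1 := Finsupp.le_def.mp (hBle i) P
    rw [zdiv_apply, one_mul] at h1
    linarith
  have h2 := degree_le_of_le (Pairing.hRR N) hle
  rw [map_sub, Divisor.degree_single] at h2
  have hdeg1 : (Place.deg S.P₀ : ℤ) = 1 := by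
    have := degree_single_one (Pairing.hRR N) S.P₀ 1
    rw [Divisor.degree_single] at this
    simpa using this
  rw [hdeg1] at h2
  linarith

theorem degree_dtot_ge (S : HSetup N) {n : ℕ} {X : Finset (Fin (n + 1) → FN N)}
    (hX : IsDetDatum S n X) (D : DivN N)
    (hD : 2 * (S.e : ℤ) + 2 * (genusFF Qbar (FN N) : ℤ) - 2 ≤ Divisor.degree D) :
    2 * (genusFF Qbar (FN N) : ℤ) ≤ Divisor.degree (dtot S X D) := by
  classical
  have hdeg1 : Divisor.degree (Finsupp.single S.P₀ (1 : ℤ)) = 1 :=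
    degree_single_one (Pairing.hRR N) S.P₀ 1
  have hsum : -((X.card : ℤ) * ((genusFF Qbar (FN N) : ℤ) + n - 1))
      ≤ ∑ ξ ∈ X, Divisor.degree (ordMinDiv ξ) := by
    have := Finset.card_nsmul_le_sum X (fun ξ => Divisor.degree (ordMinDiv ξ))
      (-((genusFF Qbar (FN N) : ℤ) + n - 1)) (fun ξ hξ => degree_ordMinDiv_ge S hX hξ)
    rw [nsmul_eq_mul] at this
    linarith
  have hc : (1 : ℤ) ≤ (X.card : ℤ) := by
    have := Finset.card_pos.mpr hX.nonempty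
    exact_mod_cast this
  have he : 20 * (genusFF Qbar (FN N) : ℤ) + 10 ≤ (S.e : ℤ) := by
    exact_mod_cast S.e_large
  unfold dtot
  rw [map_add, map_sub, map_zsmul, map_zsmul, map_zsmul, map_sum, hdeg1]
  simp only [smul_eq_mul, mul_one]
  push_cast
  set E : ℤ := (S.e : ℤ)
  set C : ℤ := (X.card : ℤ)
  set G : ℤ := (genusFF Qbar (FN N) : ℤ)
  set T : ℤ := ∑ ξ ∈ X, Divisor.degree (ordMinDiv ξ)
  set dD : ℤ := Divisor.degree D
  have hE0 : 0 ≤ E := by positivity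
  have hG0 : 0 ≤ G := by positivity
  have h1 : E * C * (2 * E + 2 * G - 2) ≤ E * C * dD :=
    mul_le_mul_of_nonneg_left hD (mul_nonneg hE0 (by linarith))
  have h2 : 2 * E * (-(C * (G + n - 1))) ≤ 2 * E * T :=
    mul_le_mul_of_nonneg_left hsum (by linarith)
  have h3 : E * 1 ≤ E * C := mul_le_mul_of_nonneg_left hc hE0
  nlinarith


/-! ### the key inequality -/

theorem single_e_apply (S : HSetup N) (P : PtN N) :
    Finsupp.single S.P₀ ((S.e : ℕ) : ℤ) P = (S.e : ℤ) * Finsupp.single S.P₀ (1 : ℤ) P := by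
  classical
  rw [Finsupp.single_apply, Finsupp.single_apply]
  split_ifs <;> simp

theorem ord_phi_ge (S : HSetup N) (P : PtN N) (j : Fin (S.r + 1)) :
    -((S.e : ℤ) * Finsupp.single S.P₀ (1 : ℤ) P) ≤ P.ord (S.φ j) := by
  have h2 := ((mem_riemannRochSpace_iff.mp (S.isEmbBasis.mem j)) P).resolve_left
    (S.isEmbBasis.ne_zero j)
  rw [single_e_apply] at h2
  exact h2

theorem ord_phi_pivot (S : HSetup N) (P : PtN N) :
    P.ord (S.φ (pivot S.φ P)) = -((S.e : ℤ) * Finsupp.single S.P₀ (1 : ℤ) P) := by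
  have he : 2 * genusFF Qbar (FN N) ≤ S.e := by
    have := S.e_large
    omega
  rw [S.isEmbBasis.ord_pivot (Pairing.hRR N) he P, single_e_apply]

theorem ord_xi_nonneg (S : HSetup N) {n : ℕ} {X : Finset (Fin (n + 1) → FN N)}
    (hX : IsDetDatum S n X) {ξ : Fin (n + 1) → FN N} (hξ : ξ ∈ X) {P : PtN N} (hP : P ≠ S.P₀)
    (i : Fin (n + 1)) : 0 ≤ P.ord (ξ i) := by
  classical
  have h1 := hX.mem ξ hξ i
  unfold secSpace at h1
  have h2 := ((mem_riemannRochSpace_iff.mp h1) P).resolve_left (hX.ne_zero ξ hξ i)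
  rw [Finsupp.single_apply, if_neg (Ne.symm hP), neg_zero] at h2
  exact h2

set_option maxHeartbeats 1600000 in
/-- the key inequality of POS-LOC, for one function `f ∈ L(D_tot)` -/
theorem posLocal_key (S : HSetup N) (hWC : WeilCompareAll S) {n : ℕ}
    {X : Finset (Fin (n + 1) → FN N)} (hX : IsDetDatum S n X) {m : ℕ} (w : Fin (m + 1) → FN N)
    (D : DivN N) (hw0 : ∀ i, w i ≠ 0) (hpolar : ∀ P : PtN N, ∃ i, P.ord (w i) ≤ - D P)
    (f : FN N) (hf : f ≠ 0) (hford : ∀ P : PtN N, - dtot S X D P ≤ P.ord f) :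
    ∃ γ : MConst S.𝔸, ∀ (v : S.𝔸.ι) (P : PtN N), P ≠ S.P₀ → (∀ i, 0 ≤ P.ord (w i)) →
      (∃ i, P.ord (w i) = 0) → (∀ ξ ∈ X, ∃ i, val P (ξ i) ≠ 0) → P.ord f = 0 →
      Real.log (S.𝔸.abv v (val P f))
          + ((X.card : ℝ) * (2 * (S.e : ℝ) - 2 * ((n : ℝ) + 1) + 1)) * lamloc S.𝔸 v S.φ P
          + 2 * (S.e : ℝ) * ∑ ξ ∈ X, famloc S v ξ P
        ≤ ((S.e : ℝ) * (X.card : ℝ)) * Real.log (vnorm S.𝔸 v fun i => val P (w i)) + γ v := by
  classical
  have h := Pairing.hRR N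
  have hφ := S.isEmbBasis
  set m₁ : ℤ := (X.card : ℤ) * (2 * (S.e : ℤ) - 2 * ((n : ℤ) + 1) + 1) with hm₁
  set mp : ℕ := m₁.toNat with hmp
  set mn : ℕ := (-m₁).toNat with hmn
  have hm : (mp : ℤ) - (mn : ℤ) = m₁ := Int.toNat_sub_toNat_neg m₁
  set M : ℕ := S.e * X.card with hM
  -- the two families
  set u : Fin (m + 1) × Fin (S.r + 1) → FN N := fun p => w p.1 ^ M * S.φ p.2 ^ mn with hu
  set Wf : Fin (S.r + 1) × (↥X → Fin (n + 1)) → FN N :=
    fun p => f * S.φ p.1 ^ mp * ∏ ξ : ↥X, (ξ.1 (p.2 ξ)) ^ (2 * S.e) with hWf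
  have hu0 : ∀ p, u p ≠ 0 := fun p =>
    mul_ne_zero (pow_ne_zero _ (hw0 _)) (pow_ne_zero _ (hφ.ne_zero _))
  have hξ0 : ∀ (ρ : ↥X → Fin (n + 1)) (ξ : ↥X), (ξ.1 (ρ ξ)) ^ (2 * S.e) ≠ 0 := fun ρ ξ =>
    pow_ne_zero _ (hX.ne_zero ξ.1 ξ.2 _)
  have hW0 : ∀ p, Wf p ≠ 0 := fun p =>
    mul_ne_zero (mul_ne_zero hf (pow_ne_zero _ (hφ.ne_zero _)))
      (Finset.prod_ne_zero_iff.mpr fun ξ _ => hξ0 p.2 ξ)
  -- orders of the members
  have hordu : ∀ (P : PtN N) (p : Fin (m + 1) × Fin (S.r + 1)),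
      P.ord (u p) = (M : ℤ) * P.ord (w p.1) + (mn : ℤ) * P.ord (S.φ p.2) := by
    intro P p
    simp only [hu]
    rw [P.ord_mul (pow_ne_zero _ (hw0 _)) (pow_ne_zero _ (hφ.ne_zero _)), ord_npow, ord_npow]
  have hordW : ∀ (P : PtN N) (p : Fin (S.r + 1) × (↥X → Fin (n + 1))),
      P.ord (Wf p) = P.ord f + (mp : ℤ) * P.ord (S.φ p.1)
        + ∑ ξ : ↥X, (2 * (S.e : ℤ)) * P.ord (ξ.1 (p.2 ξ)) := by
    intro P p
    simp only [hWf]
    rw [P.ord_mul (mul_ne_zero hf (pow_ne_zero _ (hφ.ne_zero _)))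
        (Finset.prod_ne_zero_iff.mpr fun ξ _ => hξ0 p.2 ξ),
      P.ord_mul hf (pow_ne_zero _ (hφ.ne_zero _)), ord_npow,
      ord_prod' P Finset.univ _ (fun ξ _ => hξ0 p.2 ξ)]
    congr 1
    refine Finset.sum_congr rfl fun ξ _ => ?_
    rw [ord_npow]
    push_cast
    ring
  -- the polar condition
  have hpol : ∀ (P : PtN N) (p : Fin (S.r + 1) × (↥X → Fin (n + 1))),
      ∃ i, P.ord (u i) ≤ P.ord (Wf p) := by
    intro P p
    obtain ⟨i₁, hi₁⟩ := hpolar P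
    refine ⟨(i₁, pivot S.φ P), ?_⟩
    rw [hordu, hordW]
    simp only
    rw [ord_phi_pivot]
    have h3 := ord_phi_ge S P p.1
    have h5 := hford P
    rw [dtot_apply] at h5
    have h4 : (2 * (S.e : ℤ)) * ∑ ξ ∈ X, ordMin ξ P
        ≤ ∑ ξ : ↥X, (2 * (S.e : ℤ)) * P.ord (ξ.1 (p.2 ξ)) := by
      rw [← Finset.sum_coe_sort X (fun ξ => ordMin ξ P), Finset.mul_sum]
      refine Finset.sum_le_sum fun ξ _ => ?_
      exact mul_le_mul_of_nonneg_left (ordMin_le ξ.1 P (p.2 ξ)) (by positivity)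
    set δ : ℤ := (S.e : ℤ) * Finsupp.single S.P₀ (1 : ℤ) P with hδ
    have h1' : (M : ℤ) * P.ord (w i₁) ≤ (M : ℤ) * (- D P) :=
      mul_le_mul_of_nonneg_left hi₁ (by positivity)
    have h3' : (mp : ℤ) * (-δ) ≤ (mp : ℤ) * P.ord (S.φ p.1) :=
      mul_le_mul_of_nonneg_left h3 (by positivity)
    have h6 : m₁ * (S.e : ℤ) * Finsupp.single S.P₀ (1 : ℤ) P = (mp : ℤ) * δ - (mn : ℤ) * δ := by
      rw [← hm, hδ]
      ring
    have hMc : ((S.e * X.card : ℕ) : ℤ) = (M : ℤ) := rfl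
    rw [hMc, h6] at h5
    have e1 : (M : ℤ) * (- D P) = - ((M : ℤ) * D P) := by ring
    have e2 : (mp : ℤ) * (-δ) = -((mp : ℤ) * δ) := by ring
    have e3 : (mn : ℤ) * (-δ) = -((mn : ℤ) * δ) := by ring
    rw [e1] at h1'
    rw [e2] at h3'
    rw [e3]
    linarith
  obtain ⟨γ, hγ⟩ := dominate S hWC u Wf hu0 hW0 hpol
  refine ⟨γ, fun v P hP hreg hunit hnb hfu => ?_⟩
  -- regularity at `P`
  have hφreg : ∀ j, 0 ≤ P.ord (S.φ j) := fun j => hφ.ord_nonneg_of_ne hP j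
  have hξreg : ∀ (ξ : ↥X) (i : Fin (n + 1)), 0 ≤ P.ord (ξ.1 i) := fun ξ i =>
    ord_xi_nonneg S hX ξ.2 hP i
  have hureg : ∀ p, 0 ≤ P.ord (u p) := by
    intro p
    rw [hordu]
    exact add_nonneg (mul_nonneg (by positivity) (hreg _)) (mul_nonneg (by positivity) (hφreg _))
  have huunit : ∃ p, P.ord (u p) = 0 := by
    obtain ⟨i₀, hi₀⟩ := hunit
    refine ⟨(i₀, 0), ?_⟩
    rw [hordu]
    simp only
    rw [hi₀, hφ.zero_eq_one, P.ord_one]
    ring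
  -- the norms
  set Wn : ℝ := vnorm S.𝔸 v fun i => val P (w i) with hWn
  set L : ℝ := vnorm S.𝔸 v fun a => val P (S.φ a) with hL
  have hWnpos : 0 < Wn := by
    obtain ⟨i₀, hi₀⟩ := hunit
    have hv0 : val P (w i₀) ≠ 0 := Pts.ev_ne_zero_of_ord_eq_zero h P (hw0 i₀) hi₀
    exact lt_of_lt_of_le ((S.𝔸.abv v).pos hv0) (abv_le_vnorm S.𝔸 v (fun i => val P (w i)) i₀)
  have hLpos : 0 < L := lt_of_lt_of_le one_pos (hφ.one_le_vnorm_val S.𝔸 v P)
  have hΞpos : ∀ ξ : ↥X, 0 < vnorm S.𝔸 v fun i => val P (ξ.1 i) := by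
    intro ξ
    obtain ⟨i, hi⟩ := hnb ξ.1 ξ.2
    exact lt_of_lt_of_le ((S.𝔸.abv v).pos hi) (abv_le_vnorm S.𝔸 v (fun i => val P (ξ.1 i)) i)
  -- the bound for `u`
  have hB : ∀ p, S.𝔸.abv v (val P (u p)) ≤ Wn ^ M * L ^ mn := by
    intro p
    simp only [hu]
    have e1 : val P (w p.1 ^ M * S.φ p.2 ^ mn) = val P (w p.1) ^ M * val P (S.φ p.2) ^ mn := by
      unfold val
      rw [Pts.ev_mul h P (by rw [ord_npow]; exact mul_nonneg (by positivity) (hreg _))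
        (by rw [ord_npow]; exact mul_nonneg (by positivity) (hφreg _)),
        Pts.ev_pow h P (hreg _), Pts.ev_pow h P (hφreg _)]
    rw [e1, map_mul, map_pow, map_pow]
    exact mul_le_mul
      (pow_le_pow_left₀ ((S.𝔸.abv v).nonneg _) (abv_le_vnorm S.𝔸 v (fun i => val P (w i)) p.1) M)
      (pow_le_pow_left₀ ((S.𝔸.abv v).nonneg _)
        (abv_le_vnorm S.𝔸 v (fun a => val P (S.φ a)) p.2) mn)
      (pow_nonneg ((S.𝔸.abv v).nonneg _) _) (pow_nonneg hWnpos.le _)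
  -- the maximising index
  obtain ⟨j₀, hj₀⟩ := exists_abv_eq_vnorm S.𝔸 v (fun a => val P (S.φ a))
  have hρ : ∀ ξ : ↥X, ∃ i, S.𝔸.abv v (val P (ξ.1 i)) = vnorm S.𝔸 v fun i => val P (ξ.1 i) :=
    fun ξ => exists_abv_eq_vnorm S.𝔸 v (fun i => val P (ξ.1 i))
  choose ρ hρ' using hρ
  have hmain := hγ v P hureg huunit (j₀, ρ) (Wn ^ M * L ^ mn) hB
  have e2 : val P (Wf (j₀, ρ)) = val P f * val P (S.φ j₀) ^ mp
      * ∏ ξ : ↥X, val P (ξ.1 (ρ ξ)) ^ (2 * S.e) := by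
    simp only [hWf]
    have hreg1 : 0 ≤ P.ord (f * S.φ j₀ ^ mp) := by
      rw [P.ord_mul hf (pow_ne_zero _ (hφ.ne_zero _)), ord_npow, hfu, zero_add]
      exact mul_nonneg (by positivity) (hφreg _)
    have hreg2 : 0 ≤ P.ord (∏ ξ : ↥X, (ξ.1 (ρ ξ)) ^ (2 * S.e)) := by
      rw [ord_prod' P Finset.univ _ (fun ξ _ => hξ0 ρ ξ)]
      refine Finset.sum_nonneg fun ξ _ => ?_
      rw [ord_npow]
      exact mul_nonneg (by positivity) (hξreg ξ _)
    unfold val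
    rw [Pts.ev_mul h P hreg1 hreg2, Pts.ev_mul h P hfu.ge
      (by rw [ord_npow]; exact mul_nonneg (by positivity) (hφreg _)), Pts.ev_pow h P (hφreg _)]
    congr 1
    have := val_prod' P Finset.univ (fun ξ : ↥X => (ξ.1 (ρ ξ)) ^ (2 * S.e))
      (fun ξ _ => hξ0 ρ ξ)
      (fun ξ _ => by rw [ord_npow]; exact mul_nonneg (by positivity) (hξreg ξ _))
    unfold val at this
    rw [this]
    refine Finset.prod_congr rfl fun ξ _ => ?_
    exact Pts.ev_pow h P (hξreg ξ _) _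
  rw [e2, map_mul, map_mul, map_pow, map_prod, hj₀] at hmain
  have e3 : ∏ ξ : ↥X, S.𝔸.abv v (val P (ξ.1 (ρ ξ)) ^ (2 * S.e))
      = ∏ ξ : ↥X, (vnorm S.𝔸 v fun i => val P (ξ.1 i)) ^ (2 * S.e) := by
    refine Finset.prod_congr rfl fun ξ _ => ?_
    rw [map_pow, hρ']
  rw [e3] at hmain
  -- take logarithms
  have hfpos : 0 < S.𝔸.abv v (val P f) :=
    (S.𝔸.abv v).pos (Pts.ev_ne_zero_of_ord_eq_zero h P hf hfu)
  have hprodpos : 0 < ∏ ξ : ↥X, (vnorm S.𝔸 v fun i => val P (ξ.1 i)) ^ (2 * S.e) :=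
    Finset.prod_pos fun ξ _ => pow_pos (hΞpos ξ) _
  have hlog := Real.log_le_log (mul_pos (mul_pos hfpos (pow_pos hLpos _)) hprodpos) hmain
  rw [Real.log_mul (mul_pos hfpos (pow_pos hLpos _)).ne' hprodpos.ne',
    Real.log_mul hfpos.ne' (pow_pos hLpos _).ne', Real.log_pow,
    Real.log_prod (fun ξ _ => (pow_pos (hΞpos ξ) _).ne'),
    Real.log_mul (Real.exp_pos _).ne' (mul_pos (pow_pos hWnpos _) (pow_pos hLpos _)).ne',
    Real.log_exp, Real.log_mul (pow_pos hWnpos _).ne' (pow_pos hLpos _).ne', Real.log_pow,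
    Real.log_pow] at hlog
  have e4 : ∑ ξ : ↥X, Real.log ((vnorm S.𝔸 v fun i => val P (ξ.1 i)) ^ (2 * S.e))
      = 2 * (S.e : ℝ) * ∑ ξ ∈ X, famloc S v ξ P := by
    rw [← Finset.sum_coe_sort X (fun ξ => famloc S v ξ P), Finset.mul_sum]
    refine Finset.sum_congr rfl fun ξ _ => ?_
    rw [Real.log_pow]
    unfold famloc
    push_cast
    ring
  rw [e4] at hlog
  have e5 : ((X.card : ℝ) * (2 * (S.e : ℝ) - 2 * ((n : ℝ) + 1) + 1)) = (mp : ℝ) - (mn : ℝ) := by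
    have := congrArg (fun z : ℤ => (z : ℝ)) hm
    simp only [hm₁] at this
    push_cast at this
    linarith
  have e6 : lamloc S.𝔸 v S.φ P = Real.log L := rfl
  have e7 : ((S.e : ℝ) * (X.card : ℝ)) = (M : ℝ) := by
    rw [hM]
    push_cast
    ring
  rw [e5, e6, e7]
  linarith


/-- `ordMin ξ P = 0` at a point which is not a base point of `ξ` -/
theorem ordMin_eq_zero (S : HSetup N) {n : ℕ} {X : Finset (Fin (n + 1) → FN N)}
    (hX : IsDetDatum S n X) {ξ : Fin (n + 1) → FN N} (hξ : ξ ∈ X) {P : PtN N} (hP : P ≠ S.P₀)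
    (hnb : ∃ i, val P (ξ i) ≠ 0) : ordMin ξ P = 0 := by
  apply le_antisymm
  · obtain ⟨i, hi⟩ := hnb
    refine le_trans (ordMin_le ξ P i) ?_
    by_contra hcon
    push_neg at hcon
    exact hi ((Pts.ev_eq_zero_iff (Pairing.hRR N) P (hX.ne_zero ξ hξ i)
      (ord_xi_nonneg S hX hξ hP i)).mpr hcon)
  · exact le_ordMin ξ P 0 fun i => ord_xi_nonneg S hX hξ hP i

/-- **Seat POS-LOC.** -/
theorem posLoc (S : HSetup N) (U : Unif S) : PosLocStatement S U := by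
  classical
  intro hK hWC n X hX a
  by_cases hval : ∃ P : PtN N, P ≠ S.P₀ ∧
      U.π P = S.φ a - algebraMap Qbar (FN N) (val P (S.φ a))
  swap
  · refine ⟨1, 1, 0, one_ne_zero, one_ne_zero, fun σ => ?_, fun σ => ?_,
      fun P hP hπ _ => absurd ⟨P, hP, hπ⟩ hval⟩
    · have := Pts.galFun_algebraMap N σ 1
      simpa using this
    · have := Pts.galFun_algebraMap N σ 1
      simpa using this
  obtain ⟨m, w, D, hw0, -, hDst, hDdeg, hpolar, hgood⟩ := hK a hval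
  have hDtst := dtot_galStable S X hX.galStable D hDst
  have hDtdeg := degree_dtot_ge S hX D hDdeg
  obtain ⟨f₀, f₁, hf₀, hf₁, hfix₀, hfix₁, hord₀, hord₁, hor⟩ :=
    exists_fixed_pair (dtot S X D) hDtst hDtdeg
  obtain ⟨γ₀, hγ₀⟩ := posLocal_key S hWC hX w D hw0 hpolar f₀ hf₀ hord₀
  obtain ⟨γ₁, hγ₁⟩ := posLocal_key S hWC hX w D hw0 hpolar f₁ hf₁ hord₁
  refine ⟨f₀, f₁, γ₀ + γ₁, hf₀, hf₁, hfix₀, hfix₁, fun P hP hπ hnb => ?_⟩
  obtain ⟨hD0, hreg, hunit, hκ⟩ := hgood P hP hπ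
  have hdt0 : dtot S X D P = 0 := by
    rw [dtot_apply, hD0]
    have h1 : Finsupp.single S.P₀ (1 : ℤ) P = 0 := by
      rw [Finsupp.single_apply, if_neg (Ne.symm hP)]
    have h2 : ∑ ξ ∈ X, ordMin ξ P = 0 :=
      Finset.sum_eq_zero fun ξ hξ => ordMin_eq_zero S hX hξ hP (hnb ξ hξ)
    rw [h1, h2]
    ring
  refine ⟨?_, fun f hf hfu v => ?_⟩
  · have := hor P
    rw [hdt0, neg_zero] at this
    exact this
  · have hκv := hκ v
    have e1 : ((S.e : ℝ) * (X.card : ℝ)) * (kappa S U v P + 2 * lamloc S.𝔸 v S.φ P)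
        = ((S.e : ℝ) * (X.card : ℝ)) * Real.log (vnorm S.𝔸 v fun i => val P (w i)) := by
      rw [hκv]
      ring
    rw [e1, MConst.add_apply]
    have hn0 := γ₀.nonneg v
    have hn1 := γ₁.nonneg v
    rcases hf with rfl | rfl
    · have := hγ₀ v P hP hreg hunit hnb hfu
      linarith
    · have := hγ₁ v P hP hreg hunit hnb hfu
      linarith

end Fermat.Agent.S17.Pos
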