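import Mathlib
import Fermat.Agent.S17.H.Pos.FinalPre
import Fermat.Agent.S17.H.Pos.DetLocal
import Fermat.Agent.S17.H.Pos.One
import Fermat.Agent.S17.H.Pos.PosLoc

set_option autoImplicit false

/-!
# S17, package H, seat GB: assembly modulo DATA and KAPPA

`positivityThm_of_data_kappa S hD hK : PositivityThm S` from `hD : DetData S` (seat DATA) and
`hK : ∀ U, KappaFam S U` (seat KAPPA).
-/

noncomputable section

open AlgebraicCurve ModularCurve Fermat.Agent.RR

namespace Fermat.Agent.S17.Pos

variable {N : ℕ} [NeZero N]

/-- the one-step bound, unconditionally -/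
theorem oneStep' (S : HSetup N) : OneStep S :=
  oneStep S (embBasis S) (localLe S) (localGe S)

/-- **Seat GB modulo DATA and KAPPA.** -/
theorem positivityThm_of_data_kappa (S : HSetup N) (hD : DetData S)
    (hK : ∀ U : Unif S, KappaFam S U) : PositivityThm S := by
  obtain ⟨U⟩ := nonempty_unif S
  exact positivityThm_pre S U (jetData S U (oneStep' S)) hD (hK U) (posLoc S U)

end Fermat.Agent.S17.Pos
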