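import Mathlib
import Fermat.Agent.S17.H.Pos.Props
import Fermat.Agent.S17.H.Pos.Kappa.Stable

set_option autoImplicit false

/-!
# S17, package H, seat GB-KAPPA: `kappaFam S U : KappaFam S U`

For an index `a` such that `φ_a - φ_a(P)` is the uniformizer `π_P` at some `P ≠ P₀`:
`w` = an enumeration of the functions `φ_c D_a φ_b - φ_b D_a φ_c` (`b ≠ c`, `D_a = d/dφ_a`),
`D = 2 e P₀ + div (dφ_a)` of degree `2 e + 2 g - 2` (Riemann–Hurwitz, `GenusEq.degree_divD`).
-/

noncomputable section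

open AlgebraicCurve ModularCurve Fermat.Agent.RR

namespace Fermat.Agent.S17.Pos

open Fermat.Agent.S24Diff Fermat.Agent.GenusEq

variable {N : ℕ} [NeZero N]

/-- **Seat KAPPA.** -/
theorem kappaFam (S : HSetup N) (U : Unif S) : KappaFam S U := by
  classical
  rintro a ⟨P₁, hP₁, hπ₁⟩
  have hRR : IsRRField Qbar (FN N) := Pairing.hRR N
  have hφ := S.isEmbBasis
  have he : 2 * genusFF Qbar (FN N) + 1 ≤ S.e := by
    have := S.e_large
    omega
  -- `φ_a` is not constant
  have hord₁ := U.ord_eq P₁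
  rw [hπ₁] at hord₁
  have htr0 : Transcendental Qbar (S.φ a - algebraMap Qbar (FN N) (val P₁ (S.φ a))) :=
    transcendental_of_ord_ne_zero' P₁ (by rw [hord₁]; exact one_ne_zero)
  have htr : Transcendental Qbar (S.φ a) := fun halg =>
    htr0 (halg.sub (isAlgebraic_algebraMap _))
  have h : IsFunctionFieldOver Qbar (FN N) (S.φ a) :=
    (Fermat.Agent.S24.isFunctionFieldOver_jBar N).of_transcendental htr
  have ha0 : a ≠ 0 := by
    rintro rfl
    apply htr
    rw [hφ.zero_eq_one]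
    exact isAlgebraic_one
  -- enumeration of the off-diagonal pairs
  have hne : Nonempty {p : Fin (S.r + 1) × Fin (S.r + 1) // p.1 ≠ p.2} := ⟨⟨(a, 0), ha0⟩⟩
  have hcard : 0 < Fintype.card {p : Fin (S.r + 1) × Fin (S.r + 1) // p.1 ≠ p.2} :=
    Fintype.card_pos
  obtain ⟨m, hm⟩ : ∃ m, Fintype.card {p : Fin (S.r + 1) × Fin (S.r + 1) // p.1 ≠ p.2} = m + 1 :=
    ⟨Fintype.card {p : Fin (S.r + 1) × Fin (S.r + 1) // p.1 ≠ p.2} - 1, by omega⟩
  let E : Fin (m + 1) ≃ {p : Fin (S.r + 1) × Fin (S.r + 1) // p.1 ≠ p.2} :=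
    (Fintype.equivFinOfCardEq hm).symm
  -- the uniformizer hypothesis in the form used by the generic lemmas
  have hunif : ∀ P : PtN N, U.π P = S.φ a - algebraMap Qbar (FN N) (val P (S.φ a)) →
      P.ord (S.φ a - algebraMap Qbar (FN N) (val P (S.φ a))) = 1 := fun P hP => by
    rw [← hP]
    exact U.ord_eq P
  refine ⟨m, fun i => kdW h S.φ (E i).1, kdPolar h S.P₀ (2 * (S.e : ℤ)), ?_, ?_, ?_, ?_, ?_, ?_⟩
  · -- nonzero
    intro i
    exact kdW_ne_zero h hφ (b := (E i).1.1) (c := (E i).1.2) (E i).2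
  · -- Galois-fixed
    intro σ i
    exact kdW_smul h (arithmeticGalois (modularFunctionFieldFull N) σ) (S.φ_fixed σ a)
      (fun b => S.φ_fixed σ b) (E i).1
  · -- Galois-stable divisor
    intro σ
    exact kdPolar_smul h (arithmeticGalois (modularFunctionFieldFull N) σ) (S.φ_fixed σ a)
      (S.P₀_fixed σ) _
  · -- degree
    rw [kdPolar_degree hRR h]
  · -- polar bound
    intro P
    obtain ⟨b, c, hbc, hord⟩ := kdW_exists_ord hRR h hφ he P
    refine ⟨E.symm ⟨(b, c), hbc⟩, ?_⟩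
    simp only [Equiv.apply_symm_apply]
    rw [hord, kdPolar_apply h S.P₀ S.e P]
    omega
  · -- the points where `φ_a - φ_a(P)` is the uniformizer
    intro P hP hπP
    have hπ := hunif P hπP
    have hkap : kap (S.φ a) P = 0 := kd_kap_eq_zero h P _ hπ
    refine ⟨?_, ?_, ?_, ?_⟩
    · rw [kdPolar_apply_of_ne h hP]
      exact hkap
    · intro i
      exact kdW_ord_nonneg h hφ hP _ hπ _
    · obtain ⟨b, c, hbc, hord⟩ := kdW_exists_ord hRR h hφ he P
      refine ⟨E.symm ⟨(b, c), hbc⟩, ?_⟩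
      simp only [Equiv.apply_symm_apply]
      rw [hord, Finsupp.single_eq_of_ne hP, hkap]
      ring
    · intro v
      unfold kappa
      rw [hπP]
      exact kdW_log_theta S.𝔸 v hRR h hφ he hP _ hπ E

end Fermat.Agent.S17.Pos
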