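import Mathlib
import Fermat.Agent.S17.H.Pos.FinalCore
import Fermat.Agent.S17.H.Pos.Data
import Fermat.Agent.S17.H.Pos.Kappa

set_option autoImplicit false

/-!
# S17, package H, seat GB: `positivityThm S hg : PositivityThm S`

Assembly of the seats DATA (`detData`), KAPPA (`kappaFam`), DETLOC (`jetData`), ONE (`oneStep`),
POS-LOC (`posLoc`), L4 (`weilCompareAll`), UNIF (`nonempty_unif`), ADJ, DET-GLOBAL.
-/

noncomputable section

open AlgebraicCurve ModularCurve Fermat.Agent.RR

namespace Fermat.Agent.S17.Pos

variable {N : ℕ} [NeZero N]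

/-- **Package GB.** Positivity of the height, for genus at least one. -/
theorem positivityThm (S : HSetup N) (hg : 1 ≤ genusFF Qbar (FN N)) : PositivityThm S :=
  positivityThm_of_data_kappa S (detData S hg) (fun U => kappaFam S U)

end Fermat.Agent.S17.Pos
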